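/-
(MEN), file B (helper13): the `SL₂`-calculus of `MEN_PROOF9.md` (§0, §2, §3) over an ARBITRARY
commutative ring `A`, decoupled from the arithmetic of `ℤ[1/q]` by one contract `Good N`.

* `u t`, `l t`, `h v`, `w` : elementary matrices, torus, Weyl element in `SL(2, A)`;
* `Gamma0 N`, `GammaN N` : `{g | N ∣ g₁₀}` and the principal congruence subgroup (a kernel, so normal);
* a "partial homomorphism" `φ : SL(2,A) → C` (multiplicative on `Gamma0 N`) killing `u(A)` and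
  `l(N A)` (structure `ParHom`);
* (F1) `phi_eq_of_row`, (F2) `phi_h`, (F3) `unit_trick`, (F4) `comm_row`;
* `Good N` : the arithmetic contract (= (A2) + consequence of (A1));
* **Theorem C** `thmC` : `φ (l 1 * g * l (-1)) = φ g` for `g ∈ GammaN N`;
  `phi_conj_w`, `phi_conj_of_mem_closure`;
* **Theorem R** `thmR` : the two Steinberg defects have `φ = 1`.
-/
import Mathlib

set_option autoImplicit false
set_option linter.unusedSimpArgs false

namespace Fermat.Agent.ES.MEN.SL2Calc13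

open Matrix

/-- `SL(2, A)`. -/
abbrev SL2 (A : Type*) [CommRing A] := Matrix.SpecialLinearGroup (Fin 2) A

variable {A : Type*} [CommRing A]

/-! ### entries -/

theorem ext2 {x y : SL2 A} (h00 : x 0 0 = y 0 0) (h01 : x 0 1 = y 0 1) (h10 : x 1 0 = y 1 0)
    (h11 : x 1 1 = y 1 1) : x = y := by
  apply Matrix.SpecialLinearGroup.ext
  intro i j
  fin_cases i <;> fin_cases j <;> assumption

theorem det_eq (x : SL2 A) : x 0 0 * x 1 1 - x 0 1 * x 1 0 = 1 := by
  have := x.2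
  rwa [Matrix.det_fin_two] at this

theorem mul_entry (x y : SL2 A) (i j : Fin 2) :
    (x * y) i j = x i 0 * y 0 j + x i 1 * y 1 j := by
  rw [Matrix.SpecialLinearGroup.coe_mul, Matrix.mul_apply, Fin.sum_univ_two]

theorem inv_00 (x : SL2 A) : x⁻¹ 0 0 = x 1 1 := by
  simp [Matrix.SpecialLinearGroup.coe_inv, Matrix.adjugate_fin_two]

theorem inv_01 (x : SL2 A) : x⁻¹ 0 1 = - x 0 1 := by
  simp [Matrix.SpecialLinearGroup.coe_inv, Matrix.adjugate_fin_two]

theorem inv_10 (x : SL2 A) : x⁻¹ 1 0 = - x 1 0 := by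
  simp [Matrix.SpecialLinearGroup.coe_inv, Matrix.adjugate_fin_two]

theorem inv_11 (x : SL2 A) : x⁻¹ 1 1 = x 0 0 := by
  simp [Matrix.SpecialLinearGroup.coe_inv, Matrix.adjugate_fin_two]

/-- the upper unipotent `u(t) = [[1,t],[0,1]]`. -/
def u (t : A) : SL2 A := ⟨!![1, t; 0, 1], by simp [Matrix.det_fin_two_of]⟩

/-- the lower unipotent `l(t) = [[1,0],[t,1]]`. -/
def l (t : A) : SL2 A := ⟨!![1, 0; t, 1], by simp [Matrix.det_fin_two_of]⟩

/-- the torus element `h(v) = diag(v, v⁻¹)`. -/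
def h (v : Aˣ) : SL2 A := ⟨!![(v : A), 0; 0, ((v⁻¹ : Aˣ) : A)], by simp [Matrix.det_fin_two_of]⟩

/-- the Weyl element `w = [[0,-1],[1,0]]`. -/
def w : SL2 A := ⟨!![0, -1; 1, 0], by simp [Matrix.det_fin_two_of]⟩

@[simp] theorem u_00 (t : A) : u t 0 0 = 1 := rfl
@[simp] theorem u_01 (t : A) : u t 0 1 = t := rfl
@[simp] theorem u_10 (t : A) : u t 1 0 = 0 := rfl
@[simp] theorem u_11 (t : A) : u t 1 1 = 1 := rfl
@[simp] theorem l_00 (t : A) : l t 0 0 = 1 := rfl
@[simp] theorem l_01 (t : A) : l t 0 1 = 0 := rfl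
@[simp] theorem l_10 (t : A) : l t 1 0 = t := rfl
@[simp] theorem l_11 (t : A) : l t 1 1 = 1 := rfl
@[simp] theorem h_00 (v : Aˣ) : h v 0 0 = (v : A) := rfl
@[simp] theorem h_01 (v : Aˣ) : h v 0 1 = 0 := rfl
@[simp] theorem h_10 (v : Aˣ) : h v 1 0 = 0 := rfl
@[simp] theorem h_11 (v : Aˣ) : h v 1 1 = ((v⁻¹ : Aˣ) : A) := rfl
@[simp] theorem w_00 : (w : SL2 A) 0 0 = 0 := rfl
@[simp] theorem w_01 : (w : SL2 A) 0 1 = -1 := rfl
@[simp] theorem w_10 : (w : SL2 A) 1 0 = 1 := rfl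
@[simp] theorem w_11 : (w : SL2 A) 1 1 = 0 := rfl

theorem u_add (s t : A) : u (s + t) = u s * u t := by
  apply ext2 <;> simp [mul_entry, add_comm]

theorem l_add (s t : A) : l (s + t) = l s * l t := by
  apply ext2 <;> simp [mul_entry]

theorem u_zero : u (0 : A) = 1 := by
  apply ext2 <;> simp

theorem l_zero : l (0 : A) = 1 := by
  apply ext2 <;> simp

theorem u_neg (t : A) : u (-t) = (u t)⁻¹ := by
  apply ext2 <;> simp [inv_00, inv_01, inv_10, inv_11]

theorem l_neg (t : A) : l (-t) = (l t)⁻¹ := by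
  apply ext2 <;> simp [inv_00, inv_01, inv_10, inv_11]

/-- `w = u(-1) l(1) u(-1)`. -/
theorem w_eq : (w : SL2 A) = u (-1) * l 1 * u (-1) := by
  apply ext2 <;> simp [mul_entry]


/-! ### congruence subgroups -/

/-- `Γ₀(N)(A) = {g ∈ SL(2,A) | N ∣ g₁₀}`. -/
def Gamma0 (N : A) : Subgroup (SL2 A) where
  carrier := {g | N ∣ g 1 0}
  one_mem' := by
    show N ∣ (1 : SL2 A) 1 0
    simp
  mul_mem' := by
    intro x y hx hy
    show N ∣ (x * y) 1 0
    rw [mul_entry]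
    exact dvd_add (Dvd.dvd.mul_right hx _) (Dvd.dvd.mul_left hy _)
  inv_mem' := by
    intro x hx
    show N ∣ x⁻¹ 1 0
    rw [inv_10]
    exact (dvd_neg).mpr hx

theorem mem_Gamma0 {N : A} {g : SL2 A} : g ∈ Gamma0 N ↔ N ∣ g 1 0 := Iff.rfl

/-- the principal congruence subgroup `Γ(N)(A)`, as a kernel. -/
def GammaN (N : A) : Subgroup (SL2 A) :=
  (Matrix.SpecialLinearGroup.map (Ideal.Quotient.mk (Ideal.span {N}))).ker

instance (N : A) : (GammaN N).Normal := by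
  unfold GammaN
  infer_instance

theorem mem_GammaN {N : A} {g : SL2 A} :
    g ∈ GammaN N ↔ N ∣ g 0 0 - 1 ∧ N ∣ g 0 1 ∧ N ∣ g 1 0 ∧ N ∣ g 1 1 - 1 := by
  unfold GammaN
  rw [MonoidHom.mem_ker]
  have key : ∀ a : A, Ideal.Quotient.mk (Ideal.span {N}) a = 0 ↔ N ∣ a := by
    intro a
    rw [Ideal.Quotient.eq_zero_iff_mem, Ideal.mem_span_singleton]
  constructor
  · intro hg
    have e : ∀ i j, Ideal.Quotient.mk (Ideal.span {N}) (g i j) = (1 : Matrix (Fin 2) (Fin 2) _) i j := by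
      intro i j
      have := congrArg (fun m : SL2 (A ⧸ Ideal.span {N}) => m i j) hg
      simpa [Matrix.SpecialLinearGroup.map_apply_coe] using this
    refine ⟨?_, ?_, ?_, ?_⟩
    · rw [← key, map_sub, e 0 0]; simp
    · rw [← key, e 0 1]; simp
    · rw [← key, e 1 0]; simp
    · rw [← key, map_sub, e 1 1]; simp
  · rintro ⟨h00, h01, h10, h11⟩
    apply Matrix.SpecialLinearGroup.ext
    intro i j
    rw [← key] at h00 h01 h10 h11
    rw [map_sub, sub_eq_zero] at h00 h11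
    fin_cases i <;> fin_cases j <;>
      simp [Matrix.SpecialLinearGroup.map_apply_coe, h00, h01, h10, h11]

theorem GammaN_le_Gamma0 (N : A) : GammaN N ≤ Gamma0 N := fun _ hg => (mem_GammaN.mp hg).2.2.1

theorem u_mem_Gamma0 (N t : A) : u t ∈ Gamma0 N := by
  show N ∣ u t 1 0
  simp

theorem l_mem_Gamma0 (N s : A) : l (N * s) ∈ Gamma0 N := by
  show N ∣ l (N * s) 1 0
  simp

theorem h_mem_Gamma0 (N : A) (v : Aˣ) : h v ∈ Gamma0 N := by
  show N ∣ h v 1 0
  simp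

theorem u_mem_GammaN (N t : A) : u (N * t) ∈ GammaN N := by
  rw [mem_GammaN]; simp

theorem l_mem_GammaN (N t : A) : l (N * t) ∈ GammaN N := by
  rw [mem_GammaN]; simp


/-! ### partial homomorphisms on `Γ₀(N)(A)` killing `u(A)` and `l(N A)` -/

/-- a function `φ : SL(2,A) → C`, multiplicative on `Γ₀(N)(A)`, killing `u(A)` and `l(N A)`.
(A homomorphism `Γ₀(N)(A) →* C` extended by `1` outside `Γ₀(N)(A)` is of this kind.) -/
structure ParHom (N : A) (C : Type*) [CommGroup C] where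
  /-- the function -/
  φ : SL2 A → C
  map_mul : ∀ x y : SL2 A, x ∈ Gamma0 N → y ∈ Gamma0 N → φ (x * y) = φ x * φ y
  map_u : ∀ t : A, φ (u t) = 1
  map_l : ∀ s : A, φ (l (N * s)) = 1

namespace ParHom

variable {N : A} {C : Type*} [CommGroup C] (P : ParHom N C)

theorem map_one : P.φ 1 = 1 := by
  have := P.map_mul 1 1 (one_mem _) (one_mem _)
  rw [one_mul] at this
  exact (mul_eq_left.mp this.symm)

theorem map_inv {x : SL2 A} (hx : x ∈ Gamma0 N) : P.φ x⁻¹ = (P.φ x)⁻¹ := by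
  have := P.map_mul x x⁻¹ hx (inv_mem hx)
  rw [mul_inv_cancel, P.map_one] at this
  exact (eq_inv_of_mul_eq_one_right this.symm)

/-- conjugation invariance inside `Γ₀(N)(A)`. -/
theorem map_conj {x g : SL2 A} (hx : x ∈ Gamma0 N) (hg : g ∈ Gamma0 N) :
    P.φ (x * g * x⁻¹) = P.φ g := by
  rw [P.map_mul _ _ (mul_mem hx hg) (inv_mem hx), P.map_mul _ _ hx hg, P.map_inv hx]
  rw [mul_comm (P.φ x), mul_assoc, mul_inv_cancel, mul_one]

theorem map_mul_u {x : SL2 A} (hx : x ∈ Gamma0 N) (t : A) : P.φ (x * u t) = P.φ x := by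
  rw [P.map_mul _ _ hx (u_mem_Gamma0 N t), P.map_u, mul_one]

theorem map_mul_l {x : SL2 A} (hx : x ∈ Gamma0 N) (s : A) : P.φ (x * l (N * s)) = P.φ x := by
  rw [P.map_mul _ _ hx (l_mem_Gamma0 N s), P.map_l, mul_one]

/-- **(F1)**: `φ` depends only on the first row. -/
theorem phi_eq_of_row {x y : SL2 A} (hx : x ∈ Gamma0 N) (hy : y ∈ Gamma0 N)
    (h00 : x 0 0 = y 0 0) (h01 : x 0 1 = y 0 1) : P.φ x = P.φ y := by
  obtain ⟨s, hs⟩ := mem_Gamma0.mp hx
  obtain ⟨s', hs'⟩ := mem_Gamma0.mp hy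
  -- `y = l(z) * x`, `z = y₁₀ x₁₁ - y₁₁ x₁₀ = N (s' x₁₁ - y₁₁ s)`
  have e : y = l (N * (s' * x 1 1 - y 1 1 * s)) * x := by
    have dx := det_eq x
    have dy := det_eq y
    apply ext2
    · simp [mul_entry, h00]
    · simp [mul_entry, h01]
    · simp only [mul_entry, l_10, l_11, one_mul]
      rw [← h00, ← h01] at dy
      linear_combination (-(y 1 0)) * dx + (x 1 0) * dy + (x 1 1 * x 0 0) * hs'
        - (y 1 1 * x 0 0) * hs
    · simp only [mul_entry, l_10, l_11, one_mul]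
      rw [← h00, ← h01] at dy
      linear_combination (x 1 1) * dy - (y 1 1) * dx + (x 1 1 * x 0 1) * hs'
        - (y 1 1 * x 0 1) * hs
  rw [e, P.map_mul _ _ (l_mem_Gamma0 N _) hx, P.map_l, one_mul]


/-- **(F2)** (Whitehead): `φ (h v) = 1` for a unit `v ≡ 1 mod N`. -/
theorem phi_h {v : Aˣ} (hv : N ∣ (v : A) - 1) : P.φ (h v) = 1 := by
  obtain ⟨s, hs⟩ := hv
  have hvv : (v : A) * ((v⁻¹ : Aˣ) : A) = 1 := Units.mul_inv v
  have e : h v = l (N * (-(s * ((v⁻¹ : Aˣ) : A)))) * u 1 * l (N * s) * u (-((v⁻¹ : Aˣ) : A)) := by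
    apply ext2
    · simp only [mul_entry, h_00, l_00, l_01, l_10, l_11, u_00, u_01, u_10, u_11]
      linear_combination hs
    · simp only [mul_entry, h_01, l_00, l_01, l_10, l_11, u_00, u_01, u_10, u_11]
      linear_combination hvv - (((v⁻¹ : Aˣ) : A)) * hs
    · simp only [mul_entry, h_10, l_00, l_01, l_10, l_11, u_00, u_01, u_10, u_11]
      linear_combination (N * s) * hvv - (N * s * ((v⁻¹ : Aˣ) : A)) * hs
    · simp only [mul_entry, h_11, l_00, l_01, l_10, l_11, u_00, u_01, u_10, u_11]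
      linear_combination (N * s * ((v⁻¹ : Aˣ) : A) * ((v⁻¹ : Aˣ) : A)- ((v⁻¹ : Aˣ) : A) ) * hs
        + (- N * s * ((v⁻¹ : Aˣ) : A) + 1) * hvv
  have m1 : l (N * (-(s * ((v⁻¹ : Aˣ) : A)))) ∈ Gamma0 N := l_mem_Gamma0 N _
  have m2 : l (N * (-(s * ((v⁻¹ : Aˣ) : A)))) * u 1 ∈ Gamma0 N := mul_mem m1 (u_mem_Gamma0 N 1)
  have m3 : l (N * (-(s * ((v⁻¹ : Aˣ) : A)))) * u 1 * l (N * s) ∈ Gamma0 N :=
    mul_mem m2 (l_mem_Gamma0 N s)
  rw [e, P.map_mul_u m3, P.map_mul_l m2, P.map_mul_u m1, P.map_l]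

/-- **(F3)** (unit trick): if the first row `(α, β)` of `x ∈ Γ₀(N)(A)` satisfies `α ≡ v mod N β`
for a unit `v ≡ 1 mod N`, then `φ x = 1`. -/
theorem unit_trick {x : SL2 A} (hx : x ∈ Gamma0 N) {v : Aˣ} (hv : N ∣ (v : A) - 1)
    (hxv : N * x 0 1 ∣ x 0 0 - (v : A)) : P.φ x = 1 := by
  obtain ⟨s, hs⟩ := hxv
  have hvv : (v : A) * ((v⁻¹ : Aˣ) : A) = 1 := Units.mul_inv v
  have my : x * l (N * (-s)) ∈ Gamma0 N := mul_mem hx (l_mem_Gamma0 N _)
  have mz : x * l (N * (-s)) * u (-(x 0 1 * ((v⁻¹ : Aˣ) : A))) ∈ Gamma0 N :=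
    mul_mem my (u_mem_Gamma0 N _)
  have e := P.phi_eq_of_row mz (h_mem_Gamma0 N v)
    (by
      simp only [mul_entry, h_00, l_00, l_01, l_10, l_11, u_00, u_01, u_10, u_11]
      linear_combination hs)
    (by
      simp only [mul_entry, h_01, l_00, l_01, l_10, l_11, u_00, u_01, u_10, u_11]
      linear_combination (-(x 0 1) * ((v⁻¹ : Aˣ) : A)) * hs - (x 0 1) * hvv)
  rw [P.map_mul_u my, P.map_mul_l hx, P.phi_h hv] at e
  exact e

end ParHom

/-- **(F4)**: the first row of the commutator `[l(1), g]` is `(1 - b d, b²)`. -/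
theorem comm_row (g : SL2 A) :
    (l 1 * g * l (-1) * g⁻¹ : SL2 A) 0 0 = 1 - g 0 1 * g 1 1 ∧
      (l 1 * g * l (-1) * g⁻¹ : SL2 A) 0 1 = g 0 1 ^ 2 := by
  have dg := det_eq g
  constructor
  · simp only [mul_entry, inv_00, inv_10, l_00, l_01, l_10, l_11]
    linear_combination dg
  · simp only [mul_entry, inv_01, inv_11, l_00, l_01, l_10, l_11]
    ring

/-- `l(1) u(t) l(-1) = u(1) l(-t) u(-1)`. -/
theorem l_u_l (t : A) : l 1 * u t * l (-1) = u 1 * l (-t) * u (-1) := by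
  apply ext2 <;>
    (simp only [mul_entry, u_00, u_01, u_10, u_11, l_00, l_01, l_10, l_11]; ring)

/-! ### the arithmetic contract -/

/-- **the arithmetic contract** (= (A2) + the consequence of (A1) in `MEN_PROOF9.md`): every
coprime pair `(a, b)` with `a` prime to `N` has a modulus `B ≡ b mod a`, `N ∣ B`, such that
every `α ≡ 1 mod B` is congruent mod `N B²` to a unit `v ≡ 1 mod N`. -/
def Good (N : A) : Prop :=
  ∀ a b : A, IsCoprime a b → IsCoprime a N →
    ∃ B : A, N ∣ B ∧ a ∣ (B - b) ∧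
      ∀ α : A, B ∣ (α - 1) → ∃ v : Aˣ, N ∣ ((v : A) - 1) ∧ N * B ^ 2 ∣ (α - (v : A))


/-! ### Theorem C (centrality) -/

namespace ParHom

variable {N : A} {C : Type*} [CommGroup C] (P : ParHom N C)

theorem conj_l_mem {g : SL2 A} (hg : g ∈ GammaN N) : l 1 * g * l (-1) ∈ GammaN N := by
  have := (inferInstance : (GammaN N).Normal).conj_mem g hg (l 1)
  rwa [← l_neg] at this

/-- `φ (l(1) u(N t) l(-1)) = 1`. -/
theorem phi_conj_l_u (t : A) : P.φ (l 1 * u (N * t) * l (-1)) = 1 := by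
  rw [l_u_l]
  have m1 : (u 1 : SL2 A) ∈ Gamma0 N := u_mem_Gamma0 N 1
  have m2 : u 1 * l (-(N * t)) ∈ Gamma0 N := by
    have : -(N * t) = N * (-t) := by ring
    rw [this]
    exact mul_mem m1 (l_mem_Gamma0 N _)
  rw [P.map_mul_u m2]
  have : -(N * t) = N * (-t) := by ring
  rw [this, P.map_mul_l m1, P.map_u]

/-- **Theorem C**: `φ (l(1) g l(-1)) = φ g` for `g ∈ Γ(N)(A)`. -/
theorem thmC (hG : Good N) {g : SL2 A} (hg : g ∈ GammaN N) :
    P.φ (l 1 * g * l (-1)) = P.φ g := by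
  obtain ⟨⟨k00, h00⟩, h01, h10, h11⟩ := mem_GammaN.mp hg
  have dg := det_eq g
  have cop_ab : IsCoprime (g 0 0) (g 0 1) := ⟨g 1 1, - g 1 0, by linear_combination dg⟩
  have cop_aN : IsCoprime (g 0 0) N := ⟨1, -k00, by linear_combination h00⟩
  obtain ⟨B, hNB, ⟨τ, hτ⟩, hB⟩ := hG (g 0 0) (g 0 1) cop_ab cop_aN
  -- `N ∣ τ`
  have hNτ : N ∣ τ := by
    have h1 : N ∣ τ * g 0 0 := by
      have : τ * g 0 0 = B - g 0 1 := by rw [hτ]; ring
      rw [this]
      exact dvd_sub hNB h01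
    exact cop_aN.symm.dvd_of_dvd_mul_right h1
  obtain ⟨τ', rfl⟩ := hNτ
  -- `g' = g u(τ)` has first row `(a, B)`
  set g' : SL2 A := g * u (N * τ') with hg'
  have hg'mem : g' ∈ GammaN N := mul_mem hg (u_mem_GammaN N τ')
  have hgG : g ∈ Gamma0 N := GammaN_le_Gamma0 N hg
  have hg'G : g' ∈ Gamma0 N := GammaN_le_Gamma0 N hg'mem
  have e01 : g' 0 1 = B := by
    simp only [hg', mul_entry, u_01, u_11]
    linear_combination (-1 : A) * hτ
  -- (1) `φ (cj g') = φ (cj g)`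
  have s1 : P.φ (l 1 * g' * l (-1)) = P.φ (l 1 * g * l (-1)) := by
    have e : l 1 * g' * l (-1) = (l 1 * g * l (-1)) * (l 1 * u (N * τ') * l (-1)) := by
      rw [hg', l_neg]; group
    rw [e, P.map_mul _ _ (GammaN_le_Gamma0 N (conj_l_mem hg))
      (GammaN_le_Gamma0 N (conj_l_mem (u_mem_GammaN N τ'))), P.phi_conj_l_u, mul_one]
  -- (2) `φ g' = φ g`
  have s2 : P.φ g' = P.φ g := P.map_mul_u hgG _
  -- (3) `φ (cj g') = φ g'`
  have s3 : P.φ (l 1 * g' * l (-1)) = P.φ g' := by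
    have hk : l 1 * g' * l (-1) * g'⁻¹ ∈ Gamma0 N :=
      mul_mem (GammaN_le_Gamma0 N (conj_l_mem hg'mem)) (inv_mem hg'G)
    have e : l 1 * g' * l (-1) = (l 1 * g' * l (-1) * g'⁻¹) * g' := by group
    obtain ⟨r00, r01⟩ := comm_row g'
    obtain ⟨v, hv, hv2⟩ := hB ((l 1 * g' * l (-1) * g'⁻¹ : SL2 A) 0 0)
      (by rw [r00, e01]; exact ⟨- g' 1 1, by ring⟩)
    have hk1 : P.φ (l 1 * g' * l (-1) * g'⁻¹) = 1 :=
      P.unit_trick hk hv (by rw [r01, e01]; exact hv2)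
    rw [e, P.map_mul _ _ hk hg'G, hk1, one_mul]
  rw [← s1, s3, s2]

/-- `φ (w g w⁻¹) = φ g` for `g ∈ Γ(N)(A)`. -/
theorem phi_conj_w (hG : Good N) {g : SL2 A} (hg : g ∈ GammaN N) :
    P.φ (w * g * w⁻¹) = P.φ g := by
  have nm := (inferInstance : (GammaN N).Normal)
  have hu1 : (u (-1) : SL2 A) ∈ Gamma0 N := u_mem_Gamma0 N _
  -- three successive conjugations
  have g1 : u (-1) * g * (u (-1))⁻¹ ∈ GammaN N := nm.conj_mem g hg _
  have g2 : l 1 * (u (-1) * g * (u (-1))⁻¹) * l (-1) ∈ GammaN N := conj_l_mem g1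
  have e : w * g * w⁻¹ =
      u (-1) * (l 1 * (u (-1) * g * (u (-1))⁻¹) * l (-1)) * (u (-1))⁻¹ := by
    rw [w_eq, l_neg]; group
  rw [e, P.map_conj hu1 (GammaN_le_Gamma0 N g2), P.thmC hG g1,
    P.map_conj hu1 (GammaN_le_Gamma0 N hg)]

/-- `φ` restricted to `Γ(N)(A)` is invariant under conjugation by the subgroup generated by
`Γ₀(N)(A)` and `l(1)` (which is all of `SL(2,A)` when `A = ℤ[1/q]`). -/
theorem phi_conj_of_mem_closure (hG : Good N) {y : SL2 A}
    (hy : y ∈ Subgroup.closure ((Gamma0 N : Set (SL2 A)) ∪ {l 1})) :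
    ∀ g ∈ GammaN N, P.φ (y * g * y⁻¹) = P.φ g := by
  have nm := (inferInstance : (GammaN N).Normal)
  induction hy using Subgroup.closure_induction with
  | mem x hx =>
    intro g hg
    rcases hx with hx | hx
    · exact P.map_conj hx (GammaN_le_Gamma0 N hg)
    · rw [Set.mem_singleton_iff] at hx
      rw [hx, ← l_neg]
      exact P.thmC hG hg
  | one =>
    intro g _
    simp
  | mul x y _ _ ihx ihy =>
    intro g hg
    have e : x * y * g * (x * y)⁻¹ = x * (y * g * y⁻¹) * x⁻¹ := by group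
    rw [e, ihx _ (nm.conj_mem g hg y), ihy g hg]
  | inv x _ ih =>
    intro g hg
    have hg0 : x⁻¹ * g * x⁻¹⁻¹ ∈ GammaN N := nm.conj_mem g hg _
    have := ih _ hg0
    rw [← this]
    congr 1
    group

end ParHom


/-! ### Theorem R (Steinberg relations) -/

/-- `M(x, y) = l(x) u(-y) l(x)`, a lift of `m(x) = [[0, -1/x], [x, 0]]` when `x y ≡ 1 mod N`. -/
def mW (x y : A) : SL2 A := l x * u (-y) * l x

theorem mW_00 (x y : A) : mW x y 0 0 = 1 - x * y := by
  simp only [mW, mul_entry, u_00, u_01, u_10, u_11, l_00, l_01, l_10, l_11]; ring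

theorem mW_01 (x y : A) : mW x y 0 1 = -y := by
  simp only [mW, mul_entry, u_00, u_01, u_10, u_11, l_00, l_01, l_10, l_11]; ring

theorem mW_10 (x y : A) : mW x y 1 0 = x * (2 - x * y) := by
  simp only [mW, mul_entry, u_00, u_01, u_10, u_11, l_00, l_01, l_10, l_11]; ring

theorem mW_11 (x y : A) : mW x y 1 1 = 1 - x * y := by
  simp only [mW, mul_entry, u_00, u_01, u_10, u_11, l_00, l_01, l_10, l_11]; ring

/-- the first Steinberg defect `M u(1) M⁻¹ l(x²)`. -/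
def defect1 (x y : A) : SL2 A := mW x y * u 1 * (mW x y)⁻¹ * l (x ^ 2)

/-- the second Steinberg defect `M l(1) M⁻¹ u(y²)`. -/
def defect2 (x y : A) : SL2 A := mW x y * l 1 * (mW x y)⁻¹ * u (y ^ 2)

theorem defect1_00 (x y : A) :
    defect1 x y 0 0 = 1 + (1 - x * y) * (-(x * (2 - x * y)) + (1 - x * y) * x ^ 2) := by
  simp only [defect1, mul_entry, inv_00, inv_01, inv_10, inv_11, mW_00, mW_01, mW_10, mW_11,
    u_00, u_01, u_10, u_11, l_00, l_01, l_10, l_11]
  ring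

theorem defect1_01 (x y : A) : defect1 x y 0 1 = (1 - x * y) ^ 2 := by
  simp only [defect1, mul_entry, inv_00, inv_01, inv_10, inv_11, mW_00, mW_01, mW_10, mW_11,
    u_00, u_01, u_10, u_11, l_00, l_01, l_10, l_11]
  ring

theorem defect1_10 (x y : A) :
    defect1 x y 1 0 = (1 - x * y) * (x ^ 2 * (-(2 : A) - (1 - x * y)) + x * (2 - x * y) * x ^ 2) := by
  simp only [defect1, mul_entry, inv_00, inv_01, inv_10, inv_11, mW_00, mW_01, mW_10, mW_11,
    u_00, u_01, u_10, u_11, l_00, l_01, l_10, l_11]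
  ring

theorem defect1_11 (x y : A) :
    defect1 x y 1 1 = 1 + (1 - x * y) * (x * (2 - x * y)) := by
  simp only [defect1, mul_entry, inv_00, inv_01, inv_10, inv_11, mW_00, mW_01, mW_10, mW_11,
    u_00, u_01, u_10, u_11, l_00, l_01, l_10, l_11]
  ring

theorem defect2_00 (x y : A) : defect2 x y 0 0 = 1 + (1 - x * y) * (-y) := by
  simp only [defect2, mul_entry, inv_00, inv_01, inv_10, inv_11, mW_00, mW_01, mW_10, mW_11,
    u_00, u_01, u_10, u_11, l_00, l_01, l_10, l_11]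
  ring

theorem defect2_01 (x y : A) : defect2 x y 0 1 = (1 - x * y) * (-(y ^ 3)) := by
  simp only [defect2, mul_entry, inv_00, inv_01, inv_10, inv_11, mW_00, mW_01, mW_10, mW_11,
    u_00, u_01, u_10, u_11, l_00, l_01, l_10, l_11]
  ring

theorem defect2_10 (x y : A) : defect2 x y 1 0 = (1 - x * y) ^ 2 := by
  simp only [defect2, mul_entry, inv_00, inv_01, inv_10, inv_11, mW_00, mW_01, mW_10, mW_11,
    u_00, u_01, u_10, u_11, l_00, l_01, l_10, l_11]
  ring

theorem defect2_11 (x y : A) :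
    defect2 x y 1 1 = 1 + (1 - x * y) * (y + (1 - x * y) * y ^ 2) := by
  simp only [defect2, mul_entry, inv_00, inv_01, inv_10, inv_11, mW_00, mW_01, mW_10, mW_11,
    u_00, u_01, u_10, u_11, l_00, l_01, l_10, l_11]
  ring

theorem defect1_mem {N x y : A} (h : N ∣ 1 - x * y) : defect1 x y ∈ GammaN N := by
  rw [mem_GammaN, defect1_00, defect1_01, defect1_10, defect1_11]
  refine ⟨?_, ?_, ?_, ?_⟩
  · rw [add_sub_cancel_left]; exact h.mul_right _
  · rw [pow_two]; exact h.mul_right _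
  · exact h.mul_right _
  · rw [add_sub_cancel_left]; exact h.mul_right _

theorem defect2_mem {N x y : A} (h : N ∣ 1 - x * y) : defect2 x y ∈ GammaN N := by
  rw [mem_GammaN, defect2_00, defect2_01, defect2_10, defect2_11]
  refine ⟨?_, ?_, ?_, ?_⟩
  · rw [add_sub_cancel_left]; exact h.mul_right _
  · exact h.mul_right _
  · rw [pow_two]; exact h.mul_right _
  · rw [add_sub_cancel_left]; exact h.mul_right _

theorem w_conj_00 (g : SL2 A) : (w * g * w⁻¹ : SL2 A) 0 0 = g 1 1 := by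
  simp only [mul_entry, inv_00, inv_10, w_00, w_01, w_10, w_11]; ring

theorem w_conj_01 (g : SL2 A) : (w * g * w⁻¹ : SL2 A) 0 1 = - g 1 0 := by
  simp only [mul_entry, inv_01, inv_11, w_00, w_01, w_10, w_11]; ring

namespace ParHom

variable {N : A} {C : Type*} [CommGroup C] (P : ParHom N C)

/-- **Theorem R**: for every `x` prime to `N` there is `y` with `x y ≡ 1 mod N` such that the two
Steinberg defects `M u(1) M⁻¹ l(x²)` and `M l(1) M⁻¹ u(y²)`, `M = l(x) u(-y) l(x)`, lie in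
`Γ(N)(A)` and are killed by `φ`. -/
theorem thmR (hG : Good N) {x : A} (hx : IsCoprime x N) :
    ∃ y : A, N ∣ 1 - x * y ∧ defect1 x y ∈ GammaN N ∧ P.φ (defect1 x y) = 1 ∧
      defect2 x y ∈ GammaN N ∧ P.φ (defect2 x y) = 1 := by
  obtain ⟨B, hNB, ⟨k, hk⟩, hB⟩ := hG x 1 isCoprime_one_right hx
  have hBη : B = 1 - x * (-k) := by linear_combination hk
  subst hBη
  refine ⟨-k, hNB, defect1_mem hNB, ?_, defect2_mem hNB, ?_⟩
  · -- first defect: first row `(α, B²)`, `α ≡ 1 mod B`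
    obtain ⟨v, hv, hv2⟩ := hB (defect1 x (-k) 0 0)
      (by rw [defect1_00, add_sub_cancel_left]; exact Dvd.intro _ rfl)
    exact P.unit_trick (GammaN_le_Gamma0 N (defect1_mem hNB)) hv
      (by rw [defect1_01]; exact hv2)
  · -- second defect: conjugate by `w`, first row `(α, -B²)`
    have hm := defect2_mem (N := N) hNB
    have nm := (inferInstance : (GammaN N).Normal)
    have hm' : w * defect2 x (-k) * w⁻¹ ∈ GammaN N := nm.conj_mem _ hm w
    rw [← P.phi_conj_w hG hm]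
    obtain ⟨v, hv, hv2⟩ := hB (defect2 x (-k) 1 1)
      (by rw [defect2_11, add_sub_cancel_left]; exact Dvd.intro _ rfl)
    refine P.unit_trick (GammaN_le_Gamma0 N hm') hv ?_
    rw [w_conj_00, w_conj_01, defect2_10, mul_neg, neg_dvd]
    exact hv2

end ParHom

end Fermat.Agent.ES.MEN.SL2Calc13
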