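import Mathlib

set_option autoImplicit false

namespace Fermat.Agent.ES.MEN.Amalgam11

open Monoid Monoid.PushoutI Matrix MatrixGroups CongruenceSubgroup

section Abstract

variable {𝒢 : Type*} [Group 𝒢] {ι : Type*} (S : ι → Subgroup 𝒢) (B : Subgroup 𝒢)
  (hB : ∀ i, B ≤ S i)

/-- The inclusion of the base group `B` into the `i`-th vertex group. -/
def incl (i : ι) : ↥B →* ↥(S i) := Subgroup.inclusion (hB i)

theorem incl_injective (i : ι) : Function.Injective (incl S B hB i) :=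
  Subgroup.inclusion_injective (hB i)

/-- The canonical map from the amalgamated product of the `S i` over `B` to the ambient group. -/
def toGroup : PushoutI (incl S B hB) →* 𝒢 :=
  PushoutI.lift (fun i => (S i).subtype) B.subtype (fun i => by ext x; rfl)

@[simp] theorem toGroup_of (i : ι) (g : ↥(S i)) :
    toGroup S B hB (PushoutI.of i g) = (g : 𝒢) := by
  simp [toGroup]

@[simp] theorem toGroup_base (b : ↥B) :
    toGroup S B hB (PushoutI.base (incl S B hB) b) = (b : 𝒢) := by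
  simp [toGroup]

/-- The ping-pong (reduced words are not in the base) hypothesis. -/
def PingPong : Prop :=
  ∀ l : List (Σ i, ↥(S i)), l ≠ [] → (∀ p ∈ l, ((p.2 : 𝒢)) ∉ B) →
    l.IsChain (fun a b => a.1 ≠ b.1) → (l.map (fun p => ((p.2 : ↥(S p.1)) : 𝒢))).prod ∉ B

theorem toGroup_ofCoprodI_prod (w : CoprodI.Word (fun i => ↥(S i))) :
    toGroup S B hB (PushoutI.ofCoprodI w.prod) =
      (w.toList.map (fun p => ((p.2 : ↥(S p.1)) : 𝒢))).prod := by
  rw [CoprodI.Word.prod, map_list_prod, map_list_prod, List.map_map, List.map_map]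
  congr 1

theorem toGroup_injective (hpp : PingPong S B) : Function.Injective (toGroup S B hB) := by
  classical
  rw [injective_iff_map_eq_one]
  intro x hx
  obtain ⟨d⟩ := NormalWord.transversal_nonempty (incl S B hB) (incl_injective S B hB)
  set w : NormalWord d := NormalWord.equiv (d := d) x with hw
  have hxw : x = w.prod := (NormalWord.equiv.symm_apply_apply x).symm
  have h1 : toGroup S B hB x = (w.head : 𝒢) *
      (w.toList.map (fun p => ((p.2 : ↥(S p.1)) : 𝒢))).prod := by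
    rw [hxw, NormalWord.prod, map_mul, toGroup_base, toGroup_ofCoprodI_prod]
  have hne : ∀ p ∈ w.toList, ((p.2 : ↥(S p.1)) : 𝒢) ∉ B := by
    rintro ⟨i, g⟩ hp hgB
    have hg1 : g ≠ 1 := w.ne_one _ hp
    have hgd : g ∈ d.set i := w.normalized i g hp
    -- g is in the range of incl, and in the transversal, hence trivial
    have hcompl := d.compl i
    have hrange : g ∈ (incl S B hB i).range := ⟨⟨(g : 𝒢), hgB⟩, Subtype.ext rfl⟩
    have huniq := hcompl.existsUnique g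
    obtain ⟨⟨a, b⟩, -, hu⟩ := huniq
    have e1 := hu (⟨g, hrange⟩, ⟨1, d.one_mem i⟩) (by simp)
    have e2 := hu (⟨1, one_mem _⟩, ⟨g, hgd⟩) (by simp)
    have : ((⟨g, hrange⟩ : (incl S B hB i).range), (⟨1, d.one_mem i⟩ : d.set i)) =
        ((⟨1, one_mem _⟩ : (incl S B hB i).range), (⟨g, hgd⟩ : d.set i)) := e1.trans e2.symm
    have := congrArg (fun p => (p.1 : ↥(S i))) this
    exact hg1 (by simpa using this)
  by_cases hl : w.toList = []
  · -- empty word: x = base head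
    have hx' : x = PushoutI.base (incl S B hB) w.head := by
      rw [hxw, NormalWord.prod]
      have : w.toWord = CoprodI.Word.empty := by
        ext1; simpa using hl
      rw [this]; simp
    rw [h1, hl] at hx
    simp only [List.map_nil, List.prod_nil, mul_one] at hx
    have : w.head = 1 := Subtype.ext (by simpa using hx)
    rw [hx', this, map_one]
  · exfalso
    have := hpp w.toList hl hne w.chain_ne
    apply this
    rw [h1] at hx
    have : (w.toList.map (fun p => ((p.2 : ↥(S p.1)) : 𝒢))).prod = ((w.head)⁻¹ : ↥B) := by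
      rw [Subgroup.coe_inv]; exact eq_inv_of_mul_eq_one_right hx
    rw [this]; exact SetLike.coe_mem _

theorem toGroup_range [Nonempty ι] : (toGroup S B hB).range = ⨆ i, S i := by
  apply le_antisymm
  · rintro _ ⟨x, rfl⟩
    induction x using PushoutI.induction_on with
    | of i g => 
      rw [toGroup_of]
      exact Subgroup.mem_iSup_of_mem i g.2
    | base b =>
      rw [toGroup_base]
      obtain ⟨i⟩ := ‹Nonempty ι›
      exact Subgroup.mem_iSup_of_mem i (hB i b.2)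
    | mul x y hx hy =>
      rw [map_mul]; exact mul_mem hx hy
  · apply iSup_le
    intro i g hg
    exact ⟨PushoutI.of i ⟨g, hg⟩, by simp⟩

/-- The amalgamated product is isomorphic to the subgroup `T` generated by the vertex groups. -/
noncomputable def amalgamEquiv (hpp : PingPong S B) (T : Subgroup 𝒢)
    (hT : (toGroup S B hB).range = T) : PushoutI (incl S B hB) ≃* ↥T :=
  (MonoidHom.ofInjective (toGroup_injective S B hB hpp)).trans (MulEquiv.subgroupCongr hT)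

theorem amalgamEquiv_apply (hpp : PingPong S B) (T : Subgroup 𝒢)
    (hT : (toGroup S B hB).range = T) (x : PushoutI (incl S B hB)) :
    ((amalgamEquiv S B hB hpp T hT x : ↥T) : 𝒢) = toGroup S B hB x := rfl

/-- **Universal property of the amalgam** for the subgroup `T` generated by the `S i`. -/
theorem existsUnique_lift [Nonempty ι] (hpp : PingPong S B) (T : Subgroup 𝒢)
    (hT : (toGroup S B hB).range = T) (hST : ∀ i, S i ≤ T) {K : Type*} [Group K]
    (f : ∀ i, ↥(S i) →* K)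
    (hf : ∀ i j (b : 𝒢) (hb : b ∈ B), f i ⟨b, hB i hb⟩ = f j ⟨b, hB j hb⟩) :
    ∃! F : ↥T →* K, ∀ i (g : ↥(S i)), F ⟨(g : 𝒢), hST i g.2⟩ = f i g := by
  obtain ⟨i₀⟩ := ‹Nonempty ι›
  let k : ↥B →* K := (f i₀).comp (incl S B hB i₀)
  have hk : ∀ i, (f i).comp (incl S B hB i) = k := by
    intro i
    ext b
    exact hf i i₀ b b.2
  let L : PushoutI (incl S B hB) →* K := PushoutI.lift f k hk
  have : Nonempty ι := ⟨i₀⟩
  let e := amalgamEquiv S B hB hpp T hT
  have he : ∀ i (g : ↥(S i)), e (PushoutI.of i g) = ⟨(g : 𝒢), hST i g.2⟩ := by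
    intro i g
    apply Subtype.ext
    rw [amalgamEquiv_apply, toGroup_of]
  refine ⟨L.comp e.symm.toMonoidHom, ?_, ?_⟩
  · intro i g
    show L (e.symm _) = _
    rw [← he, MulEquiv.symm_apply_apply]
    exact PushoutI.lift_of _ _ _ _
  · intro F' hF'
    have hTsup : T = ⨆ i, S i := by rw [← hT, toGroup_range]
    ext ⟨x, hx⟩
    have hx' : x ∈ ⨆ i, S i := hTsup ▸ hx
    induction hx' using Subgroup.iSup_induction' with
    | hp i y hy =>
      have h1 := hF' i ⟨y, hy⟩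
      have h2 := he i ⟨y, hy⟩
      show F' _ = L (e.symm _)
      have h3 : (⟨y, hx⟩ : ↥T) = e (PushoutI.of i ⟨y, hy⟩) := h2.symm
      rw [h3, MulEquiv.symm_apply_apply, h2]
      exact h1.trans (PushoutI.lift_of _ _ _ _).symm
    | h1 =>
      exact (map_one F').trans (map_one (L.comp e.symm.toMonoidHom)).symm
    | hmul x y hx₁ hy₁ ihx ihy =>
      have hxT : x ∈ T := hTsup ▸ hx₁
      have hyT : y ∈ T := hTsup ▸ hy₁
      have : (⟨x * y, hx⟩ : ↥T) = ⟨x, hxT⟩ * ⟨y, hyT⟩ := rfl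
      rw [this, map_mul, map_mul, ihx hxT, ihy hyT]

end Abstract

section Norms

variable (q : ℕ) [hq : Fact q.Prime]

/-- sup of the `q`-adic norms of the two coordinates of a vector. -/
def vn (v : Fin 2 → ℚ) : ℚ := max (padicNorm q (v 0)) (padicNorm q (v 1))

omit hq in
theorem vn_nonneg (v : Fin 2 → ℚ) : 0 ≤ vn q v :=
  le_max_of_le_left (padicNorm.nonneg _)

theorem vn_smul (a : ℚ) (v : Fin 2 → ℚ) : vn q (a • v) = padicNorm q a * vn q v := by
  simp only [vn, Pi.smul_apply, smul_eq_mul, padicNorm.mul]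
  rw [mul_max_of_nonneg _ _ (padicNorm.nonneg a)]

theorem vn_add_le (v w : Fin 2 → ℚ) : vn q (v + w) ≤ max (vn q v) (vn q w) := by
  simp only [vn, Pi.add_apply]
  apply max_le
  · exact (padicNorm.nonarchimedean).trans (max_le_max (le_max_left _ _) (le_max_left _ _))
  · exact (padicNorm.nonarchimedean).trans (max_le_max (le_max_right _ _) (le_max_right _ _))

theorem vn_add_eq_of_lt {v w : Fin 2 → ℚ} (h : vn q w < vn q v) : vn q (v + w) = vn q v := by
  apply le_antisymm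
  · exact (vn_add_le q v w).trans (max_le le_rfl h.le)
  · -- the coordinate where `v` attains its norm
    have hw0 : padicNorm q (w 0) < vn q v := lt_of_le_of_lt (le_max_left _ _) h
    have hw1 : padicNorm q (w 1) < vn q v := lt_of_le_of_lt (le_max_right _ _) h
    rcases max_cases (padicNorm q (v 0)) (padicNorm q (v 1)) with ⟨h0, _⟩ | ⟨h1, _⟩
    · have hv : vn q v = padicNorm q (v 0) := h0
      have hne : padicNorm q (v 0) ≠ padicNorm q (w 0) := by rw [← hv]; exact (ne_of_lt hw0).symm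
      have := padicNorm.add_eq_max_of_ne (p := q) hne
      calc vn q v = padicNorm q (v 0) := hv
        _ ≤ max (padicNorm q (v 0)) (padicNorm q (w 0)) := le_max_left _ _
        _ = padicNorm q ((v + w) 0) := by rw [Pi.add_apply, this]
        _ ≤ vn q (v + w) := le_max_left _ _
    · have hv : vn q v = padicNorm q (v 1) := h1
      have hne : padicNorm q (v 1) ≠ padicNorm q (w 1) := by rw [← hv]; exact (ne_of_lt hw1).symm
      have := padicNorm.add_eq_max_of_ne (p := q) hne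
      calc vn q v = padicNorm q (v 1) := hv
        _ ≤ max (padicNorm q (v 1)) (padicNorm q (w 1)) := le_max_left _ _
        _ = padicNorm q ((v + w) 1) := by rw [Pi.add_apply, this]
        _ ≤ vn q (v + w) := le_max_right _ _

/-- the norm of the `i`-th row of a matrix. -/
def rn (x : Matrix (Fin 2) (Fin 2) ℚ) (i : Fin 2) : ℚ := vn q (x i)

theorem mul_row (g x : Matrix (Fin 2) (Fin 2) ℚ) (i : Fin 2) :
    (g * x) i = g i 0 • x 0 + g i 1 • x 1 := by
  funext j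
  simp [Matrix.mul_apply, Fin.sum_univ_two]

omit hq in
theorem rn_one (i : Fin 2) : rn q (1 : Matrix (Fin 2) (Fin 2) ℚ) i = 1 := by
  fin_cases i
  · show max (padicNorm q ((1 : Matrix (Fin 2) (Fin 2) ℚ) 0 0))
      (padicNorm q ((1 : Matrix (Fin 2) (Fin 2) ℚ) 0 1)) = 1
    simp
  · show max (padicNorm q ((1 : Matrix (Fin 2) (Fin 2) ℚ) 1 0))
      (padicNorm q ((1 : Matrix (Fin 2) (Fin 2) ℚ) 1 1)) = 1
    simp

end Norms

section Groups

variable (q N : ℕ) [hq : Fact q.Prime]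

/-- The coefficient-wise inclusion `SL(2,ℤ) → SL(2,ℚ)`. -/
def castQ : SL(2,ℤ) →* SL(2,ℚ) := Matrix.SpecialLinearGroup.map (Int.castRingHom ℚ)

theorem castQ_apply (γ : SL(2,ℤ)) (i j : Fin 2) :
    (castQ γ : Matrix (Fin 2) (Fin 2) ℚ) i j = ((γ i j : ℤ) : ℚ) := by
  simp [castQ]

theorem castQ_injective : Function.Injective castQ := by
  intro γ δ h
  ext i j
  have := congrArg (fun x : SL(2,ℚ) => (x : Matrix (Fin 2) (Fin 2) ℚ) i j) h
  simpa [castQ_apply] using this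

/-- Conjugation by `diag(1, q)` on matrices: `(a b; c d) ↦ (a, b/q; q c, d)`. -/
def twistM (x : Matrix (Fin 2) (Fin 2) ℚ) : Matrix (Fin 2) (Fin 2) ℚ :=
  !![x 0 0, x 0 1 / q; q * x 1 0, x 1 1]

theorem twistM_mul (x y : Matrix (Fin 2) (Fin 2) ℚ) :
    twistM q (x * y) = twistM q x * twistM q y := by
  have hq0 : (q : ℚ) ≠ 0 := by exact_mod_cast hq.out.ne_zero
  ext i j
  fin_cases i <;> fin_cases j <;>
    simp [twistM, Matrix.mul_apply, Fin.sum_univ_two] <;> field_simp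

theorem det_twistM (x : Matrix (Fin 2) (Fin 2) ℚ) : (twistM q x).det = x.det := by
  have hq0 : (q : ℚ) ≠ 0 := by exact_mod_cast hq.out.ne_zero
  rw [twistM, Matrix.det_fin_two_of, Matrix.det_fin_two]
  field_simp

omit hq in
theorem twistM_one : twistM q 1 = 1 := by
  ext i j
  fin_cases i <;> fin_cases j <;> simp [twistM]

/-- Conjugation by `diag(1, q)` on `SL(2,ℚ)`, as a function. -/
def twistSL (x : SL(2,ℚ)) : SL(2,ℚ) :=
  ⟨twistM q (x : Matrix (Fin 2) (Fin 2) ℚ), by rw [det_twistM]; exact x.det_coe⟩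

theorem coe_twistSL (x : SL(2,ℚ)) :
    ((twistSL q x : SL(2,ℚ)) : Matrix (Fin 2) (Fin 2) ℚ) = twistM q x := rfl

/-- Conjugation by `diag(1, q)`: `(a b; c d) ↦ (a, b/q; q c, d)`. -/
def twist : SL(2,ℚ) →* SL(2,ℚ) where
  toFun := twistSL q
  map_one' := Matrix.SpecialLinearGroup.ext _ _ (fun i j => by
    rw [coe_twistSL, Matrix.SpecialLinearGroup.coe_one, twistM_one])
  map_mul' x y := Matrix.SpecialLinearGroup.ext _ _ (fun i j => by
    rw [coe_twistSL, Matrix.SpecialLinearGroup.coe_mul, twistM_mul,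
      Matrix.SpecialLinearGroup.coe_mul, coe_twistSL, coe_twistSL])

theorem twist_apply (x : SL(2,ℚ)) :
    (twist q x : Matrix (Fin 2) (Fin 2) ℚ) = !![x 0 0, x 0 1 / q; q * x 1 0, x 1 1] := rfl

theorem twist_injective : Function.Injective (twist q) := by
  have hq0 : (q : ℚ) ≠ 0 := by exact_mod_cast hq.out.ne_zero
  intro x y h
  have h' := congrArg (fun z : SL(2,ℚ) => (z : Matrix (Fin 2) (Fin 2) ℚ)) h
  simp only [twist_apply] at h'
  have e00 : (x : Matrix (Fin 2) (Fin 2) ℚ) 0 0 = y 0 0 := by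
    simpa using congrFun (congrFun h' 0) 0
  have e01 : (x : Matrix (Fin 2) (Fin 2) ℚ) 0 1 / q = y 0 1 / q := by
    simpa using congrFun (congrFun h' 0) 1
  have e10 : (q : ℚ) * (x : Matrix (Fin 2) (Fin 2) ℚ) 1 0 = q * y 1 0 := by
    simpa using congrFun (congrFun h' 1) 0
  have e11 : (x : Matrix (Fin 2) (Fin 2) ℚ) 1 1 = y 1 1 := by
    simpa using congrFun (congrFun h' 1) 1
  ext i j
  fin_cases i <;> fin_cases j
  · exact e00
  · exact (div_left_inj' hq0).mp e01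
  · exact mul_left_cancel₀ hq0 e10
  · exact e11

/-- `Γ₀(N)` inside `SL(2,ℚ)`. -/
def GamQ : Subgroup SL(2,ℚ) := (Gamma0 N).map castQ

/-- `diag(1,q) Γ₀(N) diag(1,q)⁻¹` inside `SL(2,ℚ)`. -/
def GamQ' : Subgroup SL(2,ℚ) := (GamQ N).map (twist q)

/-- The base group `Γ₀(N) ∩ diag(1,q) Γ₀(N) diag(1,q)⁻¹`. -/
def BaseQ : Subgroup SL(2,ℚ) := GamQ N ⊓ GamQ' q N

theorem rn_castQ_le (γ : SL(2,ℤ)) (i : Fin 2) :
    rn q (castQ γ : Matrix (Fin 2) (Fin 2) ℚ) i ≤ 1 := by
  simp only [rn, vn, castQ_apply]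
  exact max_le (padicNorm.of_int _) (padicNorm.of_int _)

variable {q N}

/-- A letter of `Γ₀(N)` outside the base has lower left entry prime to `q`. -/
theorem exists_of_mem_GamQ_of_notMem (hNq : ¬ q ∣ N) {x : SL(2,ℚ)} (hx : x ∈ GamQ N)
    (hx' : x ∉ GamQ' q N) :
    ∃ γ : SL(2,ℤ), γ ∈ Gamma0 N ∧ x = castQ γ ∧ ¬ (q : ℤ) ∣ γ 1 0 := by
  obtain ⟨γ, hγ, rfl⟩ := hx
  refine ⟨γ, hγ, rfl, ?_⟩
  intro hdvd
  apply hx'
  have hq0 : (q : ℚ) ≠ 0 := by exact_mod_cast hq.out.ne_zero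
  have hdet := γ.det_coe
  rw [Matrix.det_fin_two] at hdet
  have hmul : (q : ℤ) * (γ 1 0 / q) = γ 1 0 := Int.mul_ediv_cancel' hdvd
  let δ : SL(2,ℤ) := ⟨!![γ 0 0, q * γ 0 1; γ 1 0 / q, γ 1 1], by
    rw [Matrix.det_fin_two_of]
    calc γ 0 0 * γ 1 1 - (q : ℤ) * γ 0 1 * (γ 1 0 / q)
        = γ 0 0 * γ 1 1 - γ 0 1 * ((q : ℤ) * (γ 1 0 / q)) := by ring
      _ = 1 := by rw [hmul]; exact hdet⟩
  have hδ : δ ∈ Gamma0 N := by
    have hγ : γ ∈ Gamma0 N := hγ
    rw [Gamma0_mem, ZMod.intCast_zmod_eq_zero_iff_dvd]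
    rw [Gamma0_mem, ZMod.intCast_zmod_eq_zero_iff_dvd] at hγ
    have hcop : IsCoprime (N : ℤ) (q : ℤ) := by
      have : Nat.Coprime q N := (Nat.Prime.coprime_iff_not_dvd hq.out).mpr hNq
      exact (Nat.isCoprime_iff_coprime.mpr this).symm
    have h1 : (N : ℤ) ∣ (q : ℤ) * (γ 1 0 / q) := by rw [hmul]; exact hγ
    exact hcop.dvd_of_dvd_mul_left h1
  refine ⟨castQ δ, ⟨δ, hδ, rfl⟩, ?_⟩
  apply Matrix.SpecialLinearGroup.ext
  intro i j
  rw [twist_apply]
  have hc : ((γ 1 0 / (q : ℤ) : ℤ) : ℚ) = (γ 1 0 : ℚ) / q := by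
    rw [Int.cast_div hdvd (by exact_mod_cast hq.out.ne_zero)]
    simp
  have e00 : (δ : Matrix (Fin 2) (Fin 2) ℤ) 0 0 = γ 0 0 := rfl
  have e01 : (δ : Matrix (Fin 2) (Fin 2) ℤ) 0 1 = q * γ 0 1 := rfl
  have e10 : (δ : Matrix (Fin 2) (Fin 2) ℤ) 1 0 = γ 1 0 / q := rfl
  have e11 : (δ : Matrix (Fin 2) (Fin 2) ℤ) 1 1 = γ 1 1 := rfl
  fin_cases i <;> fin_cases j
  · simp only [castQ_apply, e00]; simp
  · simp only [castQ_apply, e01]; simp; field_simp
  · simp only [castQ_apply, e10, hc]; simp; field_simp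
  · simp only [castQ_apply, e11]; simp

/-- A letter of the conjugate group outside the base: upper right numerator prime to `q`. -/
theorem exists_of_mem_GamQ'_of_notMem {x : SL(2,ℚ)} (hx : x ∈ GamQ' q N)
    (hx' : x ∉ GamQ N) :
    ∃ δ : SL(2,ℤ), δ ∈ Gamma0 N ∧ x = twist q (castQ δ) ∧ ¬ (q : ℤ) ∣ δ 0 1 := by
  obtain ⟨_, ⟨δ, hδ, rfl⟩, rfl⟩ := hx
  refine ⟨δ, hδ, rfl, ?_⟩
  intro hdvd
  apply hx'
  have hq0 : (q : ℚ) ≠ 0 := by exact_mod_cast hq.out.ne_zero
  have hdet := δ.det_coe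
  rw [Matrix.det_fin_two] at hdet
  have hmul : (q : ℤ) * (δ 0 1 / q) = δ 0 1 := Int.mul_ediv_cancel' hdvd
  let γ : SL(2,ℤ) := ⟨!![δ 0 0, δ 0 1 / q; q * δ 1 0, δ 1 1], by
    rw [Matrix.det_fin_two_of]
    calc δ 0 0 * δ 1 1 - δ 0 1 / (q : ℤ) * ((q : ℤ) * δ 1 0)
        = δ 0 0 * δ 1 1 - ((q : ℤ) * (δ 0 1 / q)) * δ 1 0 := by ring
      _ = 1 := by rw [hmul]; exact hdet⟩
  have hγ : γ ∈ Gamma0 N := by
    have hδ : δ ∈ Gamma0 N := hδ
    rw [Gamma0_mem, ZMod.intCast_zmod_eq_zero_iff_dvd]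
    rw [Gamma0_mem, ZMod.intCast_zmod_eq_zero_iff_dvd] at hδ
    exact Dvd.dvd.mul_left hδ _
  refine ⟨γ, hγ, ?_⟩
  apply Matrix.SpecialLinearGroup.ext
  intro i j
  rw [twist_apply]
  have hc : ((δ 0 1 / (q : ℤ) : ℤ) : ℚ) = (δ 0 1 : ℚ) / q := by
    rw [Int.cast_div hdvd (by exact_mod_cast hq.out.ne_zero)]
    simp
  have e00 : (γ : Matrix (Fin 2) (Fin 2) ℤ) 0 0 = δ 0 0 := rfl
  have e01 : (γ : Matrix (Fin 2) (Fin 2) ℤ) 0 1 = δ 0 1 / q := rfl
  have e10 : (γ : Matrix (Fin 2) (Fin 2) ℤ) 1 0 = q * δ 1 0 := rfl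
  have e11 : (γ : Matrix (Fin 2) (Fin 2) ℤ) 1 1 = δ 1 1 := rfl
  fin_cases i <;> fin_cases j
  · simp only [castQ_apply]; simp; exact e00
  · simp only [castQ_apply]; simp; rw [e01, hc]
  · simp only [castQ_apply]; simp; rw [e10]; push_cast; ring
  · simp only [castQ_apply]; simp; exact e11

/-- `Γ`-step of the ping-pong. -/
theorem step_GamQ {γ : SL(2,ℤ)} (hγ : ¬ (q : ℤ) ∣ γ 1 0) {y : Matrix (Fin 2) (Fin 2) ℚ}
    (h : rn q y 1 < rn q y 0) :
    rn q ((castQ γ : Matrix (Fin 2) (Fin 2) ℚ) * y) 1 = rn q y 0 ∧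
      rn q ((castQ γ : Matrix (Fin 2) (Fin 2) ℚ) * y) 0 ≤ rn q y 0 := by
  have h10 : padicNorm q ((γ 1 0 : ℤ) : ℚ) = 1 := (padicNorm.int_eq_one_iff _).mpr hγ
  constructor
  · rw [rn, mul_row, castQ_apply, castQ_apply]
    have h1 : vn q (((γ 1 0 : ℤ) : ℚ) • y 0) = vn q (y 0) := by rw [vn_smul, h10, one_mul]
    have h2 : vn q (((γ 1 1 : ℤ) : ℚ) • y 1) ≤ vn q (y 1) := by
      rw [vn_smul]
      exact mul_le_of_le_one_left (vn_nonneg q _) (padicNorm.of_int _)
    rw [vn_add_eq_of_lt q (lt_of_le_of_lt h2 (by rw [h1]; exact h)), h1]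
    rfl
  · rw [rn, mul_row, castQ_apply, castQ_apply]
    refine (vn_add_le q _ _).trans (max_le ?_ ?_)
    · rw [vn_smul]
      exact mul_le_of_le_one_left (vn_nonneg q _) (padicNorm.of_int _)
    · rw [vn_smul]
      exact (mul_le_of_le_one_left (vn_nonneg q _) (padicNorm.of_int _)).trans h.le

/-- A single `Γ`-letter. -/
theorem single_GamQ {γ : SL(2,ℤ)} (hγ : ¬ (q : ℤ) ∣ γ 1 0) :
    rn q (castQ γ : Matrix (Fin 2) (Fin 2) ℚ) 1 = 1 := by
  have h10 : padicNorm q ((γ 1 0 : ℤ) : ℚ) = 1 := (padicNorm.int_eq_one_iff _).mpr hγ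
  simp only [rn, vn, castQ_apply, h10]
  exact max_eq_left (padicNorm.of_int _)

/-- `Γ'`-step of the ping-pong. -/
theorem step_GamQ' {δ : SL(2,ℤ)} (hδ : ¬ (q : ℤ) ∣ δ 0 1) {y : Matrix (Fin 2) (Fin 2) ℚ}
    (h : rn q y 0 ≤ rn q y 1) (hpos : 0 < rn q y 1) :
    rn q ((twist q (castQ δ) : Matrix (Fin 2) (Fin 2) ℚ) * y) 0 = q * rn q y 1 ∧
      rn q ((twist q (castQ δ) : Matrix (Fin 2) (Fin 2) ℚ) * y) 1 ≤ rn q y 1 := by
  have hq1 : (1 : ℚ) < q := by exact_mod_cast hq.out.one_lt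
  have hq0 : (q : ℚ) ≠ 0 := by exact_mod_cast hq.out.ne_zero
  have h01 : padicNorm q ((δ 0 1 : ℤ) : ℚ) = 1 := (padicNorm.int_eq_one_iff _).mpr hδ
  have hqn : padicNorm q (q : ℚ) = (q : ℚ)⁻¹ := padicNorm.padicNorm_p hq.out.one_lt
  have e00 : (twist q (castQ δ) : Matrix (Fin 2) (Fin 2) ℚ) 0 0 = ((δ 0 0 : ℤ) : ℚ) := by
    rw [twist_apply, castQ_apply]; rfl
  have e01 : (twist q (castQ δ) : Matrix (Fin 2) (Fin 2) ℚ) 0 1 = ((δ 0 1 : ℤ) : ℚ) / q := by
    rw [twist_apply, castQ_apply]; rfl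
  have e10 : (twist q (castQ δ) : Matrix (Fin 2) (Fin 2) ℚ) 1 0 = q * ((δ 1 0 : ℤ) : ℚ) := by
    rw [twist_apply, castQ_apply]; rfl
  have e11 : (twist q (castQ δ) : Matrix (Fin 2) (Fin 2) ℚ) 1 1 = ((δ 1 1 : ℤ) : ℚ) := by
    rw [twist_apply, castQ_apply]; rfl
  constructor
  · rw [rn, mul_row, e00, e01]
    have h1 : vn q ((((δ 0 1 : ℤ) : ℚ) / q) • y 1) = q * vn q (y 1) := by
      rw [vn_smul, padicNorm.div, h01, hqn, one_div, inv_inv]
    have h2 : vn q (((δ 0 0 : ℤ) : ℚ) • y 0) ≤ vn q (y 1) := by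
      rw [vn_smul]
      exact (mul_le_of_le_one_left (vn_nonneg q _) (padicNorm.of_int _)).trans h
    have hlt : vn q (((δ 0 0 : ℤ) : ℚ) • y 0) < vn q ((((δ 0 1 : ℤ) : ℚ) / q) • y 1) := by
      rw [h1]
      refine lt_of_le_of_lt h2 ?_
      have : vn q (y 1) = rn q y 1 := rfl
      rw [this]
      nlinarith
    rw [add_comm, vn_add_eq_of_lt q hlt, h1]
    rfl
  · rw [rn, mul_row, e10, e11]
    refine (vn_add_le q _ _).trans (max_le ?_ ?_)
    · rw [vn_smul, padicNorm.mul, hqn]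
      have h3 : padicNorm q ((δ 1 0 : ℤ) : ℚ) ≤ 1 := padicNorm.of_int _
      have h4 : (q : ℚ)⁻¹ ≤ 1 := inv_le_one_of_one_le₀ hq1.le
      have h5 : (q : ℚ)⁻¹ * padicNorm q ((δ 1 0 : ℤ) : ℚ) ≤ 1 := by
        calc (q : ℚ)⁻¹ * padicNorm q ((δ 1 0 : ℤ) : ℚ) ≤ 1 * 1 :=
              mul_le_mul h4 h3 (padicNorm.nonneg _) zero_le_one
          _ = 1 := one_mul 1
      exact (mul_le_of_le_one_left (vn_nonneg q _) h5).trans h
    · rw [vn_smul]
      exact mul_le_of_le_one_left (vn_nonneg q _) (padicNorm.of_int _)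

end Groups


section PingPongConcrete

variable (q N : ℕ) [hq : Fact q.Prime]

/-- The two vertex groups: `false ↦ Γ₀(N)`, `true ↦ diag(1,q) Γ₀(N) diag(1,q)⁻¹`. -/
def SS : Bool → Subgroup SL(2,ℚ) := fun b => bif b then GamQ' q N else GamQ N

theorem BaseQ_le (b : Bool) : BaseQ q N ≤ SS q N b := by
  cases b
  · exact inf_le_left
  · exact inf_le_right

/-- The product of the letters of a list. -/
def lprod (l : List (Σ b, ↥(SS q N b))) : SL(2,ℚ) :=
  (l.map (fun p => ((p.2 : ↥(SS q N p.1)) : SL(2,ℚ)))).prod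

theorem lprod_cons (p : Σ b, ↥(SS q N b)) (l : List (Σ b, ↥(SS q N b))) :
    lprod q N (p :: l) = (p.2 : SL(2,ℚ)) * lprod q N l := by
  simp [lprod]

theorem lprod_nil : lprod q N [] = 1 := rfl

variable {q N}

/-- The ping-pong invariant. -/
theorem invariant (hNq : ¬ q ∣ N) :
    ∀ l : List (Σ b, ↥(SS q N b)), (∀ p ∈ l, ((p.2 : ↥(SS q N p.1)) : SL(2,ℚ)) ∉ BaseQ q N) →
      l.IsChain (fun a b => a.1 ≠ b.1) →
      (∀ g tl, l = ⟨false, g⟩ :: tl →
        rn q (lprod q N l : Matrix (Fin 2) (Fin 2) ℚ) 0 ≤ rn q (lprod q N l : Matrix (Fin 2) (Fin 2) ℚ) 1 ∧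
        1 ≤ rn q (lprod q N l : Matrix (Fin 2) (Fin 2) ℚ) 1 ∧
        (1 < rn q (lprod q N l : Matrix (Fin 2) (Fin 2) ℚ) 1 ∨ tl = [])) ∧
      (∀ g tl, l = ⟨true, g⟩ :: tl →
        rn q (lprod q N l : Matrix (Fin 2) (Fin 2) ℚ) 1 < rn q (lprod q N l : Matrix (Fin 2) (Fin 2) ℚ) 0 ∧
        1 < rn q (lprod q N l : Matrix (Fin 2) (Fin 2) ℚ) 0) := by
  have hq1 : (1 : ℚ) < q := by exact_mod_cast hq.out.one_lt
  intro l
  induction l with
  | nil =>
    intro _ _
    exact ⟨fun g tl h => by simp at h, fun g tl h => by simp at h⟩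
  | cons p tl ih =>
    intro hne hchain
    have hne' : ∀ p ∈ tl, ((p.2 : ↥(SS q N p.1)) : SL(2,ℚ)) ∉ BaseQ q N :=
      fun p hp => hne p (List.mem_cons_of_mem _ hp)
    have hchain' : tl.IsChain (fun a b => a.1 ≠ b.1) := hchain.tail
    obtain ⟨ih1, ih2⟩ := ih hne' hchain'
    have hp := hne p List.mem_cons_self
    constructor
    · -- the new letter is a `Γ`-letter
      rintro g tl' heq
      obtain ⟨rfl, rfl⟩ := List.cons.inj heq
      have hg : (g : SL(2,ℚ)) ∈ GamQ N := g.2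
      have hg' : (g : SL(2,ℚ)) ∉ GamQ' q N := fun h => hp ⟨hg, h⟩
      obtain ⟨γ, -, hγeq, hγ⟩ := exists_of_mem_GamQ_of_notMem hNq hg hg'
      rw [lprod_cons]
      show rn q ((((g : SL(2,ℚ)) * lprod q N tl : SL(2,ℚ)) : Matrix (Fin 2) (Fin 2) ℚ)) 0 ≤ _ ∧ _
      rw [Matrix.SpecialLinearGroup.coe_mul, hγeq]
      cases tl with
      | nil =>
        rw [lprod_nil, Matrix.SpecialLinearGroup.coe_one, mul_one, single_GamQ hγ]
        exact ⟨rn_castQ_le q γ 0, le_rfl, Or.inr rfl⟩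
      | cons p' tl'' =>
        obtain ⟨b', g'⟩ := p'
        have hb' : b' = true := by
          have := hchain.rel
          cases b'
          · exact absurd rfl this
          · rfl
        subst hb'
        obtain ⟨h1, h2⟩ := ih2 g' tl'' rfl
        obtain ⟨s1, s2⟩ := step_GamQ hγ h1
        rw [s1]
        exact ⟨s2, h2.le, Or.inl h2⟩
    · -- the new letter is a `Γ'`-letter
      rintro g tl' heq
      obtain ⟨rfl, rfl⟩ := List.cons.inj heq
      have hg : (g : SL(2,ℚ)) ∈ GamQ' q N := g.2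
      have hg' : (g : SL(2,ℚ)) ∉ GamQ N := fun h => hp ⟨h, hg⟩
      obtain ⟨δ, -, hδeq, hδ⟩ := exists_of_mem_GamQ'_of_notMem hg hg'
      rw [lprod_cons]
      show rn q ((((g : SL(2,ℚ)) * lprod q N tl : SL(2,ℚ)) : Matrix (Fin 2) (Fin 2) ℚ)) 1 < _ ∧ _
      rw [Matrix.SpecialLinearGroup.coe_mul, hδeq]
      have key : rn q (lprod q N tl : Matrix (Fin 2) (Fin 2) ℚ) 0 ≤
          rn q (lprod q N tl : Matrix (Fin 2) (Fin 2) ℚ) 1 ∧
          1 ≤ rn q (lprod q N tl : Matrix (Fin 2) (Fin 2) ℚ) 1 := by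
        cases tl with
        | nil =>
          rw [lprod_nil, Matrix.SpecialLinearGroup.coe_one, rn_one, rn_one]
          exact ⟨le_rfl, le_rfl⟩
        | cons p' tl'' =>
          obtain ⟨b', g'⟩ := p'
          have hb' : b' = false := by
            have := hchain.rel
            cases b'
            · rfl
            · exact absurd rfl this
          subst hb'
          obtain ⟨h1, h2, -⟩ := ih1 g' tl'' rfl
          exact ⟨h1, h2⟩
      obtain ⟨k1, k2⟩ := key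
      obtain ⟨s1, s2⟩ := step_GamQ' hδ k1 (lt_of_lt_of_le zero_lt_one k2)
      rw [s1]
      constructor
      · refine lt_of_le_of_lt s2 ?_
        nlinarith
      · nlinarith

/-- Reduced words are never in the base group. -/
theorem pingPong (hNq : ¬ q ∣ N) : PingPong (SS q N) (BaseQ q N) := by
  intro l hl hne hchain hmem
  obtain ⟨inv1, inv2⟩ := invariant hNq l hne hchain
  have hle : ∀ i, rn q (lprod q N l : Matrix (Fin 2) (Fin 2) ℚ) i ≤ 1 := by
    intro i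
    obtain ⟨γ, -, hγ⟩ := hmem.1
    have : lprod q N l = castQ γ := hγ.symm
    rw [this]
    exact rn_castQ_le q γ i
  cases l with
  | nil => exact hl rfl
  | cons p tl =>
    obtain ⟨b, g⟩ := p
    cases b
    · obtain ⟨-, -, h3⟩ := inv1 g tl rfl
      rcases h3 with h3 | h3
      · exact absurd (hle 1) (not_le.mpr h3)
      · subst h3
        apply hne ⟨false, g⟩ List.mem_cons_self
        have : lprod q N [⟨false, g⟩] = (g : SL(2,ℚ)) := by simp [lprod]
        rw [← this]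
        exact hmem
    · obtain ⟨-, h2⟩ := inv2 g tl rfl
      exact absurd (hle 0) (not_le.mpr h2)

/-- **The amalgam theorem**: the canonical map
`Γ₀(N) *_{Γ₀(N) ∩ Γ₀(N)^μ} Γ₀(N)^μ → SL(2,ℚ)` (`μ = diag(1,q)`, `q ∤ N`) is injective. -/
theorem toGroup_injective_concrete (hNq : ¬ q ∣ N) :
    Function.Injective (toGroup (SS q N) (BaseQ q N) (BaseQ_le q N)) :=
  toGroup_injective _ _ _ (pingPong hNq)

theorem toGroup_range_concrete :
    (toGroup (SS q N) (BaseQ q N) (BaseQ_le q N)).range = GamQ N ⊔ GamQ' q N := by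
  rw [toGroup_range]
  apply le_antisymm
  · apply iSup_le
    intro b
    cases b
    · exact le_sup_left
    · exact le_sup_right
  · apply sup_le
    · exact le_iSup (SS q N) false
    · exact le_iSup (SS q N) true

/-- `Γ₀(N)` is isomorphic to its image in `SL(2,ℚ)`. -/
noncomputable def eGam (N : ℕ) : ↥(Gamma0 N) ≃* ↥(GamQ N) :=
  (Gamma0 N).equivMapOfInjective castQ castQ_injective

/-- `Γ₀(N)` is isomorphic to its conjugate by `diag(1,q)` in `SL(2,ℚ)`. -/
noncomputable def eGam' (q N : ℕ) [Fact q.Prime] : ↥(Gamma0 N) ≃* ↥(GamQ' q N) :=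
  (eGam N).trans ((GamQ N).equivMapOfInjective (twist q) (twist_injective q))

theorem coe_eGam (γ : ↥(Gamma0 N)) : ((eGam N γ : ↥(GamQ N)) : SL(2,ℚ)) = castQ γ := rfl

theorem coe_eGam' (γ : ↥(Gamma0 N)) :
    ((eGam' q N γ : ↥(GamQ' q N)) : SL(2,ℚ)) = twist q (castQ γ) := rfl

theorem castQ_mem (γ : ↥(Gamma0 N)) : castQ (γ : SL(2,ℤ)) ∈ GamQ N ⊔ GamQ' q N :=
  Subgroup.mem_sup_left (Subgroup.mem_map_of_mem _ γ.2)

theorem twist_castQ_mem (δ : ↥(Gamma0 N)) :
    twist q (castQ (δ : SL(2,ℤ))) ∈ GamQ N ⊔ GamQ' q N :=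
  Subgroup.mem_sup_right (Subgroup.mem_map_of_mem _ (Subgroup.mem_map_of_mem _ δ.2))

/-- **Ihara's amalgam, universal property** (`q ∤ N`): two homomorphisms `ψ₁, ψ₂ : Γ₀(N) → K` that
agree on `Γ₀(N) ∩ diag(1,q) Γ₀(N) diag(1,q)⁻¹` (i.e. `ψ₁ γ = ψ₂ δ` whenever
`γ = diag(1,q) δ diag(1,q)⁻¹`) glue to a unique homomorphism on the subgroup of `SL(2,ℚ)` generated
by `Γ₀(N)` and its conjugate. -/
theorem existsUnique_hom (hNq : ¬ q ∣ N) {K : Type*} [Group K] (ψ₁ ψ₂ : ↥(Gamma0 N) →* K)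
    (hc : ∀ γ δ : ↥(Gamma0 N), castQ (γ : SL(2,ℤ)) = twist q (castQ (δ : SL(2,ℤ))) →
      ψ₁ γ = ψ₂ δ) :
    ∃! F : ↥(GamQ N ⊔ GamQ' q N) →* K,
      (∀ γ : ↥(Gamma0 N), F ⟨castQ γ, castQ_mem γ⟩ = ψ₁ γ) ∧
      (∀ δ : ↥(Gamma0 N), F ⟨twist q (castQ δ), twist_castQ_mem δ⟩ = ψ₂ δ) := by
  let f : ∀ b, ↥(SS q N b) →* K := fun b =>
    match b with
    | false => ψ₁.comp (eGam N).symm.toMonoidHom
    | true => ψ₂.comp (eGam' q N).symm.toMonoidHom
  have hST : ∀ b, SS q N b ≤ GamQ N ⊔ GamQ' q N := by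
    intro b
    cases b
    · exact le_sup_left
    · exact le_sup_right
  have hf : ∀ i j (b : SL(2,ℚ)) (hb : b ∈ BaseQ q N),
      f i ⟨b, BaseQ_le q N i hb⟩ = f j ⟨b, BaseQ_le q N j hb⟩ := by
    -- it suffices to compare `false` with `true`
    have key : ∀ (b : SL(2,ℚ)) (hb : b ∈ BaseQ q N),
        f false ⟨b, BaseQ_le q N false hb⟩ = f true ⟨b, BaseQ_le q N true hb⟩ := by
      intro b hb
      set γ := (eGam N).symm ⟨b, hb.1⟩ with hγ
      set δ := (eGam' q N).symm ⟨b, hb.2⟩ with hδ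
      have h1 : castQ (γ : SL(2,ℤ)) = b := by
        rw [← coe_eGam, hγ, MulEquiv.apply_symm_apply]
      have h2 : twist q (castQ (δ : SL(2,ℤ))) = b := by
        rw [← coe_eGam', hδ, MulEquiv.apply_symm_apply]
      exact hc γ δ (h1.trans h2.symm)
    intro i j b hb
    cases i <;> cases j
    · rfl
    · exact key b hb
    · exact (key b hb).symm
    · rfl
  obtain ⟨F, hF, hFuniq⟩ := existsUnique_lift (SS q N) (BaseQ q N) (BaseQ_le q N) (pingPong hNq)
    (GamQ N ⊔ GamQ' q N) toGroup_range_concrete hST f hf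
  refine ⟨F, ⟨?_, ?_⟩, ?_⟩
  · intro γ
    have := hF false (eGam N γ)
    simp only [coe_eGam] at this
    rw [this]
    show ψ₁ ((eGam N).symm (eGam N γ)) = ψ₁ γ
    rw [MulEquiv.symm_apply_apply]
  · intro δ
    have := hF true (eGam' q N δ)
    simp only [coe_eGam'] at this
    rw [this]
    show ψ₂ ((eGam' q N).symm (eGam' q N δ)) = ψ₂ δ
    rw [MulEquiv.symm_apply_apply]
  · intro F' ⟨h1, h2⟩
    apply hFuniq
    intro b g
    cases b
    · have := h1 ((eGam N).symm g)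
      have e : castQ (((eGam N).symm g : ↥(Gamma0 N)) : SL(2,ℤ)) = (g : SL(2,ℚ)) :=
        congrArg Subtype.val ((eGam N).apply_symm_apply g)
      simp only [e] at this
      exact this
    · have := h2 ((eGam' q N).symm g)
      have e : twist q (castQ (((eGam' q N).symm g : ↥(Gamma0 N)) : SL(2,ℤ))) =
          (g : SL(2,ℚ)) :=
        congrArg Subtype.val ((eGam' q N).apply_symm_apply g)
      simp only [e] at this
      exact this

end PingPongConcrete

end Fermat.Agent.ES.MEN.Amalgam11
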