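import Fermat.Agent.ES.MEN.ZInvQ26
import Fermat.Agent.ES.MEN.Amalgam11

set_option autoImplicit false

/-!
# The ambient group of Ihara's amalgam is `Γ₀(N)(ℤ[1/q])` (helper26, file D4 of (MEN))

`G0Q q N ≤ SL(2,ℚ)` is the group of matrices with entries in `ℤ[1/q]` and lower left entry in
`N • ℤ[1/q]`.  Main result: `G0Q_eq : G0Q q N = GamQ N ⊔ GamQ' q N` (`q ∤ N`), i.e. the subgroup of
`SL(2,ℚ)` generated by `Γ₀(N)` and `diag(1,q) Γ₀(N) diag(1,q)⁻¹` (the ambient group of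
`Amalgam11.existsUnique_hom`) is exactly `Γ₀(N)(ℤ[1/q])`.
-/

namespace Fermat.Agent.ES.MEN.AmalgamRange26

open Matrix MatrixGroups CongruenceSubgroup
open Fermat.Agent.ES.MEN.ZInvQ26 Fermat.Agent.ES.MEN.Amalgam11

variable (q N : ℕ) [hq : Fact q.Prime]

/-- the defining property of `Γ₀(N)(ℤ[1/q])` inside `SL(2,ℚ)`. -/
def InG0 (x : SL(2,ℚ)) : Prop :=
  (∀ i j, (x : Matrix (Fin 2) (Fin 2) ℚ) i j ∈ ZInvQ q) ∧
    ∃ y ∈ ZInvQ q, (x : Matrix (Fin 2) (Fin 2) ℚ) 1 0 = N * y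

theorem inG0_mul {x y : SL(2,ℚ)} (hx : InG0 q N x) (hy : InG0 q N y) : InG0 q N (x * y) := by
  obtain ⟨hx, a, ha, hxa⟩ := hx
  obtain ⟨hy, b, hb, hyb⟩ := hy
  refine ⟨fun i j => ?_, (x : Matrix (Fin 2) (Fin 2) ℚ) 1 1 * b +
    a * (y : Matrix (Fin 2) (Fin 2) ℚ) 0 0, ?_, ?_⟩
  · rw [Matrix.SpecialLinearGroup.coe_mul, Matrix.mul_apply, Fin.sum_univ_two]
    exact add_mem (mul_mem (hx _ _) (hy _ _)) (mul_mem (hx _ _) (hy _ _))
  · exact add_mem (mul_mem (hx _ _) hb) (mul_mem ha (hy _ _))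
  · rw [Matrix.SpecialLinearGroup.coe_mul, Matrix.mul_apply, Fin.sum_univ_two, hxa, hyb]
    ring

theorem inG0_one : InG0 q N 1 := by
  refine ⟨fun i j => ?_, 0, zero_mem _, by simp⟩
  fin_cases i <;> fin_cases j <;> simp [zero_mem, one_mem]

theorem inG0_inv {x : SL(2,ℚ)} (hx : InG0 q N x) : InG0 q N x⁻¹ := by
  obtain ⟨hx, a, ha, hxa⟩ := hx
  refine ⟨fun i j => ?_, -a, neg_mem ha, ?_⟩
  · rw [Matrix.SpecialLinearGroup.coe_inv, Matrix.adjugate_fin_two]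
    fin_cases i <;> fin_cases j <;> simp [hx]
  · rw [Matrix.SpecialLinearGroup.coe_inv, Matrix.adjugate_fin_two]
    simp [hxa]

/-- `Γ₀(N)(ℤ[1/q])` as a subgroup of `SL(2,ℚ)`. -/
def G0Q : Subgroup SL(2,ℚ) where
  carrier := {x | InG0 q N x}
  mul_mem' := fun hx hy => inG0_mul q N hx hy
  one_mem' := inG0_one q N
  inv_mem' := fun hx => inG0_inv q N hx

theorem mem_G0Q {x : SL(2,ℚ)} : x ∈ G0Q q N ↔
    (∀ i j, (x : Matrix (Fin 2) (Fin 2) ℚ) i j ∈ ZInvQ q) ∧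
      ∃ y ∈ ZInvQ q, (x : Matrix (Fin 2) (Fin 2) ℚ) 1 0 = N * y := Iff.rfl

theorem GamQ_le : GamQ N ≤ G0Q q N := by
  rintro _ ⟨γ, hγ, rfl⟩
  refine ⟨fun i j => ?_, ?_⟩
  · rw [castQ_apply]; exact intCast_mem q _
  · rw [castQ_apply]
    have h1 : (N : ℤ) ∣ (γ : Matrix (Fin 2) (Fin 2) ℤ) 1 0 :=
      (ZMod.intCast_zmod_eq_zero_iff_dvd _ _).mp (Gamma0_mem.mp hγ)
    obtain ⟨m, hm⟩ := h1
    exact ⟨m, intCast_mem q m, by rw [hm]; push_cast; ring⟩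

theorem GamQ'_le : GamQ' q N ≤ G0Q q N := by
  rintro _ ⟨_, ⟨γ, hγ, rfl⟩, rfl⟩
  have hq0 := q_ne_zero q
  have hqm : (q : ℚ) ∈ ZInvQ q := by have := q_pow_mem q 1; rwa [pow_one] at this
  have hqi : ((q : ℚ))⁻¹ ∈ ZInvQ q := by simpa using inv_q_pow_mem q 1
  refine ⟨fun i j => ?_, ?_⟩
  · rw [twist_apply]
    fin_cases i <;> fin_cases j
    · simp [castQ_apply]
    · simp only [castQ_apply, Fin.zero_eta, Fin.mk_one, Matrix.of_apply, Matrix.cons_val', Matrix.cons_val_zero,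
        Matrix.cons_val_one, Matrix.cons_val_fin_one, div_eq_mul_inv]
      exact mul_mem (intCast_mem q _) hqi
    · simp only [castQ_apply, Fin.zero_eta, Fin.mk_one, Matrix.of_apply, Matrix.cons_val', Matrix.cons_val_zero,
        Matrix.cons_val_one, Matrix.cons_val_fin_one]
      exact mul_mem hqm (intCast_mem q _)
    · simp [castQ_apply]
  · rw [twist_apply]
    have h1 : (N : ℤ) ∣ (γ : Matrix (Fin 2) (Fin 2) ℤ) 1 0 :=
      (ZMod.intCast_zmod_eq_zero_iff_dvd _ _).mp (Gamma0_mem.mp hγ)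
    obtain ⟨m, hm⟩ := h1
    refine ⟨q * m, mul_mem hqm (intCast_mem q m), ?_⟩
    simp only [castQ_apply, Matrix.of_apply, Matrix.cons_val', Matrix.cons_val_zero,
        Matrix.cons_val_one, Matrix.cons_val_fin_one, hm]
    push_cast; ring

theorem sup_le_G0Q : GamQ N ⊔ GamQ' q N ≤ G0Q q N :=
  sup_le (GamQ_le q N) (GamQ'_le q N)

/-- explicit element of `SL(2,ℤ)`. -/
def mkZ (a b c d : ℤ) (h : a * d - b * c = 1) : SL(2,ℤ) :=
  ⟨!![a, b; c, d], by rw [Matrix.det_fin_two_of]; exact h⟩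

theorem coe_mkZ (a b c d : ℤ) (h : a * d - b * c = 1) :
    (mkZ a b c d h : Matrix (Fin 2) (Fin 2) ℤ) = !![a, b; c, d] := rfl

theorem mkZ_mem (a b c d : ℤ) (h : a * d - b * c = 1) (hc : (N : ℤ) ∣ c) :
    mkZ a b c d h ∈ Gamma0 N := by
  rw [Gamma0_mem, coe_mkZ]
  simpa using (ZMod.intCast_zmod_eq_zero_iff_dvd _ _).mpr hc

variable {q N}

theorem natCast_ne_zero_of_not_dvd (hNq : ¬ q ∣ N) : ((N : ℕ) : ZMod q) ≠ 0 := by
  intro h
  exact hNq ((ZMod.natCast_eq_zero_iff N q).mp h)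

/-- **Lemma A**: if `q ∣ det M` some `γ ∈ Γ₀(N)` makes the second row of `γ M` divisible by `q`. -/
theorem exists_kill_row1 (hNq : ¬ q ∣ N) (M : Matrix (Fin 2) (Fin 2) ℤ) (hdet : (q : ℤ) ∣ M.det) :
    ∃ γ ∈ Gamma0 N, (q : ℤ) ∣ ((γ : Matrix (Fin 2) (Fin 2) ℤ) * M) 1 0 ∧
      (q : ℤ) ∣ ((γ : Matrix (Fin 2) (Fin 2) ℤ) * M) 1 1 := by
  have hN0 := natCast_ne_zero_of_not_dvd hNq
  have hdetF : ((M 0 0 : ℤ) : ZMod q) * (M 1 1 : ℤ) - (M 0 1 : ℤ) * (M 1 0 : ℤ) = 0 := by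
    have := (ZMod.intCast_zmod_eq_zero_iff_dvd _ q).mpr hdet
    rw [Matrix.det_fin_two] at this
    push_cast at this
    exact this
  by_cases h0 : ((M 0 0 : ℤ) : ZMod q) = 0 ∧ ((M 0 1 : ℤ) : ZMod q) = 0
  · obtain ⟨t, ht⟩ := ZMod.intCast_surjective (-((N : ZMod q))⁻¹)
    refine ⟨mkZ 1 t N (N * t + 1) (by ring), mkZ_mem N _ _ _ _ _ dvd_rfl, ?_, ?_⟩
    · rw [← ZMod.intCast_zmod_eq_zero_iff_dvd, coe_mkZ]
      simp only [Matrix.mul_apply, Fin.sum_univ_two, Matrix.of_apply, Matrix.cons_val', Matrix.cons_val_zero,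
        Matrix.cons_val_one, Matrix.cons_val_fin_one]
      push_cast
      rw [h0.1, ht]
      field_simp
      ring
    · rw [← ZMod.intCast_zmod_eq_zero_iff_dvd, coe_mkZ]
      simp only [Matrix.mul_apply, Fin.sum_univ_two, Matrix.of_apply, Matrix.cons_val', Matrix.cons_val_zero,
        Matrix.cons_val_one, Matrix.cons_val_fin_one]
      push_cast
      rw [h0.2, ht]
      field_simp
      ring
  · -- second row is a multiple of the first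
    have hlam : ∃ lam : ZMod q, ((M 1 0 : ℤ) : ZMod q) = lam * (M 0 0 : ℤ) ∧
        ((M 1 1 : ℤ) : ZMod q) = lam * (M 0 1 : ℤ) := by
      by_cases h00 : ((M 0 0 : ℤ) : ZMod q) = 0
      · have h01 : ((M 0 1 : ℤ) : ZMod q) ≠ 0 := fun h => h0 ⟨h00, h⟩
        refine ⟨((M 1 1 : ℤ) : ZMod q) / (M 0 1 : ℤ), ?_, by field_simp⟩
        rw [h00, zero_mul, sub_eq_zero] at hdetF
        rw [h00, mul_zero]
        rcases mul_eq_zero.mp hdetF.symm with h | h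
        · exact absurd h h01
        · exact h
      · refine ⟨((M 1 0 : ℤ) : ZMod q) / (M 0 0 : ℤ), by field_simp, ?_⟩
        rw [sub_eq_zero] at hdetF
        field_simp
        linear_combination hdetF
    obtain ⟨lam, h1, h2⟩ := hlam
    obtain ⟨s, hs⟩ := ZMod.intCast_surjective (-lam * ((N : ZMod q))⁻¹)
    refine ⟨mkZ 1 0 (N * s) 1 (by ring), mkZ_mem N _ _ _ _ _ (Dvd.intro _ rfl), ?_, ?_⟩
    · rw [← ZMod.intCast_zmod_eq_zero_iff_dvd, coe_mkZ]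
      simp only [Matrix.mul_apply, Fin.sum_univ_two, Matrix.of_apply, Matrix.cons_val', Matrix.cons_val_zero,
        Matrix.cons_val_one, Matrix.cons_val_fin_one]
      push_cast
      rw [h1, hs]
      field_simp
      ring
    · rw [← ZMod.intCast_zmod_eq_zero_iff_dvd, coe_mkZ]
      simp only [Matrix.mul_apply, Fin.sum_univ_two, Matrix.of_apply, Matrix.cons_val', Matrix.cons_val_zero,
        Matrix.cons_val_one, Matrix.cons_val_fin_one]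
      push_cast
      rw [h2, hs]
      field_simp
      ring

/-- **Lemma B**: if `q ∣ det M` some `γ ∈ Γ₀(N)` makes the first row of `γ M` divisible by `q`. -/
theorem exists_kill_row0 (hNq : ¬ q ∣ N) (M : Matrix (Fin 2) (Fin 2) ℤ) (hdet : (q : ℤ) ∣ M.det) :
    ∃ γ ∈ Gamma0 N, (q : ℤ) ∣ ((γ : Matrix (Fin 2) (Fin 2) ℤ) * M) 0 0 ∧
      (q : ℤ) ∣ ((γ : Matrix (Fin 2) (Fin 2) ℤ) * M) 0 1 := by
  have hN0 := natCast_ne_zero_of_not_dvd hNq
  have hdetF : ((M 0 0 : ℤ) : ZMod q) * (M 1 1 : ℤ) - (M 0 1 : ℤ) * (M 1 0 : ℤ) = 0 := by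
    have := (ZMod.intCast_zmod_eq_zero_iff_dvd _ q).mpr hdet
    rw [Matrix.det_fin_two] at this
    push_cast at this
    exact this
  by_cases h0 : ((M 1 0 : ℤ) : ZMod q) = 0 ∧ ((M 1 1 : ℤ) : ZMod q) = 0
  · obtain ⟨t, ht⟩ := ZMod.intCast_surjective (-((N : ZMod q))⁻¹)
    refine ⟨mkZ (1 + t * N) t N 1 (by ring), mkZ_mem N _ _ _ _ _ dvd_rfl, ?_, ?_⟩
    · rw [← ZMod.intCast_zmod_eq_zero_iff_dvd, coe_mkZ]
      simp only [Matrix.mul_apply, Fin.sum_univ_two, Matrix.of_apply, Matrix.cons_val', Matrix.cons_val_zero,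
        Matrix.cons_val_one, Matrix.cons_val_fin_one]
      push_cast
      rw [h0.1, ht]
      field_simp
      ring
    · rw [← ZMod.intCast_zmod_eq_zero_iff_dvd, coe_mkZ]
      simp only [Matrix.mul_apply, Fin.sum_univ_two, Matrix.of_apply, Matrix.cons_val', Matrix.cons_val_zero,
        Matrix.cons_val_one, Matrix.cons_val_fin_one]
      push_cast
      rw [h0.2, ht]
      field_simp
      ring
  · have hlam : ∃ lam : ZMod q, ((M 0 0 : ℤ) : ZMod q) = lam * (M 1 0 : ℤ) ∧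
        ((M 0 1 : ℤ) : ZMod q) = lam * (M 1 1 : ℤ) := by
      by_cases h10 : ((M 1 0 : ℤ) : ZMod q) = 0
      · have h11 : ((M 1 1 : ℤ) : ZMod q) ≠ 0 := fun h => h0 ⟨h10, h⟩
        refine ⟨((M 0 1 : ℤ) : ZMod q) / (M 1 1 : ℤ), ?_, by field_simp⟩
        rw [h10, mul_zero, sub_zero] at hdetF
        rw [h10, mul_zero]
        rcases mul_eq_zero.mp hdetF with h | h
        · exact h
        · exact absurd h h11
      · refine ⟨((M 0 0 : ℤ) : ZMod q) / (M 1 0 : ℤ), by field_simp, ?_⟩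
        rw [sub_eq_zero] at hdetF
        field_simp
        linear_combination -hdetF
    obtain ⟨lam, h1, h2⟩ := hlam
    obtain ⟨s, hs⟩ := ZMod.intCast_surjective (-lam)
    refine ⟨mkZ 1 s 0 1 (by ring), mkZ_mem N _ _ _ _ _ (dvd_zero _), ?_, ?_⟩
    · rw [← ZMod.intCast_zmod_eq_zero_iff_dvd, coe_mkZ]
      simp only [Matrix.mul_apply, Fin.sum_univ_two, Matrix.of_apply, Matrix.cons_val', Matrix.cons_val_zero,
        Matrix.cons_val_one, Matrix.cons_val_fin_one]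
      push_cast
      rw [h1, hs]
      ring
    · rw [← ZMod.intCast_zmod_eq_zero_iff_dvd, coe_mkZ]
      simp only [Matrix.mul_apply, Fin.sum_univ_two, Matrix.of_apply, Matrix.cons_val', Matrix.cons_val_zero,
        Matrix.cons_val_one, Matrix.cons_val_fin_one]
      push_cast
      rw [h2, hs]
      ring

theorem exists_kill_row1' (hNq : ¬ q ∣ N) (m00 m01 m10 m11 : ℤ)
    (hdet : (q : ℤ) ∣ m00 * m11 - m01 * m10) :
    ∃ γ ∈ Gamma0 N, (q : ℤ) ∣ (γ : Matrix (Fin 2) (Fin 2) ℤ) 1 0 * m00 +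
        (γ : Matrix (Fin 2) (Fin 2) ℤ) 1 1 * m10 ∧
      (q : ℤ) ∣ (γ : Matrix (Fin 2) (Fin 2) ℤ) 1 0 * m01 +
        (γ : Matrix (Fin 2) (Fin 2) ℤ) 1 1 * m11 := by
  obtain ⟨γ, hγ, h1, h2⟩ := exists_kill_row1 hNq !![m00, m01; m10, m11]
    (by rw [Matrix.det_fin_two_of]; exact hdet)
  refine ⟨γ, hγ, ?_, ?_⟩
  · simpa [Matrix.mul_apply, Fin.sum_univ_two] using h1
  · simpa [Matrix.mul_apply, Fin.sum_univ_two] using h2

theorem exists_kill_row0' (hNq : ¬ q ∣ N) (m00 m01 m10 m11 : ℤ)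
    (hdet : (q : ℤ) ∣ m00 * m11 - m01 * m10) :
    ∃ γ ∈ Gamma0 N, (q : ℤ) ∣ (γ : Matrix (Fin 2) (Fin 2) ℤ) 0 0 * m00 +
        (γ : Matrix (Fin 2) (Fin 2) ℤ) 0 1 * m10 ∧
      (q : ℤ) ∣ (γ : Matrix (Fin 2) (Fin 2) ℤ) 0 0 * m01 +
        (γ : Matrix (Fin 2) (Fin 2) ℤ) 0 1 * m11 := by
  obtain ⟨γ, hγ, h1, h2⟩ := exists_kill_row0 hNq !![m00, m01; m10, m11]
    (by rw [Matrix.det_fin_two_of]; exact hdet)
  refine ⟨γ, hγ, ?_, ?_⟩
  · simpa [Matrix.mul_apply, Fin.sum_univ_two] using h1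
  · simpa [Matrix.mul_apply, Fin.sum_univ_two] using h2

omit hq in
theorem aux_top (Q qq X0 X1 M0 M1 g00 g01 g10 g11 a b p m n : ℚ) (hqq : qq ≠ 0)
    (h0 : Q * qq * X0 = M0) (h1 : Q * qq * X1 = M1) (e : p = g00 * M0 + g01 * M1)
    (f : g10 * M0 + g11 * M1 = qq * m) (k : a * p + b * m = qq * n) :
    Q * ((a * g00 + b / qq * g10) * X0 + (a * g01 + b / qq * g11) * X1) = n := by
  have h : qq ^ 2 * (Q * ((a * g00 + b / qq * g10) * X0 + (a * g01 + b / qq * g11) * X1)) =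
      qq ^ 2 * n := by
    have hb : b / qq * qq = b := div_mul_cancel₀ b hqq
    calc qq ^ 2 * (Q * ((a * g00 + b / qq * g10) * X0 + (a * g01 + b / qq * g11) * X1))
        = (a * g00 * qq + (b / qq * qq) * g10) * (Q * qq * X0) +
          (a * g01 * qq + (b / qq * qq) * g11) * (Q * qq * X1) := by ring
      _ = (a * g00 * qq + b * g10) * M0 + (a * g01 * qq + b * g11) * M1 := by rw [hb, h0, h1]
      _ = qq ^ 2 * n := by linear_combination (-(a * qq)) * e + b * f + qq * k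
  exact mul_left_cancel₀ (pow_ne_zero 2 hqq) h

omit hq in
theorem aux_bot (Q qq X0 X1 M0 M1 g00 g01 g10 g11 c d p m : ℚ) (hqq : qq ≠ 0)
    (h0 : Q * qq * X0 = M0) (h1 : Q * qq * X1 = M1) (e : p = g00 * M0 + g01 * M1)
    (f : g10 * M0 + g11 * M1 = qq * m) :
    Q * ((qq * c * g00 + d * g10) * X0 + (qq * c * g01 + d * g11) * X1) = c * p + d * m := by
  have h : qq * (Q * ((qq * c * g00 + d * g10) * X0 + (qq * c * g01 + d * g11) * X1)) =
      qq * (c * p + d * m) := by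
    linear_combination (qq * c * g00 + d * g10) * h0 + (qq * c * g01 + d * g11) * h1 -
      c * qq * e + d * f
  exact mul_left_cancel₀ hqq h

variable (q)

/-- `q ^ k • x` has integer entries. -/
def IntAt (k : ℕ) (x : SL(2,ℚ)) : Prop :=
  ∃ M : Matrix (Fin 2) (Fin 2) ℤ,
    ∀ i j, (q : ℚ) ^ k * (x : Matrix (Fin 2) (Fin 2) ℚ) i j = (M i j : ℚ)

variable {q}

/-- descent step: one element of `GamQ N ⊔ GamQ' q N` lowers the `q`-denominator. -/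
theorem intAt_step (hNq : ¬ q ∣ N) {k : ℕ} {x : SL(2,ℚ)} (hx : IntAt q (k + 1) x) :
    ∃ t ∈ GamQ N ⊔ GamQ' q N, IntAt q k (t * x) := by
  obtain ⟨M, hM⟩ := hx
  have hq0 := q_ne_zero q
  have hQ0 : (q : ℚ) ^ k ≠ 0 := pow_ne_zero k hq0
  -- determinant of M
  have hdetM : M 0 0 * M 1 1 - M 0 1 * M 1 0 = (q : ℤ) ^ (2 * k + 2) := by
    have hx1 : (x : Matrix (Fin 2) (Fin 2) ℚ) 0 0 * (x : Matrix (Fin 2) (Fin 2) ℚ) 1 1 -
        (x : Matrix (Fin 2) (Fin 2) ℚ) 0 1 * (x : Matrix (Fin 2) (Fin 2) ℚ) 1 0 = 1 := by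
      have := x.det_coe
      rwa [Matrix.det_fin_two] at this
    have : ((M 0 0 * M 1 1 - M 0 1 * M 1 0 : ℤ) : ℚ) = (((q : ℤ) ^ (2 * k + 2) : ℤ) : ℚ) := by
      push_cast
      rw [← hM 0 0, ← hM 1 1, ← hM 0 1, ← hM 1 0]
      linear_combination ((q : ℚ) ^ (k + 1)) ^ 2 * hx1
    exact_mod_cast this
  obtain ⟨γ, hγ, ⟨m0, hm0⟩, ⟨m1, hm1⟩⟩ := exists_kill_row1' (N := N) hNq (M 0 0) (M 0 1) (M 1 0) (M 1 1)
    (by rw [hdetM]; exact dvd_pow_self _ (by omega))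
  set g00 := (γ : Matrix (Fin 2) (Fin 2) ℤ) 0 0 with hg00
  set g01 := (γ : Matrix (Fin 2) (Fin 2) ℤ) 0 1 with hg01
  set g10 := (γ : Matrix (Fin 2) (Fin 2) ℤ) 1 0 with hg10
  set g11 := (γ : Matrix (Fin 2) (Fin 2) ℤ) 1 1 with hg11
  have hdetγ : g00 * g11 - g01 * g10 = 1 := by
    have := γ.det_coe
    rwa [Matrix.det_fin_two] at this
  -- M' = γ M has rows (p0, p1) and q • (m0, m1)
  set p0 := g00 * M 0 0 + g01 * M 1 0 with hp0
  set p1 := g00 * M 0 1 + g01 * M 1 1 with hp1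
  have hdet'' : p0 * m1 - p1 * m0 = (q : ℤ) ^ (2 * k + 1) := by
    have h1 : (q : ℤ) * (p0 * m1 - p1 * m0) = (q : ℤ) * (q : ℤ) ^ (2 * k + 1) := by
      have : (q : ℤ) * (q : ℤ) ^ (2 * k + 1) = (q : ℤ) ^ (2 * k + 2) := by ring
      rw [this, ← hdetM]
      linear_combination (-p0) * hm1 + p1 * hm0 + (M 0 0 * M 1 1 - M 0 1 * M 1 0) * hdetγ
    exact mul_left_cancel₀ (by exact_mod_cast hq.out.ne_zero) h1
  obtain ⟨γ', hγ', ⟨n0, hn0⟩, ⟨n1, hn1⟩⟩ := exists_kill_row0' (N := N) hNq p0 p1 m0 m1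
    (by rw [hdet'']; exact dvd_pow_self _ (by omega))
  set a' := (γ' : Matrix (Fin 2) (Fin 2) ℤ) 0 0 with ha'
  set b' := (γ' : Matrix (Fin 2) (Fin 2) ℤ) 0 1 with hb'
  set c' := (γ' : Matrix (Fin 2) (Fin 2) ℤ) 1 0 with hc'
  set d' := (γ' : Matrix (Fin 2) (Fin 2) ℤ) 1 1 with hd'
  refine ⟨twist q (castQ γ') * castQ γ, mul_mem (Subgroup.mem_sup_right
    (Subgroup.mem_map_of_mem _ (Subgroup.mem_map_of_mem _ hγ'))) (Subgroup.mem_sup_left
    (Subgroup.mem_map_of_mem _ hγ)), !![n0, n1; c' * p0 + d' * m0, c' * p1 + d' * m1], ?_⟩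
  have hM00 := hM 0 0
  have hM01 := hM 0 1
  have hM10 := hM 1 0
  have hM11 := hM 1 1
  have e0 : ((p0 : ℤ) : ℚ) = g00 * M 0 0 + g01 * M 1 0 := by rw [hp0]; push_cast; ring
  have e1 : ((p1 : ℤ) : ℚ) = g00 * M 0 1 + g01 * M 1 1 := by rw [hp1]; push_cast; ring
  have f0 : (g10 : ℚ) * M 0 0 + g11 * M 1 0 = q * m0 := by exact_mod_cast hm0
  have f1 : (g10 : ℚ) * M 0 1 + g11 * M 1 1 = q * m1 := by exact_mod_cast hm1
  have k0 : (a' : ℚ) * p0 + b' * m0 = q * n0 := by exact_mod_cast hn0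
  have k1 : (a' : ℚ) * p1 + b' * m1 = q * n1 := by exact_mod_cast hn1
  have hM00' : (q : ℚ) ^ k * q * (x : Matrix (Fin 2) (Fin 2) ℚ) 0 0 = M 0 0 := by
    rw [← hM 0 0]; ring
  have hM01' : (q : ℚ) ^ k * q * (x : Matrix (Fin 2) (Fin 2) ℚ) 0 1 = M 0 1 := by
    rw [← hM 0 1]; ring
  have hM10' : (q : ℚ) ^ k * q * (x : Matrix (Fin 2) (Fin 2) ℚ) 1 0 = M 1 0 := by
    rw [← hM 1 0]; ring
  have hM11' : (q : ℚ) ^ k * q * (x : Matrix (Fin 2) (Fin 2) ℚ) 1 1 = M 1 1 := by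
    rw [← hM 1 1]; ring
  intro i j
  rw [Matrix.SpecialLinearGroup.coe_mul, Matrix.SpecialLinearGroup.coe_mul, twist_apply]
  fin_cases i <;> fin_cases j
  · simp only [Matrix.mul_apply, Fin.sum_univ_two, castQ_apply, Fin.zero_eta,
      Matrix.of_apply, Matrix.cons_val', Matrix.cons_val_zero, Matrix.cons_val_one,
      Matrix.cons_val_fin_one]
    exact aux_top _ _ _ _ _ _ _ _ _ _ _ _ _ _ _ hq0 hM00' hM10' e0 f0 k0
  · simp only [Matrix.mul_apply, Fin.sum_univ_two, castQ_apply, Fin.zero_eta, Fin.mk_one,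
      Matrix.of_apply, Matrix.cons_val', Matrix.cons_val_zero, Matrix.cons_val_one,
      Matrix.cons_val_fin_one]
    exact aux_top _ _ _ _ _ _ _ _ _ _ _ _ _ _ _ hq0 hM01' hM11' e1 f1 k1
  · simp only [Matrix.mul_apply, Fin.sum_univ_two, castQ_apply, Fin.zero_eta, Fin.mk_one,
      Matrix.of_apply, Matrix.cons_val', Matrix.cons_val_zero, Matrix.cons_val_one,
      Matrix.cons_val_fin_one]
    push_cast
    exact aux_bot _ _ _ _ _ _ _ _ _ _ _ _ _ _ hq0 hM00' hM10' e0 f0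
  · simp only [Matrix.mul_apply, Fin.sum_univ_two, castQ_apply, Fin.mk_one,
      Matrix.of_apply, Matrix.cons_val', Matrix.cons_val_zero, Matrix.cons_val_one,
      Matrix.cons_val_fin_one]
    push_cast
    exact aux_bot _ _ _ _ _ _ _ _ _ _ _ _ _ _ hq0 hM01' hM11' e1 f1

theorem exists_pow_mul_eq_int {a : ℚ} (ha : a ∈ ZInvQ q) :
    ∃ k : ℕ, ∀ j : ℕ, ∃ n : ℤ, (q : ℚ) ^ (k + j) * a = n := by
  obtain ⟨n, k, rfl⟩ := ha
  refine ⟨k, fun j => ⟨(q : ℤ) ^ j * n, ?_⟩⟩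
  have := pow_ne_zero k (q_ne_zero q)
  push_cast
  rw [pow_add]
  field_simp

theorem exists_intAt {x : SL(2,ℚ)} (hx : x ∈ G0Q q N) : ∃ k, IntAt q k x := by
  obtain ⟨k00, h00⟩ := exists_pow_mul_eq_int (hx.1 0 0)
  obtain ⟨k01, h01⟩ := exists_pow_mul_eq_int (hx.1 0 1)
  obtain ⟨k10, h10⟩ := exists_pow_mul_eq_int (hx.1 1 0)
  obtain ⟨k11, h11⟩ := exists_pow_mul_eq_int (hx.1 1 1)
  obtain ⟨n00, e00⟩ := h00 (k01 + k10 + k11)
  obtain ⟨n01, e01⟩ := h01 (k00 + k10 + k11)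
  obtain ⟨n10, e10⟩ := h10 (k00 + k01 + k11)
  obtain ⟨n11, e11⟩ := h11 (k00 + k01 + k10)
  refine ⟨k00 + k01 + k10 + k11, !![n00, n01; n10, n11], fun i j => ?_⟩
  fin_cases i <;> fin_cases j
  · simp only [Fin.zero_eta, Matrix.of_apply, Matrix.cons_val', Matrix.cons_val_zero,
      Matrix.cons_val_fin_one]
    rw [← e00]; congr 2; omega
  · simp only [Fin.zero_eta, Fin.mk_one, Matrix.of_apply, Matrix.cons_val', Matrix.cons_val_zero,
      Matrix.cons_val_one, Matrix.cons_val_fin_one]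
    rw [← e01]; congr 2; omega
  · simp only [Fin.zero_eta, Fin.mk_one, Matrix.of_apply, Matrix.cons_val', Matrix.cons_val_zero,
      Matrix.cons_val_one, Matrix.cons_val_fin_one]
    rw [← e10]; congr 2; omega
  · simp only [Fin.mk_one, Matrix.of_apply, Matrix.cons_val', Matrix.cons_val_one,
      Matrix.cons_val_fin_one]
    rw [← e11]; congr 2; omega

theorem mem_GamQ_of_intAt_zero (hNq : ¬ q ∣ N) {x : SL(2,ℚ)} (hx : x ∈ G0Q q N)
    (h0 : IntAt q 0 x) : x ∈ GamQ N := by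
  obtain ⟨M, hM⟩ := h0
  simp only [pow_zero, one_mul] at hM
  have hdet : M.det = 1 := by
    have h1 := x.det_coe
    rw [Matrix.det_fin_two, hM, hM, hM, hM] at h1
    rw [Matrix.det_fin_two]
    exact_mod_cast h1
  have hcop : q.Coprime N := (Nat.Prime.coprime_iff_not_dvd hq.out).mpr hNq
  obtain ⟨y, hy, hxy⟩ := hx.2
  have hdvd : (N : ℤ) ∣ M 1 0 := by
    rw [← natCast_dvd_intCast_iff hcop]
    refine ⟨⟨y, hy⟩, Subtype.ext ?_⟩
    simp only [Subring.coe_mul, coe_intCast, coe_natCast]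
    rw [← hM, hxy]
  obtain ⟨γ, hγ⟩ : ∃ γ : SL(2,ℤ), (γ : Matrix (Fin 2) (Fin 2) ℤ) = M := ⟨⟨M, hdet⟩, rfl⟩
  refine ⟨γ, ?_, ?_⟩
  · rw [SetLike.mem_coe, Gamma0_mem, hγ]
    exact (ZMod.intCast_zmod_eq_zero_iff_dvd _ _).mpr hdvd
  · ext i j
    rw [castQ_apply, hγ]
    exact (hM i j).symm

/-- descent: every element of `Γ₀(N)(ℤ[1/q])` lies in the group generated by `Γ₀(N)` and its
`diag(1,q)`-conjugate. -/
theorem mem_sup_of_intAt (hNq : ¬ q ∣ N) :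
    ∀ (k : ℕ) {x : SL(2,ℚ)}, x ∈ G0Q q N → IntAt q k x → x ∈ GamQ N ⊔ GamQ' q N := by
  intro k
  induction k with
  | zero =>
    intro x hx h0
    exact Subgroup.mem_sup_left (mem_GamQ_of_intAt_zero hNq hx h0)
  | succ k ih =>
    intro x hx hk
    obtain ⟨t, ht, htx⟩ := intAt_step (N := N) hNq hk
    have h1 : t * x ∈ G0Q q N := mul_mem (sup_le_G0Q q N ht) hx
    have h2 := ih h1 htx
    have : x = t⁻¹ * (t * x) := by group
    rw [this]
    exact mul_mem (inv_mem ht) h2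

/-- **The ambient group of Ihara's amalgam is `Γ₀(N)(ℤ[1/q])`.** -/
theorem G0Q_eq (hNq : ¬ q ∣ N) : G0Q q N = GamQ N ⊔ GamQ' q N := by
  apply le_antisymm
  · intro x hx
    obtain ⟨k, hk⟩ := exists_intAt hx
    exact mem_sup_of_intAt hNq k hx hk
  · exact sup_le_G0Q q N

end Fermat.Agent.ES.MEN.AmalgamRange26
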