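import Mathlib

set_option autoImplicit false

/-!
# (MEN), part C — interface

`CExt N X` bundles the hypotheses of the abstract central-extension theorem (MEN_PROOF9.md §4):
a group `X` with a homomorphism `π` to `SL(2, ZMod N)` with central kernel of odd exponent,
generated by two additive families `uh`, `lh` lifting the elementary matrices, satisfying the
Steinberg relations (R1), (R1') and with abelian torus preimage (AB).

`Triv N` : for every such extension the kernel of `π` is trivial.  The main theorem of part C is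
`Triv N` for every `N ≥ 1`; it is obtained from the odd prime power case (Bruhat count), the case
`N = 2 ^ e` (dihedral trick) and the CRT step `Triv m → Triv n → Triv (m * n)` for coprime `m, n`.
-/

namespace Fermat.Agent.ES.MEN.CExt9

open Matrix

universe u

/-- hypotheses of the abstract central-extension theorem. -/
structure CExt (N : ℕ) (X : Type u) [Group X] where
  π : X →* SpecialLinearGroup (Fin 2) (ZMod N)
  uh : ZMod N → X
  lh : ZMod N → X
  uh_add : ∀ s t, uh (s + t) = uh s * uh t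
  lh_add : ∀ s t, lh (s + t) = lh s * lh t
  π_uh : ∀ t, (π (uh t) : Matrix (Fin 2) (Fin 2) (ZMod N)) = !![1, t; 0, 1]
  π_lh : ∀ t, (π (lh t) : Matrix (Fin 2) (Fin 2) (ZMod N)) = !![1, 0; t, 1]
  gen : Subgroup.closure (Set.range uh ∪ Set.range lh) = ⊤
  central : ∀ d : X, π d = 1 → ∀ x : X, d * x = x * d
  R1 : ∀ (x : (ZMod N)ˣ) (t : ZMod N),
    (lh x * uh (-((x⁻¹ : (ZMod N)ˣ) : ZMod N)) * lh x) * uh t *
      (lh x * uh (-((x⁻¹ : (ZMod N)ˣ) : ZMod N)) * lh x)⁻¹ = lh (-((x : ZMod N) ^ 2 * t))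
  R1' : ∀ (x : (ZMod N)ˣ) (t : ZMod N),
    (lh x * uh (-((x⁻¹ : (ZMod N)ˣ) : ZMod N)) * lh x) * lh t *
      (lh x * uh (-((x⁻¹ : (ZMod N)ˣ) : ZMod N)) * lh x)⁻¹
      = uh (-(((x⁻¹ : (ZMod N)ˣ) : ZMod N) ^ 2 * t))
  AB : ∀ a b : X,
    (π a : Matrix (Fin 2) (Fin 2) (ZMod N)) 0 1 = 0 →
    (π a : Matrix (Fin 2) (Fin 2) (ZMod N)) 1 0 = 0 →
    (π b : Matrix (Fin 2) (Fin 2) (ZMod N)) 0 1 = 0 →
    (π b : Matrix (Fin 2) (Fin 2) (ZMod N)) 1 0 = 0 → a * b = b * a
  p : ℕ
  p_odd : Odd p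
  pow_p : ∀ d : X, π d = 1 → d ^ p = 1

/-- the kernel of every such extension over `ZMod N` is trivial. -/
def Triv (N : ℕ) : Prop :=
  ∀ (X : Type u) [Group X] (E : CExt N X) (d : X), E.π d = 1 → d = 1

end Fermat.Agent.ES.MEN.CExt9
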