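/-
(MEN), part of file D (helper2): generation of `SL(2, A)` by elementary matrices for every
localization `A` of `ℤ` (in particular `A = ℤ[1/q]`), in the vocabulary of `SL2Calc13`.

* `EE A` : the subgroup of `SL(2, A)` generated by all `u t`, `l t`;
* `h_mem_EE` : Whitehead, `diag(v, v⁻¹)` is a product of four elementary matrices;
* `EE_int` : `EE ℤ = ⊤` (from Mathlib's `SL2Z_generators`);
* `EE_eq_top_of_isLocalization` : `EE A = ⊤` for `[IsLocalization M A]`, `M : Submonoid ℤ`
  (first column gcd: some `γ ∈ SL(2, ℤ)` makes `γ g` upper triangular);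
* `closure_Gamma0_union_eq_top` : `closure (Γ₀(N)(A) ∪ {l 1}) = ⊤`, the generation hypothesis of
  `SL2Calc13.ParHom.phi_conj_of_mem_closure`;
* `phi_conj_all` : for `Good N`, `φ (y g y⁻¹) = φ g` for ALL `y ∈ SL(2, A)`, `g ∈ Γ(N)(A)`.
-/
import Fermat.Agent.ES.MEN.SL2Calc13

set_option autoImplicit false
set_option linter.unusedSimpArgs false

namespace Fermat.Agent.ES.MEN.ElemGen2

open Matrix Subgroup
open Fermat.Agent.ES.MEN.SL2Calc13

section Elementary

variable {R : Type*} [CommRing R]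

theorem l_intCast (m : ℤ) : l (m : R) = (l (1 : R)) ^ m := by
  induction m using Int.induction_on with
  | zero => simp [l_zero]
  | succ n ih =>
    rw [Int.cast_add, Int.cast_one, l_add, ih, _root_.zpow_add, zpow_one]
  | pred n ih =>
    rw [Int.cast_sub, Int.cast_one, sub_eq_add_neg, l_add, ih, l_neg, _root_.zpow_sub, zpow_one]

/-- the subgroup generated by the elementary matrices -/
def EE (R : Type*) [CommRing R] : Subgroup (SL2 R) :=
  closure (Set.range (u (A := R)) ∪ Set.range (l (A := R)))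

theorem u_mem_EE (t : R) : u t ∈ EE R := subset_closure (Or.inl ⟨t, rfl⟩)
theorem l_mem_EE (t : R) : l t ∈ EE R := subset_closure (Or.inr ⟨t, rfl⟩)

/-- Whitehead: `diag(v, v⁻¹)` is a product of four elementary matrices. -/
theorem h_eq (v : Rˣ) :
    h v = l (-(((v : R) - 1) * ((v⁻¹ : Rˣ) : R))) * u 1 * l ((v : R) - 1) *
      u (-((v⁻¹ : Rˣ) : R)) := by
  have h1 : (v : R) * ((v⁻¹ : Rˣ) : R) = 1 := by simp
  apply ext2 <;> simp only [mul_entry, u_00, u_01, u_10, u_11, l_00, l_01, l_10, l_11,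
    h_00, h_01, h_10, h_11]
  · ring
  · linear_combination h1
  · linear_combination ((v : R) - 1) * h1
  · linear_combination (1 - ((v : R) - 1) * ((v⁻¹ : Rˣ) : R)) * h1

theorem h_mem_EE (v : Rˣ) : h v ∈ EE R := by
  rw [h_eq]
  exact mul_mem (mul_mem (mul_mem (l_mem_EE _) (u_mem_EE _)) (l_mem_EE _)) (u_mem_EE _)

/-- conjugating a lower elementary matrix by a diagonal one -/
theorem h_mul_l_mul_inv (v : Rˣ) (t : R) :
    h v * l t * (h v)⁻¹ = l (t * ((v⁻¹ : Rˣ) : R) ^ 2) := by
  have h1 : (v : R) * ((v⁻¹ : Rˣ) : R) = 1 := by simp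
  rw [mul_inv_eq_iff_eq_mul]
  apply ext2 <;> simp only [mul_entry, u_00, u_01, u_10, u_11, l_00, l_01, l_10, l_11,
    h_00, h_01, h_10, h_11]
  · ring
  · ring
  · linear_combination (-(t * ((v⁻¹ : Rˣ) : R))) * h1
  · ring

/-- an upper triangular matrix is a product of elementary matrices -/
theorem mem_EE_of_lower_left_eq_zero (g : SL2 R) (hg : g 1 0 = 0) : g ∈ EE R := by
  have hdet : g 0 0 * g 1 1 = 1 := by
    have := det_eq g
    rw [hg, mul_zero, sub_zero] at this
    exact this
  set v : Rˣ := Units.mkOfMulEqOne _ _ hdet with hv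
  have hv0 : (v : R) = g 0 0 := rfl
  have hv1 : ((v⁻¹ : Rˣ) : R) = g 1 1 := by
    rw [← Units.mul_eq_one_iff_inv_eq]
    exact hdet
  have hgg : g = h v * u (g 0 1 * g 1 1) := by
    apply ext2 <;> simp only [mul_entry, u_00, u_01, u_10, u_11, h_00, h_01, h_10, h_11,
      hv0, hv1, hg]
    · ring
    · linear_combination (-(g 0 1)) * hdet
    · ring
    · ring
  rw [hgg]
  exact mul_mem (h_mem_EE _) (u_mem_EE _)

section Map

variable {R' : Type*} [CommRing R'] (f : R →+* R')

theorem map_u (t : R) : Matrix.SpecialLinearGroup.map f (u t) = u (f t) := by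
  apply ext2 <;> simp [Matrix.SpecialLinearGroup.map_apply_coe, u]

theorem map_l (t : R) : Matrix.SpecialLinearGroup.map f (l t) = l (f t) := by
  apply ext2 <;> simp [Matrix.SpecialLinearGroup.map_apply_coe, l]

theorem map_EE_le : (EE R).map (Matrix.SpecialLinearGroup.map f) ≤ EE R' := by
  rw [EE, MonoidHom.map_closure, closure_le]
  rintro _ ⟨g, hg | hg, rfl⟩
  · obtain ⟨t, rfl⟩ := hg
    rw [map_u]; exact u_mem_EE _
  · obtain ⟨t, rfl⟩ := hg
    rw [map_l]; exact l_mem_EE _

end Map

/-- `SL(2, ℤ)` is generated by elementary matrices. -/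
theorem EE_int : EE ℤ = ⊤ := by
  rw [eq_top_iff, ← SpecialLinearGroup.SL2Z_generators, closure_le]
  rintro g hg
  rcases hg with rfl | rfl
  · have : ModularGroup.S = u (-1 : ℤ) * l 1 * u (-1) := by decide
    rw [this]
    exact mul_mem (mul_mem (u_mem_EE _) (l_mem_EE _)) (u_mem_EE _)
  · have : ModularGroup.T = u (1 : ℤ) := rfl
    rw [this]; exact u_mem_EE _

end Elementary

section Localization

variable {A : Type*} [CommRing A] (M : Submonoid ℤ) [IsLocalization M A]

include M in
/-- every matrix of `SL(2, A)`, `A` a localization of `ℤ`, becomes upper triangular after a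
left multiplication with an integral matrix -/
theorem exists_int_mul_lower_left_eq_zero (g : SL2 A) :
    ∃ γ : SL2 ℤ, (Matrix.SpecialLinearGroup.map (algebraMap ℤ A) γ * g) 1 0 = 0 := by
  obtain ⟨⟨s1, hs1⟩, a1, ha1⟩ := IsLocalization.exists_integer_multiple M (g 0 0)
  obtain ⟨⟨s2, hs2⟩, c1, hc1⟩ := IsLocalization.exists_integer_multiple M (g 1 0)
  set s : ℤ := s1 * s2 with hs
  set a' : ℤ := s2 * a1 with ha'
  set c' : ℤ := s1 * c1 with hc'
  have hsM : s ∈ M := mul_mem hs1 hs2
  have haA : (algebraMap ℤ A a') = (algebraMap ℤ A s) * g 0 0 := by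
    simp only [ha', hs, map_mul]
    have : algebraMap ℤ A a1 = algebraMap ℤ A s1 * g 0 0 := by
      simpa [Algebra.smul_def] using ha1
    rw [this]; ring
  have hcA : (algebraMap ℤ A c') = (algebraMap ℤ A s) * g 1 0 := by
    simp only [hc', hs, map_mul]
    have : algebraMap ℤ A c1 = algebraMap ℤ A s2 * g 1 0 := by
      simpa [Algebra.smul_def] using hc1
    rw [this]; ring
  have hsU : IsUnit (algebraMap ℤ A s) := IsLocalization.map_units A ⟨s, hsM⟩
  by_cases hzero : a' = 0 ∧ c' = 0
  · obtain ⟨-, h2⟩ := hzero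
    have e2 : g 1 0 = 0 := by
      have := hcA; rw [h2, map_zero] at this
      exact (hsU.mul_right_eq_zero).mp this.symm
    exact ⟨1, by simpa using e2⟩
  · have hd : (Int.gcd a' c' : ℤ) ≠ 0 := by
      intro hh
      apply hzero
      exact Int.gcd_eq_zero_iff.mp (by exact_mod_cast hh : Int.gcd a' c' = 0)
    set d : ℤ := (Int.gcd a' c' : ℤ) with hd'
    obtain ⟨a'', ha''⟩ : d ∣ a' := Int.gcd_dvd_left _ _
    obtain ⟨c'', hc''⟩ : d ∣ c' := Int.gcd_dvd_right _ _
    have hbez : d = a' * Int.gcdA a' c' + c' * Int.gcdB a' c' := Int.gcd_eq_gcd_ab a' c'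
    set x := Int.gcdA a' c' with hx
    set y := Int.gcdB a' c' with hy
    have hdet : x * a'' - y * (-c'') = 1 := by
      have : d * (x * a'' + y * c'') = d * 1 := by
        rw [mul_one]
        calc d * (x * a'' + y * c'') = (d * a'') * x + (d * c'') * y := by ring
          _ = a' * x + c' * y := by rw [← ha'', ← hc'']
          _ = d := hbez.symm
      have := mul_left_cancel₀ hd this
      linarith
    refine ⟨⟨!![x, y; -c'', a''], by rw [Matrix.det_fin_two_of]; exact hdet⟩, ?_⟩
    have key : algebraMap ℤ A s *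
        ((algebraMap ℤ A (-c'')) * g 0 0 + (algebraMap ℤ A a'') * g 1 0) = 0 := by
      have : algebraMap ℤ A s * ((algebraMap ℤ A (-c'')) * g 0 0 + (algebraMap ℤ A a'') * g 1 0)
          = algebraMap ℤ A (-c'') * (algebraMap ℤ A s * g 0 0) +
            algebraMap ℤ A a'' * (algebraMap ℤ A s * g 1 0) := by ring
      rw [this, ← haA, ← hcA, ← map_mul, ← map_mul, ← map_add, ha'', hc'']
      have : -c'' * (d * a'') + a'' * (d * c'') = 0 := by ring
      rw [this, map_zero]
    have := (hsU.mul_right_eq_zero).mp key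
    rw [mul_entry]
    simpa [Matrix.SpecialLinearGroup.map_apply_coe] using this

include M in
/-- `SL(2, A)` is generated by elementary matrices when `A` is a localization of `ℤ`. -/
theorem EE_eq_top_of_isLocalization : EE A = ⊤ := by
  rw [eq_top_iff]
  rintro g -
  obtain ⟨γ, hγ⟩ := exists_int_mul_lower_left_eq_zero M g
  have h1 := mem_EE_of_lower_left_eq_zero _ hγ
  have h2 : Matrix.SpecialLinearGroup.map (algebraMap ℤ A) γ ∈ EE A :=
    map_EE_le (algebraMap ℤ A) ⟨γ, by rw [EE_int]; trivial, rfl⟩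
  have : g = (Matrix.SpecialLinearGroup.map (algebraMap ℤ A) γ)⁻¹ *
      (Matrix.SpecialLinearGroup.map (algebraMap ℤ A) γ * g) := by group
  rw [this]
  exact mul_mem (inv_mem h2) h1

include M in
/-- every lower elementary matrix is a diagonal conjugate of a power of `l 1` -/
theorem exists_l_eq_conj (t : A) :
    ∃ (v : Aˣ) (m : ℤ), l t = h v * (l (1 : A)) ^ m * (h v)⁻¹ := by
  obtain ⟨⟨s, hs⟩, a, ha⟩ := IsLocalization.exists_integer_multiple M t
  have hsU : IsUnit (algebraMap ℤ A s) := IsLocalization.map_units A ⟨s, hs⟩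
  obtain ⟨v, hv⟩ := hsU
  refine ⟨v, a * s, ?_⟩
  rw [← l_intCast, h_mul_l_mul_inv]
  congr 1
  have ha' : algebraMap ℤ A a = (v : A) * t := by
    rw [hv]; simpa [Algebra.smul_def] using ha
  have h1 : (v : A) * ((v⁻¹ : Aˣ) : A) = 1 := by simp
  have hcast : ((a * s : ℤ) : A) = algebraMap ℤ A a * algebraMap ℤ A s := by
    simp [algebraMap_int_eq]
  rw [hcast, ha', ← hv]
  linear_combination (-t * (1 + (v : A) * ((v⁻¹ : Aˣ) : A))) * h1

include M in
/-- **generation hypothesis of `SL2Calc13`**: `Γ₀(N)(A)` and `l 1` generate `SL(2, A)`. -/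
theorem closure_Gamma0_union_eq_top (N : A) :
    closure ((Gamma0 N : Set (SL2 A)) ∪ {l 1}) = ⊤ := by
  rw [eq_top_iff, ← EE_eq_top_of_isLocalization M, EE, closure_le]
  rintro g (⟨t, rfl⟩ | ⟨t, rfl⟩)
  · exact subset_closure (Or.inl (u_mem_Gamma0 N t))
  · obtain ⟨v, m, hvm⟩ := exists_l_eq_conj M t
    rw [hvm]
    have h1 : h v ∈ closure ((Gamma0 N : Set (SL2 A)) ∪ {l 1}) :=
      subset_closure (Or.inl (h_mem_Gamma0 N v))
    have h2 : l (1 : A) ∈ closure ((Gamma0 N : Set (SL2 A)) ∪ {l 1}) :=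
      subset_closure (Or.inr rfl)
    exact mul_mem (mul_mem h1 (zpow_mem h2 m)) (inv_mem h1)

include M in
/-- **centrality, final form**: for a parabolic `φ` on `Γ₀(N)(A)` with `Good N`, the restriction
of `φ` to `Γ(N)(A)` is invariant under conjugation by ALL of `SL(2, A)`. -/
theorem phi_conj_all {N : A} {C : Type*} [CommGroup C] (P : ParHom N C) (hG : Good N)
    (y : SL2 A) {g : SL2 A} (hg : g ∈ GammaN N) : P.φ (y * g * y⁻¹) = P.φ g :=
  P.phi_conj_of_mem_closure hG
    (by rw [closure_Gamma0_union_eq_top M N]; trivial) g hg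

end Localization

end Fermat.Agent.ES.MEN.ElemGen2
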