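import Fermat.Agent.ES.MEN.GoodMod9

set_option autoImplicit false

/-!
# (MEN), part A2: good moduli in every residue class (Dirichlet + LTE)
-/

namespace Fermat.Agent.ES.MEN.GoodExists9

open Fermat.Agent.ES.MEN.GoodMod9

/-- the part of `y` supported on the primes of `N`. -/
theorem exists_supp_part (N y : ℕ) (hN : 0 < N) (hy : 0 < y) (hNy : N ∣ y) :
    ∃ N₁ : ℕ, N ∣ N₁ ∧ 0 < N₁ ∧ (∀ l : ℕ, l.Prime → l ∣ N₁ → l ∣ N) ∧
      (∀ l : ℕ, l.Prime → l ∣ N → padicValNat l N₁ = padicValNat l y) := by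
  have hNy0 : N ^ y ≠ 0 := (pow_pos hN y).ne'
  refine ⟨Nat.gcd y (N ^ y), Nat.dvd_gcd hNy (dvd_pow_self N hy.ne'),
    Nat.gcd_pos_of_pos_left _ hy, ?_, ?_⟩
  · intro l hl h
    exact hl.dvd_of_dvd_pow (dvd_trans h (Nat.gcd_dvd_right _ _))
  · intro l hl hlN
    rw [← Nat.factorization_def _ hl, ← Nat.factorization_def _ hl,
      Nat.factorization_gcd hy.ne' hNy0]
    simp only [Finsupp.inf_apply, Nat.factorization_pow, Finsupp.smul_apply, smul_eq_mul]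
    apply min_eq_left
    have h1 : y.factorization l < y := Nat.factorization_lt l hy.ne'
    have h2 : 1 ≤ N.factorization l := by
      rw [Nat.factorization_def _ hl]
      haveI : Fact l.Prime := ⟨hl⟩
      exact one_le_padicValNat_of_dvd hN.ne' hlN
    calc y.factorization l ≤ y * 1 := by omega
      _ ≤ y * N.factorization l := Nat.mul_le_mul_left _ h2


/-- **Good moduli exist in every residue class.** -/
theorem exists_good (q N a₀ r : ℕ) (hq : q.Prime) (hN : 0 < N) (hqN : Nat.Coprime q N)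
    (ha₀ : 0 < a₀) (hcopN : Nat.Coprime a₀ N) (hr : Nat.Coprime r a₀) :
    ∃ B k : ℕ, Good B (q ^ k) ∧ N ∣ B ∧ B ≡ r [MOD a₀] := by
  classical
  -- Step 1: the base unit `x₁ = q ^ (2 φ(N))`
  set f := Nat.totient N with hf
  have hfpos : 0 < f := Nat.totient_pos.mpr hN
  set x₁ := q ^ (2 * f) with hx₁def
  have hx₁ : 1 < x₁ := Nat.one_lt_pow (by omega) hq.one_lt
  have hqf : q ^ f ≡ 1 [MOD N] := Nat.ModEq.pow_totient hqN
  have hx₁sq : x₁ = (q ^ f) ^ 2 := by rw [hx₁def, mul_comm, pow_mul]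
  have hNx₁ : N ∣ x₁ - 1 := by
    have h2 : x₁ ≡ 1 [MOD N] := by
      rw [hx₁sq]; simpa using hqf.pow 2
    exact (Nat.modEq_iff_dvd' hx₁.le).mp h2.symm
  have h4x₁ : 2 ∣ N → 4 ∣ x₁ - 1 := by
    intro h2N
    have hqodd : Odd q := by
      rcases hq.eq_two_or_odd' with h | h
      · exfalso
        subst h
        have : (2 : ℕ) ∣ Nat.gcd 2 N := Nat.dvd_gcd dvd_rfl h2N
        rw [hqN] at this
        omega
      · exact h
    have h8 : 8 ∣ (q ^ f) ^ 2 - 1 := Nat.eight_dvd_sq_sub_one_of_odd (hqodd.pow)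
    rw [hx₁sq]
    exact dvd_trans (by norm_num) h8
  -- Step 2: the `N`-part `N₁` of `x₁ - 1`
  obtain ⟨N₁, hNN₁, hN₁pos, hN₁supp, hN₁val⟩ :=
    exists_supp_part N (x₁ - 1) hN (by omega) hNx₁
  have hN₁a₀ : Nat.Coprime N₁ a₀ := by
    apply Nat.coprime_of_dvd
    intro l hl h1 h2
    have h3 : l ∣ Nat.gcd a₀ N := Nat.dvd_gcd h2 (hN₁supp l hl h1)
    rw [hcopN] at h3
    exact hl.one_lt.ne' (Nat.dvd_one.mp h3)
  obtain ⟨r₀, -, hr₀⟩ := Nat.exists_mul_mod_eq_of_coprime r hN₁a₀ ha₀.ne'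
  have hr₀' : N₁ * r₀ ≡ r [MOD a₀] := hr₀
  have hr₀cop : Nat.Coprime r₀ a₀ := by
    have h1 : Nat.Coprime (N₁ * r₀) a₀ := by
      rw [Nat.coprime_iff_gcd_eq_one, hr₀'.gcd_eq]; exact hr
    exact Nat.Coprime.coprime_mul_left h1
  -- Step 3: Dirichlet
  set M₂ := if 2 ∣ N then 4 * N else N with hM₂
  have hM₂pos : 0 < M₂ := by
    rw [hM₂]; split_ifs <;> omega
  have hNM₂ : N ∣ M₂ := by
    rw [hM₂]; split_ifs
    · exact Dvd.intro_left 4 rfl
    · exact dvd_rfl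
  have h4M₂ : 2 ∣ N → 4 ∣ M₂ := by
    intro h; rw [hM₂, if_pos h]; exact Dvd.intro _ rfl
  have hM₂a₀ : Nat.Coprime M₂ a₀ := by
    rw [hM₂]; split_ifs with h2
    · have ha₀odd : Nat.Coprime 2 a₀ := by
        rw [Nat.coprime_comm]
        exact Nat.Coprime.coprime_dvd_right h2 hcopN
      have : Nat.Coprime 4 a₀ := by
        have : Nat.Coprime (2 ^ 2) a₀ := Nat.Coprime.pow_left 2 ha₀odd
        simpa using this
      exact Nat.Coprime.mul_left this hcopN.symm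
    · exact hcopN.symm
  obtain ⟨c, hcM₂, hca₀⟩ := Nat.chineseRemainder hM₂a₀ (M₂ - 1) r₀
  have hccop : Nat.Coprime c (M₂ * a₀) := by
    apply Nat.Coprime.mul_right
    · rw [Nat.coprime_iff_gcd_eq_one, hcM₂.gcd_eq]
      rcases Nat.lt_or_ge 1 M₂ with h | h
      · have : Nat.Coprime (M₂ - 1) M₂ := by
          have h1 : Nat.Coprime (M₂ - 1) (M₂ - 1 + 1) := by simp
          rwa [Nat.sub_add_cancel h.le] at h1
        exact this
      · have : M₂ = 1 := by omega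
        rw [this]; simp
    · rw [Nat.coprime_iff_gcd_eq_one, hca₀.gcd_eq]; exact hr₀cop
  obtain ⟨l', hl'gt, hl', hl'c⟩ := Nat.forall_exists_prime_gt_and_modEq (N + q + a₀ + 2)
    (Nat.mul_pos hM₂pos ha₀).ne' hccop
  have hl'M₂ : l' ≡ M₂ - 1 [MOD M₂] :=
    ((Nat.modEq_and_modEq_iff_modEq_mul hM₂a₀).mpr hl'c).1.trans hcM₂
  have hl'a₀ : l' ≡ r₀ [MOD a₀] :=
    ((Nat.modEq_and_modEq_iff_modEq_mul hM₂a₀).mpr hl'c).2.trans hca₀
  have hM₂dvd : M₂ ∣ l' + 1 := by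
    have h1 : l' + 1 ≡ M₂ - 1 + 1 [MOD M₂] := hl'M₂.add_right 1
    rw [Nat.sub_add_cancel hM₂pos] at h1
    exact (Nat.modEq_zero_iff_dvd).mp (h1.trans (Nat.modEq_zero_iff_dvd.mpr dvd_rfl))
  -- basic facts on `l'`
  have hl'3 : 3 ≤ l' := by omega
  have hl'N : ¬ l' ∣ N := fun h => by have := Nat.le_of_dvd hN h; omega
  have hl'q : l' ≠ q := by omega
  have hl'odd : Odd l' := by
    rcases hl'.eq_two_or_odd' with h | h
    · omega
    · exact h
  obtain ⟨t₀, ht₀⟩ := hl'odd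
  have ht₀pos : 0 < t₀ := by omega
  -- `t₀` is prime to `N`
  have ht₀N : ∀ l : ℕ, l.Prime → l ∣ N → ¬ l ∣ t₀ := by
    intro l hl hlN hlt
    have h1 : l ∣ l' + 1 := dvd_trans (dvd_trans hlN hNM₂) hM₂dvd
    rcases hl.eq_two_or_odd' with h2 | hodd
    · subst h2
      have h4 : 4 ∣ l' + 1 := dvd_trans (h4M₂ hlN) hM₂dvd
      obtain ⟨s, hs⟩ := hlt
      omega
    · have h2 : l ∣ 2 * t₀ := Dvd.dvd.mul_left hlt 2
      have h3 : l ∣ (l' + 1) - 2 * t₀ := Nat.dvd_sub h1 h2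
      have h4 : (l' + 1) - 2 * t₀ = 2 := by omega
      rw [h4] at h3
      have := Nat.le_of_dvd (by norm_num) h3
      have := hl.two_le
      have : l = 2 := by omega
      subst this
      exact absurd hodd (by decide)
  -- Step 4: the unit `x₂ = x₁ ^ t₀ ≡ 1 (l')`
  set x₂ := x₁ ^ t₀ with hx₂def
  have hx₂ : 1 < x₂ := Nat.one_lt_pow ht₀pos.ne' hx₁
  have hql' : Nat.Coprime q l' := (Nat.coprime_primes hq hl').mpr (Ne.symm hl'q)
  have hl'x₂ : l' ∣ x₂ - 1 := by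
    have h1 : (q ^ f) ^ Nat.totient l' ≡ 1 [MOD l'] :=
      Nat.ModEq.pow_totient (Nat.Coprime.pow_left f hql')
    rw [Nat.totient_prime hl'] at h1
    have h2 : x₂ = (q ^ f) ^ (l' - 1) := by
      rw [hx₂def, hx₁sq, ← pow_mul]
      congr 1
      omega
    rw [h2]
    exact (Nat.modEq_iff_dvd' (Nat.one_le_pow _ _ (pow_pos hq.pos f))).mp h1.symm
  haveI : Fact l'.Prime := ⟨hl'⟩
  set w' := padicValNat l' (x₂ - 1) with hw'
  have hw'pos : 1 ≤ w' := one_le_padicValNat_of_dvd (by omega) hl'x₂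
  set φa := Nat.totient a₀ with hφa
  have hφapos : 0 < φa := Nat.totient_pos.mpr ha₀
  set e' := 1 + φa * w' with he'
  have he'w' : w' ≤ e' := by
    rw [he']
    have : w' ≤ φa * w' := Nat.le_mul_of_pos_left _ hφapos
    omega
  set t₁ := l' ^ (e' - w') with ht₁
  have ht₁pos : 0 < t₁ := pow_pos hl'.pos _
  set u := x₂ ^ t₁ with hudef
  have hu : 1 < u := Nat.one_lt_pow ht₁pos.ne' hx₂
  have hu_eq : u = q ^ (2 * f * t₀ * t₁) := by
    rw [hudef, hx₂def, hx₁def, ← pow_mul, ← pow_mul]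
    congr 1
    ring
  have hu_eq' : u = x₁ ^ (t₀ * t₁) := by
    rw [hudef, hx₂def, ← pow_mul]
  -- valuations of `u - 1`
  have hval_l' : padicValNat l' (u - 1) = e' := by
    rw [hudef, lte_sub_one l' hx₂ hl'x₂ (by omega) ht₁pos.ne', ht₁, padicValNat.prime_pow]
    omega
  have hval_N : ∀ l : ℕ, l.Prime → l ∣ N → padicValNat l (u - 1) = padicValNat l N₁ := by
    intro l hl hlN
    haveI : Fact l.Prime := ⟨hl⟩
    have hll' : l ≠ l' := fun h => hl'N (h ▸ hlN)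
    have hlt : ¬ l ∣ t₀ * t₁ := by
      intro h
      rcases (Nat.Prime.dvd_mul hl).mp h with h | h
      · exact ht₀N l hl hlN h
      · have := hl.dvd_of_dvd_pow h
        exact hll' ((Nat.prime_dvd_prime_iff_eq hl hl').mp this)
    rw [hu_eq', lte_sub_one l hx₁ (dvd_trans hlN hNx₁)
      (fun h => h4x₁ (h ▸ hlN)) (Nat.mul_pos ht₀pos ht₁pos).ne',
      padicValNat.eq_zero_of_not_dvd hlt, add_zero, hN₁val l hl hlN]
  -- Step 5: `B`
  have hl'N₁ : ¬ l' ∣ N₁ := fun h => hl'N (hN₁supp l' hl' h)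
  refine ⟨N₁ * l' ^ e', 2 * f * t₀ * t₁, ?_, Dvd.dvd.mul_right hNN₁ _, ?_⟩
  · rw [← hu_eq]
    have hBpos : 0 < N₁ * l' ^ e' := Nat.mul_pos hN₁pos (pow_pos hl'.pos _)
    have hprimes : ∀ l : ℕ, l.Prime → l ∣ N₁ * l' ^ e' → (l ∣ N ∧ l ≠ l') ∨ l = l' := by
      intro l hl h
      rcases (Nat.Prime.dvd_mul hl).mp h with h | h
      · have hlN := hN₁supp l hl h
        exact Or.inl ⟨hlN, fun h' => hl'N (h' ▸ hlN)⟩
      · exact Or.inr ((Nat.prime_dvd_prime_iff_eq hl hl').mp (hl.dvd_of_dvd_pow h))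
    have key := exact_of_padicVal (B := N₁ * l' ^ e') (M := N₁ * l' ^ e') (x := u - 1) hBpos.ne'
      (by omega) (fun l _ h => h) (by
        intro l hl h
        haveI : Fact l.Prime := ⟨hl⟩
        rw [padicValNat.mul hN₁pos.ne' (pow_pos hl'.pos _).ne', padicValNat.pow]
        rcases hprimes l hl h with ⟨hlN, hne⟩ | rfl
        · have : padicValNat l l' = 0 := by
            apply padicValNat.eq_zero_of_not_dvd
            intro h'
            exact hne ((Nat.prime_dvd_prime_iff_eq hl hl').mp h')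
          rw [hval_N l hl hlN, this]; simp
        · rw [hval_l', padicValNat.eq_zero_of_not_dvd hl'N₁, padicValNat_self]; simp)
    refine ⟨hBpos, hu, key.1, key.2, ?_⟩
    intro h2
    have h2N₁ : 2 ∣ N₁ := by
      rcases (Nat.Prime.dvd_mul Nat.prime_two).mp h2 with h | h
      · exact h
      · exfalso
        have := Nat.prime_two.dvd_of_dvd_pow h
        have := (Nat.prime_dvd_prime_iff_eq Nat.prime_two hl').mp this
        omega
    have h2N : 2 ∣ N := hN₁supp 2 Nat.prime_two h2N₁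
    have h4 : 4 ∣ N₁ := by
      have hv : padicValNat 2 N₁ = padicValNat 2 (x₁ - 1) := hN₁val 2 Nat.prime_two h2N
      have h4' : 2 ^ 2 ∣ x₁ - 1 := by simpa using h4x₁ h2N
      have : 2 ≤ padicValNat 2 (x₁ - 1) :=
        (padicValNat_dvd_iff_le (p := 2) (by omega)).mp h4'
      have : 2 ^ 2 ∣ N₁ := (padicValNat_dvd_iff_le (p := 2) hN₁pos.ne').mpr (by omega)
      simpa using this
    exact Dvd.dvd.mul_right h4 _
  · -- the residue class
    have hl'a₀cop : Nat.Coprime l' a₀ := by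
      rw [Nat.coprime_iff_gcd_eq_one, hl'a₀.gcd_eq]; exact hr₀cop
    have h1 : l' ^ φa ≡ 1 [MOD a₀] := Nat.ModEq.pow_totient hl'a₀cop
    have h2 : l' ^ e' ≡ l' [MOD a₀] := by
      rw [he', pow_add, pow_one, pow_mul]
      have := (h1.pow w').mul_left l'
      simpa using this
    calc N₁ * l' ^ e' ≡ N₁ * l' [MOD a₀] := h2.mul_left _
      _ ≡ N₁ * r₀ [MOD a₀] := hl'a₀.mul_left _
      _ ≡ r [MOD a₀] := hr₀'


/-- Packaged form used by the matrix calculus: a modulus `B ≡ r (a₀)`, divisible by `N`, and a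
unit `v = q ^ k ≡ 1 (B)` such that every `α ≡ 1 (B)` is a power of `v` modulo `N * B ^ 2`. -/
theorem exists_good_pack (q N a₀ r : ℕ) (hq : q.Prime) (hN : 0 < N) (hqN : Nat.Coprime q N)
    (ha₀ : 0 < a₀) (hcopN : Nat.Coprime a₀ N) (hr : Nat.Coprime r a₀) :
    ∃ B k : ℕ, 0 < B ∧ N ∣ B ∧ B ≡ r [MOD a₀] ∧ q ^ k ≡ 1 [MOD B] ∧
      ∀ α : ℤ, α ≡ 1 [ZMOD (B : ℤ)] →
        ∃ j : ℕ, α ≡ ((q : ℤ) ^ k) ^ j [ZMOD ((N : ℤ) * (B : ℤ) ^ 2)] := by
  obtain ⟨B, k, hg, hNB, hBr⟩ := exists_good q N a₀ r hq hN hqN ha₀ hcopN hr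
  refine ⟨B, k, hg.1, hNB, hBr, ?_, ?_⟩
  · exact ((Nat.modEq_iff_dvd' hg.2.1.le).mpr hg.2.2.1).symm
  · intro α hα
    obtain ⟨j, hj⟩ := hg.exists_pow_modEq 2 α hα
    refine ⟨j, ?_⟩
    have hdvd : ((N : ℤ) * (B : ℤ) ^ 2) ∣ (B : ℤ) ^ (2 + 1) := by
      obtain ⟨c, hc⟩ := hNB
      refine ⟨c, ?_⟩
      rw [hc]; push_cast; ring
    have := hj.of_dvd hdvd
    simpa using this

end Fermat.Agent.ES.MEN.GoodExists9
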