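import Mathlib

/-!
# (MEN), file A: the arithmetic input of `MEN_PROOF9.md` §1 (helper25)

Pure `ℕ`/`ℤ`/`ZMod` arithmetic, Mathlib only.

* `Good B u` : `0 < B`, `4 ∣ B` if `B` is even, and `v_l(u - 1) = v_l(B)` for every prime `l ∣ B`.
* (A1) `Good.zpowers_eq_ker`, `Good.exists_pow_modEq`, `Good.exists_pow_eq_zmod`,
  `Good.exists_pow_modEq_mul` : the powers of `u` fill `ker((ℤ/B^m)ˣ → (ℤ/B)ˣ)`
  (LTE gives `ord(u mod B^(m+1)) = B^m = #ker`).
* (A2) `exists_good` : for `q` prime, `N ≥ 1` prime to `q`, `a0` prime to `N q`, `r` prime to `a0`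
  there are `B, k` with `N ∣ B`, `B` prime to `q`, `B ≡ r mod a0` and `Good B (q ^ k)`
  (Dirichlet + CRT + LTE).
-/

namespace Fermat.Agent.ES.MEN.GoodModulus25

/-- `(B,u)` is GOOD: `u - 1` and `B` have the same valuation at every prime of `B`
(i.e. `B` is a unitary divisor of `u - 1`), and `4 ∣ B` as soon as `B` is even. -/
def Good (B u : ℕ) : Prop :=
  0 < B ∧ (2 ∣ B → 4 ∣ B) ∧
    ∀ l : ℕ, l.Prime → l ∣ B → padicValNat l (u - 1) = padicValNat l B

/-- Lifting the exponent, uniformly in the prime (at `2` we ask `4 ∣ u - 1`). -/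
theorem lte {l u : ℕ} (hl : l.Prime) (hu1 : 1 < u) (hlu : l ∣ u - 1)
    (h4 : l = 2 → 4 ∣ u - 1) {n : ℕ} (hn : n ≠ 0) :
    padicValNat l (u ^ n - 1) = padicValNat l (u - 1) + padicValNat l n := by
  have : Fact l.Prime := ⟨hl⟩
  have hnl : ¬ l ∣ u := by
    intro h
    have h2 : l ∣ u - (u - 1) := Nat.dvd_sub h hlu
    have h1 : u - (u - 1) = 1 := by omega
    rw [h1] at h2
    exact hl.one_lt.ne' (Nat.dvd_one.mp h2)
  have hpos : u ^ n - 1 ≠ 0 := by
    have : 1 < u ^ n := Nat.one_lt_pow hn hu1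
    omega
  rcases hl.eq_two_or_odd' with rfl | hodd
  · have h4' := h4 rfl
    rw [← Nat.cast_inj (R := ℕ∞), Nat.cast_add]
    rw [padicValNat_eq_emultiplicity hpos, padicValNat_eq_emultiplicity (by omega),
      padicValNat_eq_emultiplicity hn]
    have hx : ¬ (2 : ℤ) ∣ (u : ℤ) := by
      intro h
      exact hnl (by exact_mod_cast h)
    have hxy : (4 : ℤ) ∣ (u : ℤ) - 1 := by
      have : ((4 : ℕ) : ℤ) ∣ ((u - 1 : ℕ) : ℤ) := by exact_mod_cast h4'
      rwa [Nat.cast_sub hu1.le] at this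
    have key := Int.two_pow_sub_pow' (x := (u : ℤ)) (y := 1) n hxy hx
    rw [one_pow] at key
    have e1 : emultiplicity 2 (u ^ n - 1) = emultiplicity (2 : ℤ) ((u : ℤ) ^ n - 1) := by
      rw [← Int.natCast_emultiplicity]
      congr 1
      rw [Nat.cast_sub (Nat.one_le_pow _ _ (by omega))]
      push_cast; rfl
    have e2 : emultiplicity 2 (u - 1) = emultiplicity (2 : ℤ) ((u : ℤ) - 1) := by
      rw [← Int.natCast_emultiplicity]
      congr 1
      rw [Nat.cast_sub hu1.le]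
      push_cast; rfl
    have e3 : emultiplicity 2 n = emultiplicity (2 : ℤ) (n : ℤ) := by
      rw [← Int.natCast_emultiplicity]
      rfl
    rw [e1, e2, e3]
    exact key
  · have := padicValNat.pow_sub_pow hodd hu1 hlu hnl hn
    simpa using this

/-- A good `u` exceeds `1` as soon as `B` has a prime factor. -/
theorem Good.one_lt {B u : ℕ} (h : Good B u) (hB : B ≠ 1) : 1 < u := by
  obtain ⟨l, hl, hlB⟩ := Nat.exists_prime_and_dvd hB
  have : Fact l.Prime := ⟨hl⟩
  have h1 := h.2.2 l hl hlB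
  have h2 : 1 ≤ padicValNat l B := one_le_padicValNat_of_dvd h.1.ne' hlB
  by_contra hcon
  have : u - 1 = 0 := by omega
  rw [this] at h1
  simp at h1
  omega

theorem Good.prime_dvd_sub_one {B u l : ℕ} (h : Good B u) (hl : l.Prime) (hlB : l ∣ B) :
    l ∣ u - 1 := by
  have : Fact l.Prime := ⟨hl⟩
  have h1 := h.2.2 l hl hlB
  have h2 : 1 ≤ padicValNat l B := one_le_padicValNat_of_dvd h.1.ne' hlB
  exact dvd_of_one_le_padicValNat (by omega)

theorem Good.four_dvd {B u : ℕ} (h : Good B u) (h2 : 2 ∣ B) : 4 ∣ u - 1 := by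
  have : Fact (Nat.Prime 2) := ⟨Nat.prime_two⟩
  have h1 := h.2.2 2 Nat.prime_two h2
  have h4 : 2 ^ 2 ∣ B := h.2.1 h2
  have h3 : 2 ≤ padicValNat 2 B := (padicValNat_dvd_iff_le h.1.ne').1 h4
  have hne : u - 1 ≠ 0 := by
    intro h0
    rw [h0] at h1
    simp at h1
    omega
  have : 2 ^ 2 ∣ u - 1 := (padicValNat_dvd_iff_le hne).2 (by omega)
  exact this

/-- LTE for a good pair, at every prime of `B`. -/
theorem Good.lte {B u l : ℕ} (h : Good B u) (hl : l.Prime) (hlB : l ∣ B) {n : ℕ} (hn : n ≠ 0) :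
    padicValNat l (u ^ n - 1) = padicValNat l B + padicValNat l n := by
  have hB1 : B ≠ 1 := by
    rintro rfl
    exact hl.one_lt.ne' (Nat.dvd_one.mp hlB)
  rw [← h.2.2 l hl hlB]
  exact GoodModulus25.lte hl (h.one_lt hB1) (h.prime_dvd_sub_one hl hlB)
    (fun h2 => h.four_dvd (h2 ▸ hlB)) hn

/-- The order computation in divisibility form. -/
theorem Good.pow_dvd_iff {B u : ℕ} (h : Good B u) (m n : ℕ) :
    B ^ (m + 1) ∣ u ^ n - 1 ↔ B ^ m ∣ n := by
  have hB0 : B ≠ 0 := h.1.ne'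
  rcases eq_or_ne n 0 with rfl | hn
  · simp
  rcases eq_or_ne B 1 with rfl | hB1
  · simp
  have hu1 := h.one_lt hB1
  have hpos : u ^ n - 1 ≠ 0 := by
    have : 1 < u ^ n := Nat.one_lt_pow hn hu1
    omega
  constructor
  · intro hdiv
    rw [Nat.dvd_iff_prime_pow_dvd_dvd]
    intro p k hp hpk
    have : Fact p.Prime := ⟨hp⟩
    rcases Nat.eq_zero_or_pos k with rfl | hk
    · simp
    have hpB : p ∣ B := by
      have : p ∣ B ^ m := dvd_trans (dvd_pow_self p hk.ne') hpk
      exact hp.dvd_of_dvd_pow this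
    have h1 : k ≤ padicValNat p (B ^ m) := (padicValNat_dvd_iff_le (pow_ne_zero _ hB0)).1 hpk
    rw [padicValNat.pow] at h1
    have h2 : p ^ padicValNat p (B ^ (m + 1)) ∣ u ^ n - 1 :=
      dvd_trans pow_padicValNat_dvd hdiv
    have h3 := (padicValNat_dvd_iff_le hpos).1 h2
    rw [padicValNat.pow, h.lte hp hpB hn] at h3
    rw [padicValNat_dvd_iff_le hn]
    have : (m + 1) * padicValNat p B = m * padicValNat p B + padicValNat p B := by ring
    omega
  · intro hdiv
    rw [Nat.dvd_iff_prime_pow_dvd_dvd]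
    intro p k hp hpk
    have : Fact p.Prime := ⟨hp⟩
    rcases Nat.eq_zero_or_pos k with rfl | hk
    · simp
    have hpB : p ∣ B := by
      have : p ∣ B ^ (m + 1) := dvd_trans (dvd_pow_self p hk.ne') hpk
      exact hp.dvd_of_dvd_pow this
    have h1 : k ≤ padicValNat p (B ^ (m + 1)) :=
      (padicValNat_dvd_iff_le (pow_ne_zero _ hB0)).1 hpk
    rw [padicValNat.pow] at h1
    have h2 : p ^ padicValNat p (B ^ m) ∣ n := dvd_trans pow_padicValNat_dvd hdiv
    have h3 := (padicValNat_dvd_iff_le hn).1 h2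
    rw [padicValNat.pow] at h3
    rw [padicValNat_dvd_iff_le hpos, h.lte hp hpB hn]
    have : (m + 1) * padicValNat p B = m * padicValNat p B + padicValNat p B := by ring
    omega

theorem Good.dvd_sub_one {B u : ℕ} (h : Good B u) : B ∣ u - 1 := by
  have := (h.pow_dvd_iff 0 1).2 (by simp)
  simpa using this

theorem Good.coprime_pow {B u : ℕ} (h : Good B u) (m : ℕ) : u.Coprime (B ^ m) := by
  apply Nat.Coprime.pow_right
  rcases eq_or_ne B 1 with rfl | hB1
  · simp
  have hu1 := h.one_lt hB1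
  obtain ⟨c, hc⟩ := h.dvd_sub_one
  have : u = B * c + 1 := by omega
  rw [this]
  simp

/-- `φ(B^(m+1)) = B^m φ(B)`. -/
theorem totient_pow_succ_eq (B m : ℕ) : Nat.totient (B ^ (m + 1)) = B ^ m * Nat.totient B := by
  induction m with
  | zero => simp
  | succ m ih =>
    rcases Nat.eq_zero_or_pos B with rfl | hB
    · simp
    have h := Nat.totient_gcd_mul_totient_mul (B ^ (m + 1)) B
    have hg : (B ^ (m + 1)).gcd B = B := Nat.gcd_eq_right (dvd_pow_self B (Nat.succ_ne_zero m))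
    rw [hg, ← pow_succ] at h
    have hpos : 0 < Nat.totient B := Nat.totient_pos.2 hB
    have : Nat.totient (B ^ (m + 1 + 1)) = Nat.totient (B ^ (m + 1)) * B := by
      apply Nat.eq_of_mul_eq_mul_left hpos
      rw [h]; ring
    rw [this, ih]; ring

/-- The kernel of `(ℤ/B^(m+1))ˣ → (ℤ/B)ˣ` has `B^m` elements. -/
theorem card_ker_unitsMap {B : ℕ} (hB : 0 < B) (m : ℕ) :
    Nat.card (ZMod.unitsMap (dvd_pow_self B (Nat.succ_ne_zero m))).ker = B ^ m := by
  have : NeZero B := ⟨hB.ne'⟩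
  have : NeZero (B ^ (m + 1)) := ⟨pow_ne_zero _ hB.ne'⟩
  set f := ZMod.unitsMap (dvd_pow_self B (Nat.succ_ne_zero m)) with hf
  have hsurj : Function.Surjective f := ZMod.unitsMap_surjective _
  have h1 := Subgroup.card_mul_index f.ker
  rw [Subgroup.index_ker, MonoidHom.range_eq_top.2 hsurj, Subgroup.card_top] at h1
  have c1 : Nat.card (ZMod B)ˣ = Nat.totient B := by
    rw [Nat.card_eq_fintype_card, ZMod.card_units_eq_totient]
  have c2 : Nat.card (ZMod (B ^ (m + 1)))ˣ = Nat.totient (B ^ (m + 1)) := by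
    rw [Nat.card_eq_fintype_card, ZMod.card_units_eq_totient]
  rw [c1] at h1
  rw [show Nat.card (ZMod (B ^ m.succ))ˣ = Nat.totient (B ^ (m + 1)) from c2,
    totient_pow_succ_eq] at h1
  exact Nat.eq_of_mul_eq_mul_right (Nat.totient_pos.2 hB) h1

/-- **(A1), group form.**  For a good pair the powers of `u` fill
`ker((ℤ/B^(m+1))ˣ → (ℤ/B)ˣ)`. -/
theorem Good.zpowers_eq_ker {B u : ℕ} (h : Good B u) (m : ℕ) :
    Subgroup.zpowers (ZMod.unitOfCoprime u (h.coprime_pow (m + 1))) =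
      (ZMod.unitsMap (dvd_pow_self B (Nat.succ_ne_zero m))).ker := by
  have hB := h.1
  have : NeZero B := ⟨hB.ne'⟩
  have : NeZero (B ^ (m + 1)) := ⟨pow_ne_zero _ hB.ne'⟩
  set U := ZMod.unitOfCoprime u (h.coprime_pow (m + 1)) with hU
  have hone : ∀ n : ℕ, U ^ n = 1 ↔ B ^ m ∣ n := by
    intro n
    rcases eq_or_ne B 1 with rfl | hB1
    · simp only [one_pow, one_dvd, iff_true]
      have : Subsingleton (ZMod (1 ^ (m + 1)))ˣ := by
        rw [one_pow]; infer_instance
      exact Subsingleton.elim _ _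
    have hu1 := h.one_lt hB1
    rw [← h.pow_dvd_iff m n, ← Units.val_inj, Units.val_pow_eq_pow_val, Units.val_one, hU,
      ZMod.coe_unitOfCoprime, ← Nat.cast_pow, ← Nat.cast_one (R := ZMod (B ^ (m + 1))),
      ZMod.natCast_eq_natCast_iff, Nat.ModEq.comm, Nat.modEq_iff_dvd' (Nat.one_le_pow _ _ ?_)]
    omega
  have hord : orderOf U = B ^ m := by
    apply Nat.dvd_antisymm
    · exact orderOf_dvd_of_pow_eq_one ((hone _).2 dvd_rfl)
    · exact (hone _).1 (pow_orderOf_eq_one U)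
  have hle : Subgroup.zpowers U ≤ (ZMod.unitsMap (dvd_pow_self B (Nat.succ_ne_zero m))).ker := by
    rw [Subgroup.zpowers_le, MonoidHom.mem_ker]
    apply Units.ext
    rw [ZMod.unitsMap_def, Units.coe_map, hU, ZMod.coe_unitOfCoprime]
    simp only [MonoidHom.coe_coe, map_natCast, Units.val_one]
    rcases eq_or_ne B 1 with rfl | hB1
    · exact Subsingleton.elim _ _
    have hu1 := h.one_lt hB1
    obtain ⟨c, hc⟩ := h.dvd_sub_one
    have : u = B * c + 1 := by omega
    rw [this]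
    simp
  apply Subgroup.eq_of_le_of_card_ge hle
  rw [card_ker_unitsMap hB m, Nat.card_zpowers, hord]

/-- **(A1) PRIME-POWER LEMMA, integer form.**  If `(B,u)` is good, every integer `α ≡ 1 mod B`
is congruent to a power of `u` modulo `B ^ m`, for every `m`. -/
theorem Good.exists_pow_modEq {B u : ℕ} (h : Good B u) (m : ℕ) (α : ℤ)
    (hα : α ≡ 1 [ZMOD (B : ℤ)]) : ∃ j : ℕ, α ≡ (u : ℤ) ^ j [ZMOD ((B : ℤ) ^ m)] := by
  rcases m with _ | m
  · exact ⟨0, by simp [Int.modEq_one]⟩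
  have hB := h.1
  have : NeZero B := ⟨hB.ne'⟩
  have : NeZero (B ^ (m + 1)) := ⟨pow_ne_zero _ hB.ne'⟩
  -- `α` is a unit modulo `B ^ (m+1)`
  have hcop : IsCoprime ((B ^ (m + 1) : ℕ) : ℤ) α := by
    rw [Nat.cast_pow]
    apply IsCoprime.pow_left
    obtain ⟨c, hc⟩ := hα.symm.dvd
    refine ⟨-c, 1, ?_⟩
    linarith
  have hunit : IsUnit ((α : ZMod (B ^ (m + 1)))) :=
    (ZMod.coe_int_isUnit_iff_isCoprime α (B ^ (m + 1))).2 hcop
  obtain ⟨X, hX⟩ := hunit
  have hXker : X ∈ (ZMod.unitsMap (dvd_pow_self B (Nat.succ_ne_zero m))).ker := by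
    rw [MonoidHom.mem_ker]
    apply Units.ext
    rw [ZMod.unitsMap_def, Units.coe_map, hX]
    simp only [MonoidHom.coe_coe, map_intCast, Units.val_one]
    rw [← Int.cast_one, ZMod.intCast_eq_intCast_iff]
    exact hα
  rw [← h.zpowers_eq_ker m, ← mem_powers_iff_mem_zpowers, Submonoid.mem_powers_iff] at hXker
  obtain ⟨j, hj⟩ := hXker
  refine ⟨j, ?_⟩
  have := congrArg Units.val hj
  rw [Units.val_pow_eq_pow_val, ZMod.coe_unitOfCoprime, hX] at this
  have e : ((B : ℤ) ^ (m + 1)) = ((B ^ (m + 1) : ℕ) : ℤ) := by push_cast; rfl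
  rw [e]
  apply (ZMod.intCast_eq_intCast_iff _ _ _).1
  push_cast
  exact this.symm

/-- **(A1), `ZMod` form.** -/
theorem Good.exists_pow_eq_zmod {B u : ℕ} (h : Good B u) {m : ℕ} (hm : m ≠ 0)
    (x : ZMod (B ^ m)) (hx : ZMod.castHom (dvd_pow_self B hm) (ZMod B) x = 1) :
    ∃ j : ℕ, x = (u : ZMod (B ^ m)) ^ j := by
  have hB := h.1
  have : NeZero B := ⟨hB.ne'⟩
  have : NeZero (B ^ m) := ⟨pow_ne_zero _ hB.ne'⟩
  have hxv : ((x.val : ℤ) : ZMod (B ^ m)) = x := by
    rw [Int.cast_natCast, ZMod.natCast_zmod_val]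
  have hα : (x.val : ℤ) ≡ 1 [ZMOD (B : ℤ)] := by
    rw [← ZMod.intCast_eq_intCast_iff, Int.cast_one, ← hx, ← hxv, map_intCast]
    simp
  obtain ⟨j, hj⟩ := h.exists_pow_modEq m (x.val : ℤ) hα
  refine ⟨j, ?_⟩
  have e : ((B : ℤ) ^ m) = ((B ^ m : ℕ) : ℤ) := by push_cast; rfl
  rw [e] at hj
  have hj' := (ZMod.intCast_eq_intCast_iff _ _ _).2 hj
  rw [hxv] at hj'
  rw [hj']
  push_cast
  rfl

/-- **Consequence of (A1) used in Theorems C and R**: if `N ∣ B`, every integer `α ≡ 1 mod B`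
is congruent modulo `N B²` to a power of `u`, and that power is `≡ 1 mod N`. -/
theorem Good.exists_pow_modEq_mul {B u N : ℕ} (h : Good B u) (hNB : N ∣ B) (α : ℤ)
    (hα : α ≡ 1 [ZMOD (B : ℤ)]) :
    ∃ j : ℕ, α ≡ (u : ℤ) ^ j [ZMOD ((N : ℤ) * (B : ℤ) ^ 2)] ∧ (u : ℤ) ^ j ≡ 1 [ZMOD (N : ℤ)] := by
  obtain ⟨j, hj⟩ := h.exists_pow_modEq 3 α hα
  refine ⟨j, ?_, ?_⟩
  · apply hj.of_dvd
    obtain ⟨c, rfl⟩ := hNB
    exact ⟨c, by push_cast; ring⟩
  · have h1 : (u : ℤ) ≡ 1 [ZMOD (N : ℤ)] := by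
      rcases eq_or_ne B 1 with rfl | hB1
      · have : N = 1 := Nat.dvd_one.mp hNB
        subst this
        simp [Int.modEq_one]
      have hu1 := h.one_lt hB1
      have h2 : N ∣ u - 1 := dvd_trans hNB h.dvd_sub_one
      have h3 : ((N : ℕ) : ℤ) ∣ ((u - 1 : ℕ) : ℤ) := by exact_mod_cast h2
      rw [Nat.cast_sub hu1.le] at h3
      exact (Int.modEq_iff_dvd.2 (by simpa using h3)).symm
    simpa using h1.pow j


/-! ### (A2): a good modulus in every residue class -/

/-- Split `M` into an `N`-primary part and a part prime to `N`. -/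
theorem exists_primary_split (N : ℕ) : ∀ M : ℕ, M ≠ 0 →
    ∃ M1 M2 : ℕ, M = M1 * M2 ∧ (∀ l : ℕ, l.Prime → l ∣ M1 → l ∣ N) ∧ M2.Coprime N := by
  intro M
  induction M using Nat.strong_induction_on with
  | _ M ih =>
    intro hM
    by_cases hc : M.Coprime N
    · exact ⟨1, M, by simp, fun l hl h1 => absurd (Nat.dvd_one.mp h1) hl.one_lt.ne', hc⟩
    · obtain ⟨l, hl, hlM, hlN⟩ := Nat.Prime.not_coprime_iff_dvd.1 hc
      obtain ⟨M', rfl⟩ := hlM
      have hM' : M' ≠ 0 := by
        rintro rfl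
        simp at hM
      have hlt : M' < l * M' := by
        have := hl.one_lt
        nlinarith [Nat.pos_of_ne_zero hM']
      obtain ⟨M1, M2, h1, h2, h3⟩ := ih M' hlt hM'
      refine ⟨l * M1, M2, by rw [h1]; ring, ?_, h3⟩
      intro p hp hpd
      rcases (Nat.Prime.dvd_mul hp).1 hpd with h | h
      · rwa [(Nat.prime_dvd_prime_iff_eq hp hl).1 h]
      · exact h2 p hp h

/-- The base power `x = q ^ (2 φ(N) N)`. -/
theorem base_pow {N q : ℕ} (hq : q.Prime) (hN : 0 < N) (hNq : N.Coprime q) :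
    1 < q ^ (2 * Nat.totient N * N) ∧ N ∣ q ^ (2 * Nat.totient N * N) - 1 ∧
      (2 ∣ N → 8 ∣ q ^ (2 * Nat.totient N * N) - 1) := by
  have hφ : 0 < Nat.totient N := Nat.totient_pos.2 hN
  have hk : 2 * Nat.totient N * N ≠ 0 := by positivity
  refine ⟨Nat.one_lt_pow hk hq.one_lt, ?_, ?_⟩
  · have h1 : q ^ Nat.totient N ≡ 1 [MOD N] := Nat.ModEq.pow_totient hNq.symm
    have h2 : q ^ (2 * Nat.totient N * N) ≡ 1 [MOD N] := by
      have : q ^ (2 * Nat.totient N * N) = (q ^ Nat.totient N) ^ (2 * N) := by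
        rw [← pow_mul]; ring_nf
      rw [this]
      simpa using h1.pow (2 * N)
    exact (Nat.modEq_iff_dvd' (Nat.one_le_pow _ _ hq.pos)).1 h2.symm
  · intro h2
    have hodd : Odd q := by
      rcases hq.eq_two_or_odd' with rfl | h
      · exfalso
        have : 2 ∣ Nat.gcd N 2 := Nat.dvd_gcd h2 dvd_rfl
        rw [hNq] at this
        omega
      · exact h
    have : q ^ (2 * Nat.totient N * N) = (q ^ (Nat.totient N * N)) ^ 2 := by
      rw [← pow_mul]; ring_nf
    rw [this]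
    exact Nat.eight_dvd_sq_sub_one_of_odd hodd.pow

/-- Dirichlet + CRT: a large prime `≡ 1 + N mod N²` and `≡ r' mod a0`. -/
theorem exists_prime_class {N a0 r' : ℕ} (hN : 0 < N) (ha0 : 0 < a0) (hNa : N.Coprime a0)
    (hr' : r'.Coprime a0) (n : ℕ) :
    ∃ p > n, p.Prime ∧ p ≡ 1 + N [MOD N ^ 2] ∧ p ≡ r' [MOD a0] := by
  have hco : (N ^ 2).Coprime a0 := Nat.Coprime.pow_left 2 hNa
  obtain ⟨c, hc1, hc2⟩ := Nat.chineseRemainder hco (1 + N) r'
  have hcc : c.Coprime (N ^ 2 * a0) := by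
    apply Nat.Coprime.mul_right
    · apply Nat.Coprime.pow_right
      have h1 : c ≡ 1 + N [MOD N] := hc1.of_dvd (dvd_pow_self N two_ne_zero)
      have h2 : Nat.gcd c N = Nat.gcd (1 + N) N := h1.gcd_eq
      rw [Nat.Coprime, h2]
      simp
    · have h2 : Nat.gcd c a0 = Nat.gcd r' a0 := hc2.gcd_eq
      rw [Nat.Coprime, h2]
      exact hr'
  obtain ⟨p, hpn, hp, hpc⟩ := Nat.forall_exists_prime_gt_and_modEq n
    (q := N ^ 2 * a0) (a := c) (by positivity) hcc
  refine ⟨p, hpn, hp, ?_, ?_⟩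
  · exact (hpc.of_dvd (dvd_mul_right _ _)).trans hc1
  · exact (hpc.of_dvd (dvd_mul_left _ _)).trans hc2

/-- From `p ≡ 1 + N mod N²`: `p - 1 = N s` with `s` prime to `N`. -/
theorem exists_cofactor {N p : ℕ} (hN : 0 < N) (hp : 0 < p) (h : p ≡ 1 + N [MOD N ^ 2]) :
    ∃ s : ℕ, p - 1 = N * s ∧ s.Coprime N := by
  have h1 : p ≡ 1 [MOD N] := by
    have := h.of_dvd (dvd_pow_self N two_ne_zero)
    exact this.trans (by simp [Nat.ModEq])
  obtain ⟨s, hs⟩ := (Nat.modEq_iff_dvd' hp).1 h1.symm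
  refine ⟨s, hs, ?_⟩
  have h2 : N * s + 1 ≡ N * 1 + 1 [MOD N ^ 2] := by
    have : p = N * s + 1 := by omega
    rw [← this, mul_one, add_comm N 1]
    exact h
  have h3 : N * s ≡ N * 1 [MOD N * N] := by
    rw [← sq]
    exact Nat.ModEq.add_right_cancel' 1 h2
  have h4 : s ≡ 1 [MOD N] := Nat.ModEq.mul_left_cancel' hN.ne' h3
  have h5 : Nat.gcd s N = Nat.gcd 1 N := h4.gcd_eq
  rw [Nat.Coprime, h5]
  simp

/-- **(A2) GOOD `B` IN EVERY CLASS.**  `q` prime, `N ≥ 1` prime to `q`, `a0` prime to `N q`,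
`r` prime to `a0`: there is a good pair `(B, q ^ k)` with `N ∣ B`, `B` prime to `q` and
`B ≡ r mod a0`. -/
theorem exists_good {N q : ℕ} (hq : q.Prime) (hN : 0 < N) (hNq : N.Coprime q) {a0 : ℕ}
    (ha0 : a0.Coprime (N * q)) {r : ℕ} (hr : r.Coprime a0) :
    ∃ B k : ℕ, 0 < k ∧ N ∣ B ∧ B.Coprime q ∧ B ≡ r [MOD a0] ∧ Good B (q ^ k) := by
  -- `a0 ≠ 0`
  have ha0pos : 0 < a0 := by
    rcases Nat.eq_zero_or_pos a0 with rfl | h
    · exfalso
      rw [Nat.coprime_zero_left] at ha0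
      have := hq.two_le
      nlinarith [Nat.mul_le_mul hN this]
    · exact h
  have hNa : N.Coprime a0 := (Nat.Coprime.coprime_mul_right_right ha0).symm
  have hφN : 0 < Nat.totient N := Nat.totient_pos.2 hN
  have hφa : 0 < Nat.totient a0 := Nat.totient_pos.2 ha0pos
  -- the base power
  set k1 := 2 * Nat.totient N * N with hk1
  have hk1pos : 0 < k1 := by positivity
  obtain ⟨hx1, hNx, h8x⟩ := base_pow hq hN hNq
  rw [← hk1] at hx1 hNx h8x
  set x := q ^ k1 with hx
  -- the `N`-primary part of `x - 1`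
  obtain ⟨N1, M2, hsplit, hN1prim, hM2⟩ := exists_primary_split N (x - 1) (by omega)
  have hN1pos : 0 < N1 := by
    rcases Nat.eq_zero_or_pos N1 with rfl | h
    · rw [zero_mul] at hsplit; omega
    · exact h
  have hM2pos : 0 < M2 := by
    rcases Nat.eq_zero_or_pos M2 with rfl | h
    · rw [mul_zero] at hsplit; omega
    · exact h
  have hNN1 : N ∣ N1 := by
    rw [hsplit] at hNx
    exact (Nat.Coprime.dvd_mul_right hM2.symm).1 hNx
  have h8N1 : 2 ∣ N → 8 ∣ N1 := by
    intro h2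
    have h8 := h8x h2
    rw [hsplit] at h8
    have hM2odd : Nat.Coprime 8 M2 := by
      have : Nat.Coprime 2 M2 := (Nat.Coprime.coprime_dvd_right h2 hM2).symm
      exact Nat.Coprime.pow_left 3 this
    exact (Nat.Coprime.dvd_mul_right hM2odd).1 h8
  have hN1a : N1.Coprime a0 := by
    apply Nat.coprime_of_dvd
    intro l hl hl1 hla
    have hlN := hN1prim l hl hl1
    have : l ∣ Nat.gcd N a0 := Nat.dvd_gcd hlN hla
    rw [hNa] at this
    exact hl.one_lt.ne' (Nat.dvd_one.mp this)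
  -- the residue class of `l'`
  set r' := r * N1 ^ (Nat.totient a0 - 1) with hr'def
  have hr'cop : r'.Coprime a0 := Nat.Coprime.mul_left hr (Nat.Coprime.pow_left _ hN1a)
  have hr'N1 : N1 * r' ≡ r [MOD a0] := by
    have h1 : N1 * r' = r * N1 ^ Nat.totient a0 := by
      rw [hr'def]
      have : Nat.totient a0 = (Nat.totient a0 - 1) + 1 := by omega
      conv_rhs => rw [this, pow_succ]
      ring
    rw [h1]
    have h2 : N1 ^ Nat.totient a0 ≡ 1 [MOD a0] := Nat.ModEq.pow_totient hN1a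
    simpa using h2.mul_left r
  -- Dirichlet
  obtain ⟨p, hpgt, hp, hpN, hpa⟩ := exists_prime_class hN ha0pos hNa hr'cop (N + q + a0 + 2)
  have : Fact p.Prime := ⟨hp⟩
  have hpodd : Odd p := by
    rcases hp.eq_two_or_odd' with rfl | h
    · omega
    · exact h
  have hpq : p.Coprime q := (Nat.coprime_primes hp hq).2 (by omega)
  have hpNcop : p.Coprime N := by
    rw [Nat.Prime.coprime_iff_not_dvd hp]
    intro h
    have := Nat.le_of_dvd hN h
    omega
  have hpa0 : p.Coprime a0 := by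
    rw [Nat.Prime.coprime_iff_not_dvd hp]
    intro h
    have := Nat.le_of_dvd ha0pos h
    omega
  obtain ⟨s, hs, hsN⟩ := exists_cofactor hN hp.pos hpN
  have hspos : 0 < s := by
    rcases Nat.eq_zero_or_pos s with rfl | h
    · rw [mul_zero] at hs; omega
    · exact h
  -- `X = x ^ s ≡ 1 mod p`
  set X := x ^ s with hX
  have hX1 : 1 < X := Nat.one_lt_pow hspos.ne' hx1
  have hpX : p ∣ X - 1 := by
    have h1 : X = (q ^ (2 * Nat.totient N)) ^ (p - 1) := by
      rw [hX, hx, hk1, hs, ← pow_mul, ← pow_mul]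
      ring_nf
    have h2 : (q ^ (2 * Nat.totient N)) ^ Nat.totient p ≡ 1 [MOD p] :=
      Nat.ModEq.pow_totient (Nat.Coprime.pow_left _ hpq.symm)
    rw [Nat.totient_prime hp, ← h1] at h2
    exact (Nat.modEq_iff_dvd' hX1.le).1 h2.symm
  -- the exponents
  set w := padicValNat p (X - 1) with hw
  have hwpos : 1 ≤ w := one_le_padicValNat_of_dvd (by omega) hpX
  set e := 1 + Nat.totient a0 * w with he
  have hwe : w ≤ e := by nlinarith
  set t := s * p ^ (e - w) with ht
  have htpos : 0 < t := Nat.mul_pos hspos (pow_pos hp.pos _)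
  have hu : q ^ (k1 * t) = X ^ (p ^ (e - w)) := by
    rw [hX, hx, ht, ← pow_mul, ← pow_mul, mul_assoc]
  have hvp : padicValNat p (q ^ (k1 * t) - 1) = e := by
    rw [hu, lte hp hX1 hpX (fun h2 => by omega) (pow_ne_zero _ hp.ne_zero),
      padicValNat.prime_pow, ← hw]
    omega
  have hxt : q ^ (k1 * t) = x ^ t := by rw [hx, ← pow_mul]
  -- the answer
  refine ⟨N1 * p ^ e, k1 * t, by positivity, dvd_mul_of_dvd_left hNN1 _, ?_, ?_, ?_⟩
  · -- prime to `q`
    apply Nat.Coprime.mul_left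
    · have : N1 ∣ x - 1 := ⟨M2, hsplit⟩
      have hcop : (x - 1).Coprime q := by
        apply Nat.coprime_of_dvd
        intro l hl hl1 hlq
        have hlx : l ∣ x := dvd_trans hlq (dvd_pow_self q hk1pos.ne')
        have : l ∣ x - (x - 1) := Nat.dvd_sub hlx hl1
        have h1 : x - (x - 1) = 1 := by omega
        rw [h1] at this
        exact hl.one_lt.ne' (Nat.dvd_one.mp this)
      exact Nat.Coprime.coprime_dvd_left this hcop
    · exact Nat.Coprime.pow_left _ hpq
  · -- the residue class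
    have h1 : p ^ e ≡ p [MOD a0] := by
      have h2 : p ^ Nat.totient a0 ≡ 1 [MOD a0] := Nat.ModEq.pow_totient hpa0
      have h3 : p ^ e = p * (p ^ Nat.totient a0) ^ w := by
        rw [he, pow_add, pow_one, pow_mul]
      rw [h3]
      simpa using (h2.pow w).mul_left p
    calc N1 * p ^ e ≡ N1 * p [MOD a0] := h1.mul_left N1
      _ ≡ N1 * r' [MOD a0] := hpa.mul_left N1
      _ ≡ r [MOD a0] := hr'N1
  · -- goodness
    refine ⟨Nat.mul_pos hN1pos (pow_pos hp.pos _), ?_, ?_⟩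
    · intro h2
      have h2N1 : 2 ∣ N1 := by
        rcases (Nat.Prime.dvd_mul Nat.prime_two).1 h2 with h | h
        · exact h
        · exfalso
          have := Nat.prime_two.dvd_of_dvd_pow h
          rw [Nat.prime_dvd_prime_iff_eq Nat.prime_two hp] at this
          omega
      have h2N : 2 ∣ N := hN1prim 2 Nat.prime_two h2N1
      have h8 := h8N1 h2N
      exact dvd_mul_of_dvd_left (dvd_trans (by norm_num) h8) _
    · intro l hl hlB
      have : Fact l.Prime := ⟨hl⟩
      rw [padicValNat.mul hN1pos.ne' (pow_ne_zero _ hp.ne_zero), padicValNat.pow]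
      by_cases hlp : l = p
      · subst hlp
        have hnd : ¬ l ∣ N1 := by
          intro h
          have := hN1prim l hl h
          have := Nat.le_of_dvd hN this
          omega
        rw [hvp, padicValNat.eq_zero_of_not_dvd hnd, padicValNat_self]
        omega
      · have hlN1 : l ∣ N1 := by
          rcases (Nat.Prime.dvd_mul hl).1 hlB with h | h
          · exact h
          · exfalso
            have := hl.dvd_of_dvd_pow h
            rw [Nat.prime_dvd_prime_iff_eq hl hp] at this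
            exact hlp this
        have hlN : l ∣ N := hN1prim l hl hlN1
        have hlx : l ∣ x - 1 := dvd_trans hlN1 ⟨M2, hsplit⟩
        have hlt : ¬ l ∣ t := by
          intro h
          rcases (Nat.Prime.dvd_mul hl).1 h with h | h
          · have : l ∣ Nat.gcd s N := Nat.dvd_gcd h hlN
            rw [hsN] at this
            exact hl.one_lt.ne' (Nat.dvd_one.mp this)
          · have := hl.dvd_of_dvd_pow h
            rw [Nat.prime_dvd_prime_iff_eq hl hp] at this
            exact hlp this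
        have hlM2 : ¬ l ∣ M2 := by
          intro h
          have : l ∣ Nat.gcd M2 N := Nat.dvd_gcd h hlN
          rw [hM2] at this
          exact hl.one_lt.ne' (Nat.dvd_one.mp this)
        have h4 : l = 2 → 4 ∣ x - 1 := by
          intro h2
          subst h2
          exact dvd_trans (by norm_num) (h8x hlN)
        have hlp' : ¬ l ∣ p := by
          rw [Nat.prime_dvd_prime_iff_eq hl hp]
          exact hlp
        rw [hxt, lte hl hx1 hlx h4 htpos.ne', padicValNat.eq_zero_of_not_dvd hlt, hsplit,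
          padicValNat.mul hN1pos.ne' hM2pos.ne', padicValNat.eq_zero_of_not_dvd hlM2,
          padicValNat.eq_zero_of_not_dvd hlp']
        simp

end Fermat.Agent.ES.MEN.GoodModulus25
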