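import Mathlib
import Fermat.Agent.ES.MEN.GoodModulus25

/-!
# (MEN), file A, part (ii): the arithmetic contract of file B for every model of `ℤ[1/q]` (helper25)

`good_away`: for `q` prime, `N ≥ 1` prime to `q` and ANY commutative ring `A` with
`[Algebra ℤ A] [IsLocalization.Away (q : ℤ) A]` (e.g. `Localization.Away (q : ℤ)`, or the subring
`ZInvQ q` of `ℚ` of `ZInvQ26.lean`), the contract `Good (N : A)` of helper13's `SL2Calc13`:

  `∀ a b : A, IsCoprime a b → IsCoprime a N → ∃ B : A, N ∣ B ∧ a ∣ B - b ∧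
     ∀ α : A, B ∣ α - 1 → ∃ v : Aˣ, N ∣ v - 1 ∧ N * B ^ 2 ∣ α - v`.

It is (A2) + the consequence of (A1) of `MEN_PROOF9.md` §1, transported from `ℤ` to `A`.
-/

namespace Fermat.Agent.ES.MEN.GoodLoc25

open Fermat.Agent.ES.MEN.GoodModulus25

section Away

variable (q : ℕ) {A : Type*} [CommRing A] [Algebra ℤ A] [IsLocalization.Away (q : ℤ) A]

/-- `q` is a unit of `A`. -/
theorem isUnit_q : IsUnit ((q : ℕ) : A) := by
  have h := IsLocalization.Away.algebraMap_isUnit (S := A) (q : ℤ)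
  rwa [eq_intCast, Int.cast_natCast] at h

/-- Every element of `A` is an integer divided by a power of `q`. -/
theorem exists_mul_pow_eq_int (x : A) : ∃ (k : ℕ) (c : ℤ), x * ((q : ℕ) : A) ^ k = (c : A) := by
  obtain ⟨k, c, h⟩ := IsLocalization.Away.surj (q : ℤ) x
  refine ⟨k, c, ?_⟩
  rwa [eq_intCast, eq_intCast, Int.cast_natCast] at h

/-- Reduction modulo `M` prime to `q`. -/
noncomputable def red (M : ℕ) (hM : M.Coprime q) : A →+* ZMod M :=
  IsLocalization.Away.lift (S := A) (g := Int.castRingHom (ZMod M)) (q : ℤ) (by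
    have : IsUnit ((q : ℕ) : ZMod M) := (ZMod.isUnit_iff_coprime q M).2 hM.symm
    simpa using this)

theorem red_intCast (M : ℕ) (hM : M.Coprime q) (n : ℤ) :
    red q M hM ((n : ℤ) : A) = (n : ZMod M) := by
  have e : ((n : ℤ) : A) = algebraMap ℤ A n := (eq_intCast _ n).symm
  rw [e, red, IsLocalization.Away.lift_eq]
  simp

theorem red_natCast (M : ℕ) (hM : M.Coprime q) (n : ℕ) :
    red (A := A) q M hM (n : A) = (n : ZMod M) := by
  simp

/-- Divisibility of integers by `M` prime to `q` can be tested in `A`. -/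
theorem intCast_dvd_of_dvd (M : ℕ) (hM : M.Coprime q) (n : ℤ)
    (h : ((M : ℕ) : A) ∣ ((n : ℤ) : A)) : (M : ℤ) ∣ n := by
  obtain ⟨z, hz⟩ := h
  have := congrArg (red q M hM) hz
  rw [red_intCast, map_mul, map_natCast, ZMod.natCast_self, zero_mul] at this
  exact (ZMod.intCast_zmod_eq_zero_iff_dvd n M).1 this

/-- Every element of `A` is congruent to an integer modulo `M`, for `M` prime to `q`. -/
theorem exists_int_sub_dvd (M : ℕ) (hM : M.Coprime q) (x : A) :
    ∃ n : ℤ, ((M : ℕ) : A) ∣ x - (n : A) := by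
  obtain ⟨k, c, hc⟩ := exists_mul_pow_eq_int q x
  -- Bezout: `q q' + M m' = 1`
  have hco : IsCoprime (q : ℤ) (M : ℤ) := Nat.isCoprime_iff_coprime.2 hM.symm
  obtain ⟨q', m', hb⟩ := hco
  refine ⟨c * q' ^ k, ?_⟩
  have h1 : x - ((c * q' ^ k : ℤ) : A) = x * (1 - (((q : ℕ) : A) * (q' : A)) ^ k) := by
    push_cast
    rw [← hc]
    ring
  rw [h1]
  apply dvd_mul_of_dvd_right
  have h2 : (1 : A) - ((q : ℕ) : A) * (q' : A) ∣ 1 - (((q : ℕ) : A) * (q' : A)) ^ k := by
    simpa using sub_dvd_pow_sub_pow (1 : A) (((q : ℕ) : A) * (q' : A)) k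
  refine dvd_trans ?_ h2
  refine ⟨(m' : A), ?_⟩
  have h3 : ((q' * (q : ℤ) + m' * (M : ℤ) : ℤ) : A) = 1 := by rw [hb]; simp
  push_cast at h3
  linear_combination -h3

end Away

/-- **The arithmetic contract of file B** (`SL2Calc13.Good (N : A)`), for every model `A` of
`ℤ[1/q]`. -/
theorem good_away {q N : ℕ} (hq : q.Prime) (hN : 0 < N) (hNq : N.Coprime q) (A : Type*)
    [CommRing A] [Algebra ℤ A] [IsLocalization.Away (q : ℤ) A] :
    ∀ a b : A, IsCoprime a b → IsCoprime a (N : A) →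
      ∃ B : A, (N : A) ∣ B ∧ a ∣ (B - b) ∧
        ∀ α : A, B ∣ (α - 1) →
          ∃ v : Aˣ, (N : A) ∣ ((v : A) - 1) ∧ (N : A) * B ^ 2 ∣ (α - v) := by
  intro a b hab haN
  have huq : IsUnit ((q : ℕ) : A) := isUnit_q q
  obtain ⟨k, c, hc⟩ := exists_mul_pow_eq_int q a
  by_cases hc0 : c = 0
  · -- `a = 0`: then `N` and `b` are units
    have ha : a = 0 := by
      rw [hc0, Int.cast_zero] at hc
      exact ((huq.pow k).mul_left_eq_zero).1 hc
    subst ha
    have hb : IsUnit b := isCoprime_zero_left.1 hab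
    have hNu : IsUnit (N : A) := isCoprime_zero_left.1 haN
    refine ⟨b, hNu.dvd, by simp, ?_⟩
    intro α _
    exact ⟨1, by simp, (hNu.mul (hb.pow 2)).dvd⟩
  · -- `a ≠ 0`: `a` is associated to its prime-to-`q` part `a0`
    obtain ⟨e, a0, ha0q, hca⟩ :=
      Nat.exists_eq_pow_mul_and_not_dvd (Int.natAbs_ne_zero.2 hc0) q hq.ne_one
    have ha0pos : 0 < a0 := by
      rcases Nat.eq_zero_or_pos a0 with rfl | h
      · simp at ha0q
      · exact h
    have ha0q' : a0.Coprime q := ((Nat.Prime.coprime_iff_not_dvd hq).2 ha0q).symm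
    have h1 : ((a0 : ℕ) : A) ∣ a * ((q : ℕ) : A) ^ k := by
      rw [hc]
      have h : (a0 : ℤ) ∣ c := Int.natCast_dvd.2 ⟨q ^ e, by rw [hca]; ring⟩
      have := map_dvd (Int.castRingHom A) h
      simpa using this
    have h2 : a ∣ ((a0 : ℕ) : A) := by
      have h : c ∣ ((q ^ e * a0 : ℕ) : ℤ) := by
        rw [← hca]
        exact Int.dvd_natAbs.2 dvd_rfl
      have h' := map_dvd (Int.castRingHom A) h
      rw [eq_intCast, eq_intCast] at h'
      push_cast at h'
      rw [← hc] at h'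
      exact ((huq.pow e).dvd_mul_left).1 (dvd_trans (dvd_mul_right a _) h')
    have hcop1 : IsCoprime ((a0 : ℕ) : A) b :=
      ((isCoprime_mul_unit_right_left (huq.pow k) a b).2 hab).of_isCoprime_of_dvd_left h1
    have hcop2 : IsCoprime ((a0 : ℕ) : A) (N : A) :=
      ((isCoprime_mul_unit_right_left (huq.pow k) a (N : A)).2 haN).of_isCoprime_of_dvd_left h1
    have ha0N : a0.Coprime N := by
      have := hcop2.map (red q N hNq)
      rw [red_natCast, red_natCast, ZMod.natCast_self, isCoprime_zero_right] at this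
      exact (ZMod.isUnit_iff_coprime a0 N).1 this
    -- the class of `b` modulo `a0`
    obtain ⟨n, hn⟩ := exists_int_sub_dvd q a0 ha0q' b
    set r := (n % (a0 : ℤ)).toNat with hr
    have hrn : (r : ℤ) = n % (a0 : ℤ) :=
      Int.toNat_of_nonneg (Int.emod_nonneg _ (by exact_mod_cast ha0pos.ne'))
    have hbr : ((a0 : ℕ) : A) ∣ b - (r : A) := by
      have h : (a0 : ℤ) ∣ n - (r : ℤ) := by
        rw [hrn]
        exact Int.dvd_self_sub_of_emod_eq rfl
      have h' := map_dvd (Int.castRingHom A) h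
      simp only [eq_intCast, Int.cast_natCast, Int.cast_sub] at h'
      have : b - (r : A) = (b - (n : A)) + ((n : A) - (r : A)) := by ring
      rw [this]
      exact dvd_add hn h'
    have hra0 : r.Coprime a0 := by
      have h := hcop1.map (red q a0 ha0q')
      rw [red_natCast, ZMod.natCast_self, isCoprime_zero_left] at h
      obtain ⟨z, hz⟩ := hbr
      have h3 : red q a0 ha0q' b = (r : ZMod a0) := by
        have : b = (r : A) + ((a0 : ℕ) : A) * z := by rw [← hz]; ring
        rw [this, map_add, map_mul, red_natCast, red_natCast, ZMod.natCast_self, zero_mul,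
          add_zero]
      rw [h3] at h
      exact (ZMod.isUnit_iff_coprime r a0).1 h
    -- the good modulus
    obtain ⟨B₀, k', hk', hNB, hBq, hBr, hgood⟩ :=
      exists_good hq hN hNq (a0 := a0) (Nat.Coprime.mul_right ha0N ha0q') hra0
    have hB₀pos : 0 < B₀ := hgood.1
    refine ⟨(B₀ : A), Nat.cast_dvd_cast hNB, ?_, ?_⟩
    · apply dvd_trans h2
      have h : (a0 : ℤ) ∣ (r : ℤ) - (B₀ : ℤ) := (Nat.modEq_iff_dvd).1 hBr
      have h' := map_dvd (Int.castRingHom A) h
      simp only [eq_intCast, Int.cast_natCast, Int.cast_sub] at h'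
      have : (B₀ : A) - b = -(((r : A) - (B₀ : A)) + (b - (r : A))) := by ring
      rw [this]
      exact (dvd_add h' hbr).neg_right
    · intro α hα
      have hB3q : (B₀ ^ 3).Coprime q := Nat.Coprime.pow_left 3 hBq
      obtain ⟨m, hm⟩ := exists_int_sub_dvd q (B₀ ^ 3) hB3q α
      have hm' : (B₀ : A) ^ 3 ∣ α - (m : A) := by simpa using hm
      have h3 : ((B₀ : ℕ) : A) ∣ (((m - 1 : ℤ)) : A) := by
        have : (((m - 1 : ℤ)) : A) = (α - 1) - (α - (m : A)) := by push_cast; ring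
        rw [this]
        exact dvd_sub hα (dvd_trans (dvd_pow_self _ (by norm_num)) hm')
      have h4 : (B₀ : ℤ) ∣ m - 1 := intCast_dvd_of_dvd q B₀ hBq (m - 1) h3
      have h5 : m ≡ 1 [ZMOD (B₀ : ℤ)] := (Int.modEq_iff_dvd.2 h4).symm
      obtain ⟨j, hj1, hj2⟩ := hgood.exists_pow_modEq_mul hNB m h5
      refine ⟨(huq.unit ^ k') ^ j, ?_, ?_⟩
      · have h6 : (N : ℤ) ∣ 1 - ((q ^ k' : ℕ) : ℤ) ^ j := Int.modEq_iff_dvd.1 hj2
        have h' := map_dvd (Int.castRingHom A) h6
        simp only [eq_intCast, Int.cast_natCast, Int.cast_sub, Int.cast_one, Int.cast_pow,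
          Nat.cast_pow] at h'
        have : (((huq.unit ^ k') ^ j : Aˣ) : A) - 1 = -(1 - (((q : ℕ) : A) ^ k') ^ j) := by
          simp
        rw [this]
        exact h'.neg_right
      · have h6 : (N : ℤ) * (B₀ : ℤ) ^ 2 ∣ ((q ^ k' : ℕ) : ℤ) ^ j - m := Int.modEq_iff_dvd.1 hj1
        have h' := map_dvd (Int.castRingHom A) h6
        simp only [eq_intCast, Int.cast_natCast, Int.cast_sub, Int.cast_mul, Int.cast_pow,
          Nat.cast_pow] at h'
        have h7 : (N : A) * (B₀ : A) ^ 2 ∣ (B₀ : A) ^ 3 := by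
          obtain ⟨d, rfl⟩ := hNB
          exact ⟨(d : A), by push_cast; ring⟩
        have : α - (((huq.unit ^ k') ^ j : Aˣ) : A)
            = (α - (m : A)) - ((((q : ℕ) : A) ^ k') ^ j - (m : A)) := by
          simp
        rw [this]
        exact dvd_sub (dvd_trans h7 hm') h'

end Fermat.Agent.ES.MEN.GoodLoc25
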