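import Mathlib

set_option autoImplicit false

/-!
# (MEN), part A1: the prime-power lemma

`Good B u`: `u ≡ 1 (B)`, `(u-1)/B` prime to `B`, and `4 ∣ B` if `B` is even.
Main result `Good.exists_pow_modEq`: every integer `α ≡ 1 (B)` is congruent to a power of `u`
modulo `B ^ m`, for every `m`.
-/

namespace Fermat.Agent.ES.MEN.GoodMod9

/-- unified lifting-the-exponent lemma for `x ^ n - 1`. -/
theorem lte_sub_one (l : ℕ) [hl : Fact l.Prime] {x : ℕ} (hx1 : 1 < x) (hdiv : l ∣ x - 1)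
    (h4 : l = 2 → 4 ∣ x - 1) {n : ℕ} (hn : n ≠ 0) :
    padicValNat l (x ^ n - 1) = padicValNat l (x - 1) + padicValNat l n := by
  have hlx : ¬ l ∣ x := by
    intro h
    have h1 : l ∣ x - (x - 1) := Nat.dvd_sub h hdiv
    have : x - (x - 1) = 1 := by omega
    rw [this] at h1
    exact hl.out.one_lt.ne' (Nat.dvd_one.mp h1)
  rcases hl.out.eq_two_or_odd' with h2 | hodd
  · subst h2
    have h4' := h4 rfl
    rw [← Nat.cast_inj (R := ℕ∞), Nat.cast_add]
    have hxn : x ^ n - 1 ≠ 0 := by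
      have : 1 < x ^ n := Nat.one_lt_pow hn hx1
      omega
    rw [padicValNat_eq_emultiplicity hxn, padicValNat_eq_emultiplicity (by omega),
      padicValNat_eq_emultiplicity hn]
    have key := Int.two_pow_sub_pow' (x := (x : ℤ)) (y := 1) n
      (by
        have : ((4 : ℕ) : ℤ) ∣ ((x - 1 : ℕ) : ℤ) := Int.natCast_dvd_natCast.mpr h4'
        rw [Nat.cast_sub hx1.le] at this
        simpa using this)
      (by
        intro h
        apply hlx
        exact_mod_cast h)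
    rw [one_pow] at key
    have e1 : emultiplicity 2 (x ^ n - 1) = emultiplicity (2 : ℤ) ((x : ℤ) ^ n - 1) := by
      rw [← Int.natCast_emultiplicity]
      have : 1 ≤ x ^ n := Nat.one_le_pow _ _ (by omega)
      push_cast [Nat.cast_sub this]
      rfl
    have e2 : emultiplicity 2 (x - 1) = emultiplicity (2 : ℤ) ((x : ℤ) - 1) := by
      rw [← Int.natCast_emultiplicity]
      push_cast [Nat.cast_sub hx1.le]
      rfl
    have e3 : emultiplicity 2 n = emultiplicity (2 : ℤ) (n : ℤ) := by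
      rw [← Int.natCast_emultiplicity]
      rfl
    rw [e1, e2, e3, key]
  · have := padicValNat.pow_sub_pow (p := l) hodd (x := x) (y := 1) hx1 hdiv hlx hn
    simpa using this


/-- from valuations to exact divisibility. -/
theorem exact_of_padicVal {B M x : ℕ} (hM : M ≠ 0) (hx : x ≠ 0)
    (hMB : ∀ l : ℕ, l.Prime → l ∣ M → l ∣ B)
    (h : ∀ l : ℕ, l.Prime → l ∣ B → padicValNat l x = padicValNat l M) :
    M ∣ x ∧ Nat.Coprime (x / M) B := by
  have hdvd : M ∣ x := by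
    rw [← Nat.factorization_prime_le_iff_dvd hM hx]
    intro l hl
    rw [Nat.factorization_def _ hl, Nat.factorization_def _ hl]
    by_cases hlB : l ∣ B
    · exact (h l hl hlB).ge
    · have : ¬ l ∣ M := fun h' => hlB (hMB l hl h')
      rw [padicValNat.eq_zero_of_not_dvd this]
      exact Nat.zero_le _
  refine ⟨hdvd, ?_⟩
  apply Nat.coprime_of_dvd
  intro l hl hlq hlB
  obtain ⟨c, hc⟩ := hdvd
  have hc0 : c ≠ 0 := by
    rintro rfl
    exact hx (by simpa using hc)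
  have hq : x / M = c := by
    rw [hc]; exact Nat.mul_div_cancel_left _ (Nat.pos_of_ne_zero hM)
  rw [hq] at hlq
  have : Fact l.Prime := ⟨hl⟩
  have h1 := h l hl hlB
  rw [hc, padicValNat.mul hM hc0] at h1
  have : 1 ≤ padicValNat l c := one_le_padicValNat_of_dvd hc0 hlq
  omega

/-- `Good B u`: `u ≡ 1 (B)` exactly, with the usual proviso at `2`. -/
def Good (B u : ℕ) : Prop :=
  0 < B ∧ 1 < u ∧ B ∣ u - 1 ∧ Nat.Coprime ((u - 1) / B) B ∧ (2 ∣ B → 4 ∣ B)

theorem Good.padicVal {B u : ℕ} (hg : Good B u) {l : ℕ} (hl : l.Prime) (hlB : l ∣ B) :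
    padicValNat l (u - 1) = padicValNat l B := by
  obtain ⟨hB, hu, hdvd, hcop, -⟩ := hg
  have : Fact l.Prime := ⟨hl⟩
  obtain ⟨c, hc⟩ := hdvd
  have hc0 : c ≠ 0 := by
    rintro rfl
    have : u - 1 = 0 := by simpa using hc
    omega
  have hq : (u - 1) / B = c := by
    rw [hc]; exact Nat.mul_div_cancel_left _ hB
  rw [hq] at hcop
  have hlc : ¬ l ∣ c := by
    intro h
    have h1 : l ∣ Nat.gcd c B := Nat.dvd_gcd h hlB
    rw [hcop] at h1
    exact hl.one_lt.ne' (Nat.dvd_one.mp h1)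
  rw [hc, padicValNat.mul hB.ne' hc0, padicValNat.eq_zero_of_not_dvd hlc, add_zero]

/-- the key exactness statement: `u ^ (B ^ m) - 1` is exactly divisible by `B ^ (m+1)`. -/
theorem Good.exact_pow {B u : ℕ} (hg : Good B u) (m : ℕ) :
    B ^ (m + 1) ∣ u ^ (B ^ m) - 1 ∧ Nat.Coprime ((u ^ (B ^ m) - 1) / B ^ (m + 1)) B := by
  have hB := hg.1
  have hu := hg.2.1
  have hBm : B ^ m ≠ 0 := (pow_pos hB m).ne'
  apply exact_of_padicVal (pow_pos hB _).ne'
  · have : 1 < u ^ (B ^ m) := Nat.one_lt_pow hBm hu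
    omega
  · intro l hl h
    exact hl.dvd_of_dvd_pow h
  · intro l hl hlB
    have : Fact l.Prime := ⟨hl⟩
    have hdiv : l ∣ u - 1 := dvd_trans hlB hg.2.2.1
    have h4 : l = 2 → 4 ∣ u - 1 := by
      rintro rfl
      exact dvd_trans (hg.2.2.2.2 hlB) hg.2.2.1
    rw [lte_sub_one l hu hdiv h4 hBm, hg.padicVal hl hlB, padicValNat.pow B m,
      padicValNat.pow B (m + 1)]
    ring


theorem one_add_pow_eq (y : ℤ) (i : ℕ) : ∃ k : ℤ, (1 + y) ^ i = 1 + i * y + y ^ 2 * k := by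
  induction i with
  | zero => exact ⟨0, by simp⟩
  | succ i ih =>
    obtain ⟨k, hk⟩ := ih
    refine ⟨k + i + y * k, ?_⟩
    rw [pow_succ, hk]
    push_cast
    ring

/-- **Prime-power lemma.** If `(B, u)` is good, every `α ≡ 1 (B)` is a power of `u` modulo
`B ^ (m+1)`. -/
theorem Good.exists_pow_modEq {B u : ℕ} (hg : Good B u) (m : ℕ) (α : ℤ)
    (hα : α ≡ 1 [ZMOD (B : ℤ)]) : ∃ j : ℕ, α ≡ (u : ℤ) ^ j [ZMOD (B : ℤ) ^ (m + 1)] := by
  induction m with
  | zero => exact ⟨0, by simpa using hα⟩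
  | succ m ih =>
    obtain ⟨j, hj⟩ := ih
    obtain ⟨hdvd, hcop⟩ := hg.exact_pow m
    obtain ⟨s, hs⟩ := hdvd
    have hB := hg.1
    have hu := hg.2.1
    have hq : (u ^ (B ^ m) - 1) / B ^ (m + 1) = s := by
      rw [hs]; exact Nat.mul_div_cancel_left _ (pow_pos hB _)
    rw [hq] at hcop
    -- `U = 1 + B^(m+1) s` in `ℤ`
    have hU : ((u : ℤ)) ^ (B ^ m) = 1 + (B : ℤ) ^ (m + 1) * s := by
      have h1 : 1 ≤ u ^ (B ^ m) := Nat.one_le_pow _ _ (by omega)
      have : ((u ^ (B ^ m) - 1 : ℕ) : ℤ) = ((B ^ (m + 1) * s : ℕ) : ℤ) := by rw [hs]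
      push_cast [Nat.cast_sub h1] at this
      linarith
    -- `u` is prime to `B`
    have huB : IsCoprime (u : ℤ) (B : ℤ) := by
      obtain ⟨c, hc⟩ := hg.2.2.1
      have : (u : ℤ) = 1 + B * c := by
        have : ((u - 1 : ℕ) : ℤ) = ((B * c : ℕ) : ℤ) := by rw [hc]
        push_cast [Nat.cast_sub hu.le] at this
        linarith
      refine ⟨1, -c, ?_⟩
      rw [this]; ring
    have hsB : IsCoprime (s : ℤ) (B : ℤ) := Nat.isCoprime_iff_coprime.mpr hcop
    have hcopr : IsCoprime ((s : ℤ) * (u : ℤ) ^ j) (B : ℤ) :=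
      IsCoprime.mul_left hsB (IsCoprime.pow_left huB)
    obtain ⟨a, b, hab⟩ := hcopr
    -- `α = u^j + B^(m+1) c`
    obtain ⟨c, hc⟩ := (Int.modEq_iff_dvd.mp hj.symm)
    -- choose `i ≡ c a (B)`
    have hBpos : (0 : ℤ) < B := by exact_mod_cast hB
    set i : ℕ := ((c * a) % (B : ℤ)).toNat with hi
    have hi' : (i : ℤ) = (c * a) % (B : ℤ) := by
      rw [hi, Int.toNat_of_nonneg (Int.emod_nonneg _ hBpos.ne')]
    obtain ⟨e, he⟩ : ∃ e : ℤ, (i : ℤ) = c * a - B * e :=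
      ⟨(c * a) / (B : ℤ), by rw [hi']; exact Int.emod_def _ _⟩
    refine ⟨j + i * B ^ m, ?_⟩
    obtain ⟨k, hk⟩ := one_add_pow_eq ((B : ℤ) ^ (m + 1) * s) i
    rw [Int.modEq_iff_dvd]
    have hpow : (u : ℤ) ^ (j + i * B ^ m) = (u : ℤ) ^ j * (1 + (B : ℤ) ^ (m + 1) * s) ^ i := by
      rw [pow_add, mul_comm i, pow_mul, hU]
    rw [hpow, hk]
    have hα' : α = (u : ℤ) ^ j + (B : ℤ) ^ (m + 1) * c := by linarith
    refine ⟨(u : ℤ) ^ j * ((B : ℤ) ^ m * (s : ℤ) ^ 2 * k) - b * c - (s : ℤ) * (u : ℤ) ^ j * e, ?_⟩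
    rw [hα', he]
    have hab' : a * ((s : ℤ) * (u : ℤ) ^ j) = 1 - b * B := by linarith
    have e1 : (u : ℤ) ^ j * (1 + (c * a - (B : ℤ) * e) * ((B : ℤ) ^ (m + 1) * s) +
        ((B : ℤ) ^ (m + 1) * s) ^ 2 * k) - ((u : ℤ) ^ j + (B : ℤ) ^ (m + 1) * c)
        = (B : ℤ) ^ (m + 1) * (c * (a * ((s : ℤ) * (u : ℤ) ^ j)) - c)
          - (B : ℤ) ^ (m + 1 + 1) * ((s : ℤ) * (u : ℤ) ^ j * e)
          + (B : ℤ) ^ (m + 1 + 1) * ((u : ℤ) ^ j * ((B : ℤ) ^ m * (s : ℤ) ^ 2 * k)) := by ring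
    rw [e1, hab']
    ring

end Fermat.Agent.ES.MEN.GoodMod9
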