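import Mathlib

set_option autoImplicit false

/-!
# `ℤ[1/q]` as a subring of `ℚ` (helper26, file D1 of the (MEN) formalisation)

* `ZInvQ q : Subring ℚ` — the ring `A = ℤ[1/q]`.
* `qPow q k : (ZInvQ q)ˣ` — the units `q ^ k`.
* `red q m h : ZInvQ q →+* ZMod m` for `q.Coprime m` — reduction mod `m`, surjective, with kernel `m • A`.
-/

namespace Fermat.Agent.ES.MEN.ZInvQ26

variable (q : ℕ) [hq : Fact q.Prime]

theorem q_ne_zero : (q : ℚ) ≠ 0 := by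
  exact_mod_cast hq.out.ne_zero

/-- `ℤ[1/q]` as a subring of `ℚ`. -/
def ZInvQ : Subring ℚ where
  carrier := {x | ∃ (n : ℤ) (k : ℕ), x = n / (q : ℚ) ^ k}
  mul_mem' := by
    rintro _ _ ⟨n, k, rfl⟩ ⟨n', k', rfl⟩
    refine ⟨n * n', k + k', ?_⟩
    push_cast
    rw [pow_add]
    field_simp
  one_mem' := ⟨1, 0, by simp⟩
  add_mem' := by
    rintro _ _ ⟨n, k, rfl⟩ ⟨n', k', rfl⟩
    refine ⟨n * q ^ k' + n' * q ^ k, k + k', ?_⟩
    have := q_ne_zero q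
    push_cast
    rw [pow_add]
    field_simp
  zero_mem' := ⟨0, 0, by simp⟩
  neg_mem' := by
    rintro _ ⟨n, k, rfl⟩
    exact ⟨-n, k, by push_cast; ring⟩

theorem mem_ZInvQ {x : ℚ} : x ∈ ZInvQ q ↔ ∃ (n : ℤ) (k : ℕ), x = n / (q : ℚ) ^ k := Iff.rfl

theorem intCast_mem (n : ℤ) : (n : ℚ) ∈ ZInvQ q := ⟨n, 0, by simp⟩

theorem inv_q_pow_mem (k : ℕ) : ((q : ℚ) ^ k)⁻¹ ∈ ZInvQ q := ⟨1, k, by simp⟩

theorem q_pow_mem (k : ℕ) : ((q : ℚ) ^ k) ∈ ZInvQ q := ⟨q ^ k, 0, by simp⟩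

/-- Every element of `ℤ[1/q]` is `n / q ^ k`. -/
theorem exists_rep (x : ZInvQ q) : ∃ (n : ℤ) (k : ℕ), (x : ℚ) = n / (q : ℚ) ^ k := x.2

/-- Two elements have a common denominator. -/
theorem exists_rep₂ (x y : ZInvQ q) :
    ∃ (n m : ℤ) (k : ℕ), (x : ℚ) = n / (q : ℚ) ^ k ∧ (y : ℚ) = m / (q : ℚ) ^ k := by
  obtain ⟨n, k, hx⟩ := x.2
  obtain ⟨m, k', hy⟩ := y.2
  refine ⟨n * q ^ k', m * q ^ k, k + k', ?_, ?_⟩
  · have := q_ne_zero q
    rw [hx]; push_cast; rw [pow_add]; field_simp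
  · have := q_ne_zero q
    rw [hy]; push_cast; rw [pow_add]; field_simp

/-- The unit `q ^ k` of `ℤ[1/q]`. -/
def qPow (k : ℕ) : (ZInvQ q)ˣ where
  val := ⟨(q : ℚ) ^ k, q_pow_mem q k⟩
  inv := ⟨((q : ℚ) ^ k)⁻¹, inv_q_pow_mem q k⟩
  val_inv := by
    apply Subtype.ext
    have := pow_ne_zero k (q_ne_zero q)
    simp [this]
  inv_val := by
    apply Subtype.ext
    have := pow_ne_zero k (q_ne_zero q)
    simp [this]

@[simp] theorem coe_qPow (k : ℕ) : (((qPow q k : (ZInvQ q)ˣ) : ZInvQ q) : ℚ) = (q : ℚ) ^ k := rfl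

@[simp] theorem coe_qPow_inv (k : ℕ) :
    ((((qPow q k)⁻¹ : (ZInvQ q)ˣ) : ZInvQ q) : ℚ) = ((q : ℚ) ^ k)⁻¹ := rfl

theorem coe_intCast (n : ℤ) : (((n : ZInvQ q)) : ℚ) = n := by simp

theorem coe_natCast (n : ℕ) : (((n : ZInvQ q)) : ℚ) = n := by simp

/-- `x = n / q^k` in `A`-terms: `q^k * x = n`. -/
theorem exists_qPow_mul_eq_intCast (x : ZInvQ q) :
    ∃ (n : ℤ) (k : ℕ), ((qPow q k : (ZInvQ q)ˣ) : ZInvQ q) * x = (n : ZInvQ q) := by
  obtain ⟨n, k, hx⟩ := x.2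
  refine ⟨n, k, Subtype.ext ?_⟩
  have := pow_ne_zero k (q_ne_zero q)
  simp only [Subring.coe_mul, coe_qPow, hx, coe_intCast]
  field_simp

instance : IsLocalization (Submonoid.powers (q : ℤ)) (ZInvQ q) where
  map_units := by
    rintro ⟨_, k, rfl⟩
    have : (algebraMap ℤ (ZInvQ q)) ((q : ℤ) ^ k) = ((qPow q k : (ZInvQ q)ˣ) : ZInvQ q) := by
      apply Subtype.ext
      simp
    simp only [this]
    exact Units.isUnit _
  surj := by
    intro x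
    obtain ⟨n, k, h⟩ := exists_qPow_mul_eq_intCast q x
    refine ⟨(n, ⟨(q : ℤ) ^ k, k, rfl⟩), ?_⟩
    have : (algebraMap ℤ (ZInvQ q)) ((q : ℤ) ^ k) = ((qPow q k : (ZInvQ q)ˣ) : ZInvQ q) := by
      apply Subtype.ext
      simp
    simp only [this]
    rw [mul_comm, h]
    simp
  exists_of_eq := by
    intro x y h
    refine ⟨1, ?_⟩
    have h' := congrArg (fun z : ZInvQ q => (z : ℚ)) h
    simp only [eq_intCast, coe_intCast, Int.cast_inj] at h'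
    simp [h']

variable {q}

omit hq in
theorem isUnit_q_zmod {m : ℕ} (h : q.Coprime m) : IsUnit ((q : ℕ) : ZMod m) :=
  (ZMod.isUnit_iff_coprime q m).mpr h

/-- Reduction `ℤ[1/q] → ℤ/m` for `m` prime to `q`. -/
noncomputable def red (m : ℕ) (h : q.Coprime m) : ZInvQ q →+* ZMod m :=
  IsLocalization.lift (M := Submonoid.powers (q : ℤ)) (g := Int.castRingHom (ZMod m)) (by
    rintro ⟨_, k, rfl⟩
    simpa using (isUnit_q_zmod h).pow k)

@[simp] theorem red_intCast {m : ℕ} (h : q.Coprime m) (n : ℤ) :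
    red m h (n : ZInvQ q) = (n : ZMod m) := by
  simp

@[simp] theorem red_natCast {m : ℕ} (h : q.Coprime m) (n : ℕ) :
    red m h (n : ZInvQ q) = (n : ZMod m) := by
  simp

theorem red_surjective {m : ℕ} (h : q.Coprime m) : Function.Surjective (red m h) := by
  intro y
  obtain ⟨n, rfl⟩ := ZMod.intCast_surjective y
  exact ⟨(n : ZInvQ q), red_intCast h n⟩

theorem red_qPow {m : ℕ} (h : q.Coprime m) (k : ℕ) :
    red m h ((qPow q k : (ZInvQ q)ˣ) : ZInvQ q) = (q : ZMod m) ^ k := by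
  have : ((qPow q k : (ZInvQ q)ˣ) : ZInvQ q) = ((q : ℕ) : ZInvQ q) ^ k := by
    apply Subtype.ext
    simp
  rw [this, map_pow, red_natCast]

theorem red_eq_zero_iff {m : ℕ} (h : q.Coprime m) (x : ZInvQ q) :
    red m h x = 0 ↔ (m : ZInvQ q) ∣ x := by
  constructor
  · intro hx
    obtain ⟨n, k, hn⟩ := exists_qPow_mul_eq_intCast q x
    have h1 : red m h (((qPow q k : (ZInvQ q)ˣ) : ZInvQ q) * x) = (n : ZMod m) := by
      rw [hn, red_intCast]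
    rw [map_mul, hx, mul_zero] at h1
    have h2 : (m : ℤ) ∣ n := (ZMod.intCast_zmod_eq_zero_iff_dvd n m).mp h1.symm
    obtain ⟨n', rfl⟩ := h2
    refine ⟨(((qPow q k)⁻¹ : (ZInvQ q)ˣ) : ZInvQ q) * (n' : ZInvQ q), ?_⟩
    have h3 : x = (((qPow q k)⁻¹ : (ZInvQ q)ˣ) : ZInvQ q) *
        (((qPow q k : (ZInvQ q)ˣ) : ZInvQ q) * x) := by
      rw [← mul_assoc, Units.inv_mul, one_mul]
    rw [h3, hn]
    push_cast
    ring
  · rintro ⟨y, rfl⟩
    rw [map_mul, red_natCast, ZMod.natCast_self, zero_mul]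

theorem red_eq_red_iff {m : ℕ} (h : q.Coprime m) (x y : ZInvQ q) :
    red m h x = red m h y ↔ (m : ZInvQ q) ∣ x - y := by
  rw [← red_eq_zero_iff h, map_sub, sub_eq_zero]

/-- Integer divisibility by `m` prime to `q` can be tested in `ℤ[1/q]`. -/
theorem natCast_dvd_intCast_iff {m : ℕ} (h : q.Coprime m) (n : ℤ) :
    (m : ZInvQ q) ∣ (n : ZInvQ q) ↔ (m : ℤ) ∣ n := by
  rw [← red_eq_zero_iff h, red_intCast, ZMod.intCast_zmod_eq_zero_iff_dvd]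

end Fermat.Agent.ES.MEN.ZInvQ26
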