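/-
(MEN), part of file D (helper2): reduction `SL(2, ℤ[1/q]) → SL(2, ℤ/m)` for `m` prime to `q`,
in the vocabulary of `SL2Calc13` (matrices) and `ZInvQ26` (the carrier `ℤ[1/q] ⊆ ℚ`).

* `redSL h : SL2 (ZInvQ q) →* SL2 (ZMod m)` with `redSL_apply`, `redSL_u`, `redSL_l`, `redSL_h`;
* `ker_redSL : (redSL h).ker = GammaN (m : ZInvQ q)`;
* `mem_Gamma0_iff_redSL : g ∈ Gamma0 (m : ZInvQ q) ↔ redSL h g 1 0 = 0`;
* `u_mul_inv_mem_GammaN`, `l_mul_inv_mem_GammaN` : `u s (u t)⁻¹ ∈ Γ(m)(A)` iff-direction needed to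
  define `uh`, `lh` on `ZMod m`;
* `closure_Gamma0_union_eq_top_ZInvQ`, `phi_conj_all_ZInvQ` : the results of `ElemGen2` for
  `A = ZInvQ q`.
-/
import Fermat.Agent.ES.MEN.ElemGen2
import Fermat.Agent.ES.MEN.ZInvQ26

set_option autoImplicit false
set_option linter.unusedSimpArgs false

namespace Fermat.Agent.ES.MEN.RedMod2

open Matrix Subgroup
open Fermat.Agent.ES.MEN.SL2Calc13 Fermat.Agent.ES.MEN.ZInvQ26 Fermat.Agent.ES.MEN.ElemGen2

variable {q : ℕ} [hq : Fact q.Prime] {m : ℕ} (h : q.Coprime m)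

/-- reduction mod `m` on `SL(2, ℤ[1/q])`. -/
noncomputable def redSL : SL2 (ZInvQ q) →* SL2 (ZMod m) :=
  Matrix.SpecialLinearGroup.map (red m h)

theorem redSL_apply (g : SL2 (ZInvQ q)) (i j : Fin 2) : redSL h g i j = red m h (g i j) := by
  simp [redSL, Matrix.SpecialLinearGroup.map_apply_coe]

theorem redSL_u (t : ZInvQ q) : redSL h (u t) = u (red m h t) := map_u _ t

theorem redSL_l (t : ZInvQ q) : redSL h (l t) = l (red m h t) := map_l _ t

theorem redSL_u_coe (t : ZInvQ q) :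
    (redSL h (u t) : Matrix (Fin 2) (Fin 2) (ZMod m)) = !![1, red m h t; 0, 1] := by
  rw [redSL_u]; rfl

theorem redSL_l_coe (t : ZInvQ q) :
    (redSL h (l t) : Matrix (Fin 2) (Fin 2) (ZMod m)) = !![1, 0; red m h t, 1] := by
  rw [redSL_l]; rfl

/-- the kernel of the reduction is the principal congruence subgroup. -/
theorem ker_redSL : (redSL h).ker = GammaN ((m : ℕ) : ZInvQ q) := by
  ext g
  rw [MonoidHom.mem_ker, mem_GammaN]
  constructor
  · intro hg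
    have e : ∀ i j, red m h (g i j) = (1 : SL2 (ZMod m)) i j := by
      intro i j
      rw [← redSL_apply, hg]
    refine ⟨?_, ?_, ?_, ?_⟩
    · rw [← red_eq_zero_iff h, map_sub, e 0 0]; simp
    · rw [← red_eq_zero_iff h, e 0 1]; simp
    · rw [← red_eq_zero_iff h, e 1 0]; simp
    · rw [← red_eq_zero_iff h, map_sub, e 1 1]; simp
  · rintro ⟨h00, h01, h10, h11⟩
    rw [← red_eq_zero_iff h] at h00 h01 h10 h11
    rw [map_sub, sub_eq_zero, map_one] at h00 h11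
    apply ext2 <;> rw [redSL_apply] <;> simp [h00, h01, h10, h11]

theorem mem_GammaN_iff_redSL (g : SL2 (ZInvQ q)) :
    g ∈ GammaN ((m : ℕ) : ZInvQ q) ↔ redSL h g = 1 := by
  rw [← ker_redSL h, MonoidHom.mem_ker]

theorem mem_Gamma0_iff_redSL (g : SL2 (ZInvQ q)) :
    g ∈ Gamma0 ((m : ℕ) : ZInvQ q) ↔ redSL h g 1 0 = 0 := by
  rw [mem_Gamma0, redSL_apply, red_eq_zero_iff h]

/-- `u s` and `u t` have the same class mod `Γ(m)(A)` when `s ≡ t mod m`. -/
theorem u_mul_inv_mem_GammaN {s t : ZInvQ q} (hst : red m h s = red m h t) :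
    u s * (u t)⁻¹ ∈ GammaN ((m : ℕ) : ZInvQ q) := by
  rw [mem_GammaN_iff_redSL h, map_mul, map_inv, redSL_u, redSL_u, hst, mul_inv_cancel]

theorem l_mul_inv_mem_GammaN {s t : ZInvQ q} (hst : red m h s = red m h t) :
    l s * (l t)⁻¹ ∈ GammaN ((m : ℕ) : ZInvQ q) := by
  rw [mem_GammaN_iff_redSL h, map_mul, map_inv, redSL_l, redSL_l, hst, mul_inv_cancel]

/-- `u s (u t)⁻¹ = u (m * c)` when `s - t = m * c`. -/
theorem u_mul_inv_eq {A : Type*} [CommRing A] (s t : A) : u s * (u t)⁻¹ = u (s - t) := by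
  rw [sub_eq_add_neg, u_add, u_neg]

theorem l_mul_inv_eq {A : Type*} [CommRing A] (s t : A) : l s * (l t)⁻¹ = l (s - t) := by
  rw [sub_eq_add_neg, l_add, l_neg]

variable (q) in
/-- generation hypothesis of `SL2Calc13` for `A = ℤ[1/q]`. -/
theorem closure_Gamma0_union_eq_top_ZInvQ (N : ZInvQ q) :
    Subgroup.closure ((Gamma0 N : Set (SL2 (ZInvQ q))) ∪ {l 1}) = ⊤ :=
  closure_Gamma0_union_eq_top (Submonoid.powers (q : ℤ)) N

/-- `SL(2, ℤ[1/q])` is generated by elementary matrices. -/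
theorem EE_ZInvQ : EE (ZInvQ q) = ⊤ :=
  EE_eq_top_of_isLocalization (Submonoid.powers (q : ℤ))

/-- centrality for `A = ℤ[1/q]`: `φ` on `Γ(N)(A)` is invariant under all of `SL(2, A)`. -/
theorem phi_conj_all_ZInvQ {N : ZInvQ q} {C : Type*} [CommGroup C] (P : ParHom N C) (hG : Good N)
    (y : SL2 (ZInvQ q)) {g : SL2 (ZInvQ q)} (hg : g ∈ GammaN N) :
    P.φ (y * g * y⁻¹) = P.φ g :=
  phi_conj_all (Submonoid.powers (q : ℤ)) P hG y hg

end Fermat.Agent.ES.MEN.RedMod2
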