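/-
(MEN), part of file D (helper2): the arithmetic contract `Good N` of `SL2Calc13` for the carrier
`A = ZInvQ q = ℤ[1/q] ⊆ ℚ` (from helper25's `GoodLoc25.good_away`), and Theorems C and R of
`MEN_PROOF9.md` for this carrier with no hypothesis left:

* `good_ZInvQ : 0 < N → N.Coprime q → Good ((N : ℕ) : ZInvQ q)`;
* `phi_conj (P : ParHom (N : ZInvQ q) C) y (hg : g ∈ GammaN N) : P.φ (y * g * y⁻¹) = P.φ g`
  (centrality: invariance under ALL of `SL(2, ℤ[1/q])`);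
* `steinberg (P) (hx : IsCoprime x N) : ∃ y, N ∣ 1 - x * y ∧ defect1 x y ∈ GammaN N ∧
  P.φ (defect1 x y) = 1 ∧ defect2 x y ∈ GammaN N ∧ P.φ (defect2 x y) = 1`.
-/
import Fermat.Agent.ES.MEN.RedMod2
import Fermat.Agent.ES.MEN.GoodLoc25

set_option autoImplicit false

namespace Fermat.Agent.ES.MEN.GoodZInvQ2

open Fermat.Agent.ES.MEN.SL2Calc13 Fermat.Agent.ES.MEN.ZInvQ26

variable {q : ℕ} [hq : Fact q.Prime] {N : ℕ}

/-- the arithmetic contract of `SL2Calc13` holds in `ℤ[1/q]` for every `N ≥ 1` prime to `q`. -/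
theorem good_ZInvQ (hN : 0 < N) (hNq : N.Coprime q) : Good ((N : ℕ) : ZInvQ q) :=
  GoodLoc25.good_away hq.out hN hNq (ZInvQ q)

variable {C : Type*} [CommGroup C]

/-- **Theorem C for `ℤ[1/q]`** (centrality): a parabolic `φ` on `Γ₀(N)(ℤ[1/q])` restricted to
`Γ(N)(ℤ[1/q])` is invariant under conjugation by all of `SL(2, ℤ[1/q])`. -/
theorem phi_conj (hN : 0 < N) (hNq : N.Coprime q) (P : ParHom ((N : ℕ) : ZInvQ q) C)
    (y : SL2 (ZInvQ q)) {g : SL2 (ZInvQ q)} (hg : g ∈ GammaN ((N : ℕ) : ZInvQ q)) :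
    P.φ (y * g * y⁻¹) = P.φ g :=
  RedMod2.phi_conj_all_ZInvQ P (good_ZInvQ hN hNq) y hg

/-- **Theorem R for `ℤ[1/q]`** (Steinberg relations modulo `ker φ`). -/
theorem steinberg (hN : 0 < N) (hNq : N.Coprime q) (P : ParHom ((N : ℕ) : ZInvQ q) C)
    {x : ZInvQ q} (hx : IsCoprime x ((N : ℕ) : ZInvQ q)) :
    ∃ y : ZInvQ q, ((N : ℕ) : ZInvQ q) ∣ 1 - x * y ∧
      defect1 x y ∈ GammaN ((N : ℕ) : ZInvQ q) ∧ P.φ (defect1 x y) = 1 ∧
      defect2 x y ∈ GammaN ((N : ℕ) : ZInvQ q) ∧ P.φ (defect2 x y) = 1 :=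
  P.thmR (good_ZInvQ hN hNq) hx

end Fermat.Agent.ES.MEN.GoodZInvQ2
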