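import Fermat.Agent.ES.MEN.MenMain26

set_option autoImplicit false

/-!
# Ihara's lemma for `Hom(Γ₀(N), C)`, `C` of odd exponent (helper26)

Two homomorphisms `ψ₁, ψ₂ : Γ₀(N) →* C` (`C` commutative of odd exponent `p`, e.g. `𝔽_p`) which are
compatible on `Γ₀(N) ∩ diag(1,q) Γ₀(N) diag(1,q)⁻¹` (`q ∤ N`) — i.e. a pair in the kernel of the
degeneracy map to level `N q`, up to the sign convention — with `ψ₁` killing the lower unipotents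
and `ψ₂` killing the upper unipotents of `Γ₀(N)`, are *Eisenstein*: `ψᵢ γ` depends only on the
upper left entry of `γ` mod `N`.  (Amalgam11 + (MEN).)
-/

namespace Fermat.Agent.ES.MEN.IharaHom26

open Matrix MatrixGroups CongruenceSubgroup
open Fermat.Agent.ES.MEN.ZInvQ26 Fermat.Agent.ES.MEN.Amalgam11 Fermat.Agent.ES.MEN.MenMain26

variable {q N : ℕ} [hq : Fact q.Prime]

/-- **Ihara's lemma, `Hom` form.** -/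
theorem ihara_hom (hN : 0 < N) (hNq : ¬ q ∣ N) {C : Type*} [CommGroup C] (p : ℕ) (hp : Odd p)
    (hpow : ∀ c : C, c ^ p = 1) (ψ₁ ψ₂ : ↥(Gamma0 N) →* C)
    (hc : ∀ γ δ : ↥(Gamma0 N), castQ (γ : SL(2,ℤ)) = twist q (castQ (δ : SL(2,ℤ))) → ψ₁ γ = ψ₂ δ)
    (h₁ : ∀ γ : ↥(Gamma0 N),
      ((γ : SL(2,ℤ)) : Matrix (Fin 2) (Fin 2) ℤ) 0 0 = 1 →
      ((γ : SL(2,ℤ)) : Matrix (Fin 2) (Fin 2) ℤ) 0 1 = 0 →
      ((γ : SL(2,ℤ)) : Matrix (Fin 2) (Fin 2) ℤ) 1 1 = 1 → ψ₁ γ = 1)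
    (h₂ : ∀ γ : ↥(Gamma0 N),
      ((γ : SL(2,ℤ)) : Matrix (Fin 2) (Fin 2) ℤ) 0 0 = 1 →
      ((γ : SL(2,ℤ)) : Matrix (Fin 2) (Fin 2) ℤ) 1 0 = 0 →
      ((γ : SL(2,ℤ)) : Matrix (Fin 2) (Fin 2) ℤ) 1 1 = 1 → ψ₂ γ = 1)
    (γ γ' : ↥(Gamma0 N))
    (hγ : (N : ℤ) ∣ ((γ : SL(2,ℤ)) : Matrix (Fin 2) (Fin 2) ℤ) 0 0 -
      ((γ' : SL(2,ℤ)) : Matrix (Fin 2) (Fin 2) ℤ) 0 0) :
    ψ₁ γ = ψ₁ γ' ∧ ψ₂ γ = ψ₂ γ' := by
  obtain ⟨F, ⟨hF1, hF2⟩, -⟩ := existsUnique_hom hNq ψ₁ ψ₂ hc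
  have hU' : ∀ γ : ↥(Gamma0 N),
      ((γ : SL(2,ℤ)) : Matrix (Fin 2) (Fin 2) ℤ) 0 0 = 1 →
      ((γ : SL(2,ℤ)) : Matrix (Fin 2) (Fin 2) ℤ) 1 0 = 0 →
      ((γ : SL(2,ℤ)) : Matrix (Fin 2) (Fin 2) ℤ) 1 1 = 1 →
      F ⟨twist q (castQ γ), twist_castQ_mem γ⟩ = 1 := fun γ a b c => by
    rw [hF2]; exact h₂ γ a b c
  have hL : ∀ γ : ↥(Gamma0 N),
      ((γ : SL(2,ℤ)) : Matrix (Fin 2) (Fin 2) ℤ) 0 0 = 1 →
      ((γ : SL(2,ℤ)) : Matrix (Fin 2) (Fin 2) ℤ) 0 1 = 0 →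
      ((γ : SL(2,ℤ)) : Matrix (Fin 2) (Fin 2) ℤ) 1 1 = 1 →
      F ⟨castQ γ, castQ_mem γ⟩ = 1 := fun γ a b c => by
    rw [hF1]; exact h₁ γ a b c
  obtain ⟨m, hm⟩ := hγ
  have key := men_amalgam_main hN hNq p hp hpow F hU' hL
  constructor
  · rw [← hF1, ← hF1]
    apply key
    refine ⟨(m : ℚ), intCast_mem q m, ?_⟩
    show (castQ (γ : SL(2,ℤ)) : Matrix (Fin 2) (Fin 2) ℚ) 0 0 -
      (castQ (γ' : SL(2,ℤ)) : Matrix (Fin 2) (Fin 2) ℚ) 0 0 = N * m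
    rw [castQ_apply, castQ_apply]
    have := congrArg (fun z : ℤ => (z : ℚ)) hm
    push_cast at this
    exact this
  · rw [← hF2, ← hF2]
    apply key
    refine ⟨(m : ℚ), intCast_mem q m, ?_⟩
    show (twist q (castQ (γ : SL(2,ℤ))) : Matrix (Fin 2) (Fin 2) ℚ) 0 0 -
      (twist q (castQ (γ' : SL(2,ℤ))) : Matrix (Fin 2) (Fin 2) ℚ) 0 0 = N * m
    rw [twist_apply, twist_apply]
    simp only [Matrix.of_apply, Matrix.cons_val', Matrix.cons_val_zero, Matrix.cons_val_fin_one]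
    rw [castQ_apply, castQ_apply]
    have := congrArg (fun z : ℤ => (z : ℚ)) hm
    push_cast at this
    exact this

end Fermat.Agent.ES.MEN.IharaHom26
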