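/-
(MEN), file C, the `l = 2` local case (helper20).  Mathlib only.

A central extension `π : X → SL(2, ZMod (2^e))` generated by two additive one-parameter
subgroups `uh, lh` lifting the elementary matrices, whose kernel is finite of odd order,
is injective.
-/
import Mathlib

namespace Fermat.Agent.ES.MEN.LocalTwo20

open Matrix MatrixGroups

section GroupTheory

variable {X : Type*} [Group X]

/-- Abstract splitting: `GP` normal in `X`, `D ≤ GP` central finite of odd order,
`GP / D` a (finite) `2`-group.  Then the elements of `2`-power order in `GP` form a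
normal subgroup `Ph` of `X` with `Ph ⊓ D = ⊥` and `GP = D * Ph`. -/
theorem exists_two_part [Finite X] (GP D : Subgroup X) [hGPn : GP.Normal] (hDle : D ≤ GP)
    (hDc : D ≤ Subgroup.center X) (hodd : Odd (Nat.card D))
    (h2 : ∀ g ∈ GP, ∃ k : ℕ, g ^ (2 ^ k) ∈ D) :
    ∃ Ph : Subgroup X, Ph.Normal ∧ Ph ≤ GP ∧ (∀ g ∈ Ph, g ∈ D → g = 1) ∧
      (∀ g ∈ GP, ∃ n ∈ D, ∃ h ∈ Ph, g = n * h) ∧
      (∀ g ∈ GP, (∃ k : ℕ, g ^ (2 ^ k) = 1) → g ∈ Ph) := by
  classical
  have hDn : D.Normal := ⟨fun n hn g => by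
    have : g * n = n * g := (Subgroup.mem_center_iff.mp (hDc hn) g)
    rw [this, mul_inv_cancel_right]; exact hn⟩
  -- the subgroup `N` of `GP`
  set N : Subgroup GP := D.subgroupOf GP with hN
  have hNn : N.Normal := hDn.subgroupOf GP
  have hcardN : Nat.card N = Nat.card D :=
    Nat.card_congr (Subgroup.subgroupOfEquivOfLe hDle).toEquiv
  have hp : IsPGroup 2 (GP ⧸ N) := by
    intro q
    induction q using QuotientGroup.induction_on with
    | H g =>
      obtain ⟨k, hk⟩ := h2 g.1 g.2
      refine ⟨k, ?_⟩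
      rw [← QuotientGroup.mk_pow, QuotientGroup.eq_one_iff]
      rw [hN, Subgroup.mem_subgroupOf]
      simpa using hk
  have : Fact (Nat.Prime 2) := ⟨Nat.prime_two⟩
  obtain ⟨j, hj⟩ := hp.exists_card_eq
  have hidx : N.index = 2 ^ j := by rw [Subgroup.index_eq_card]; exact hj
  have hcop : Nat.Coprime (Nat.card N) N.index := by
    rw [hcardN, hidx]
    exact (Nat.Coprime.pow_right j (Nat.coprime_two_right.mpr hodd))
  obtain ⟨H, hH⟩ := Subgroup.exists_right_complement'_of_coprime hcop
  have hHcard : Nat.card H = 2 ^ j := by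
    rw [← hidx]; exact (hH.symm.index_eq_card).symm
  -- odd order elements of `D` killed by a power of two are trivial
  have hDtriv : ∀ n ∈ D, ∀ k : ℕ, n ^ (2 ^ k) = 1 → n = 1 := by
    intro n hn k hk
    have h1 : (⟨n, hn⟩ : D) ^ (Nat.card D) = 1 := pow_card_eq_one'
    have h1' : n ^ (Nat.card D) = 1 := by
      have := congrArg (fun z : D => (z : X)) h1
      simpa only [SubgroupClass.coe_pow, OneMemClass.coe_one] using this
    have hc : Nat.Coprime (Nat.card D) (2 ^ k) :=
      Nat.Coprime.pow_right k (Nat.coprime_two_right.mpr hodd)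
    have := (pow_gcd_eq_one (a := n) (m := Nat.card D) (n := 2 ^ k)).mpr ⟨h1', hk⟩
    rwa [Nat.Coprime.gcd_eq_one hc, pow_one] at this
  -- characterisation of `H`
  have hchar : ∀ g : GP, (∃ k : ℕ, g ^ (2 ^ k) = 1) → g ∈ H := by
    rintro g ⟨k, hk⟩
    obtain ⟨⟨⟨n, hn⟩, ⟨h, hh⟩⟩, hnh, -⟩ := hH.existsUnique g
    simp only at hnh
    -- g = n * h
    have hncomm : ∀ y : GP, n * y = y * n := by
      intro y
      have hnD : (n : X) ∈ D := by
        exact Subgroup.mem_subgroupOf.mp hn
      have := (Subgroup.mem_center_iff.mp (hDc hnD) (y : X))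
      apply Subtype.ext
      simpa using this.symm
    have hpow : ∀ m : ℕ, g ^ m = n ^ m * h ^ m := by
      intro m
      rw [← hnh]
      exact (Commute.mul_pow (hncomm h) m)
    have hh1 : h ^ (2 ^ j) = 1 := by
      have : (⟨h, hh⟩ : H) ^ (Nat.card H) = 1 := pow_card_eq_one'
      rw [hHcard] at this
      have := congrArg (Subtype.val) this
      simpa using this
    have h3 : n ^ (2 ^ (k + j)) = 1 := by
      have e1 : g ^ (2 ^ (k + j)) = 1 := by
        rw [pow_add, pow_mul, hk, one_pow]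
      have e2 : h ^ (2 ^ (k + j)) = 1 := by
        rw [add_comm, pow_add, pow_mul, hh1, one_pow]
      have := hpow (2 ^ (k + j))
      rw [e1, e2, mul_one] at this
      exact this.symm
    have hnD : (n : X) ∈ D := by
      exact Subgroup.mem_subgroupOf.mp hn
    have hn1 : (n : X) = 1 := hDtriv _ hnD (k + j) (by
      have := congrArg (Subtype.val) h3
      simpa using this)
    have hn1' : n = 1 := Subtype.ext hn1
    rw [← hnh, hn1', one_mul]
    exact hh
  refine ⟨H.map GP.subtype, ?_, ?_, ?_, ?_, ?_⟩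
  · -- normal
    refine ⟨fun g hg x => ?_⟩
    obtain ⟨h, hh, rfl⟩ := Subgroup.mem_map.mp hg
    have hmem : x * (h : X) * x⁻¹ ∈ GP := hGPn.conj_mem _ h.2 x
    refine Subgroup.mem_map.mpr ⟨⟨_, hmem⟩, ?_, rfl⟩
    apply hchar
    refine ⟨j, ?_⟩
    have : (⟨h, hh⟩ : H) ^ (Nat.card H) = 1 := pow_card_eq_one'
    rw [hHcard] at this
    have h1 : (h : X) ^ (2 ^ j) = 1 := by
      have := congrArg (fun z : H => ((z : GP) : X)) this
      simpa using this
    apply Subtype.ext
    simp only [SubgroupClass.coe_pow, OneMemClass.coe_one]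
    rw [conj_pow, h1, mul_one, mul_inv_cancel]
  · -- ≤ GP
    intro g hg
    obtain ⟨h, -, rfl⟩ := Subgroup.mem_map.mp hg
    exact h.2
  · -- disjoint from D
    intro g hg hgD
    obtain ⟨h, hh, rfl⟩ := Subgroup.mem_map.mp hg
    have hhN : h ∈ N := by rw [hN, Subgroup.mem_subgroupOf]; exact hgD
    have := hH.disjoint
    have h1 : h = 1 := by
      have := (Subgroup.disjoint_def.mp this) hhN hh
      exact this
    rw [h1]; rfl
  · -- product decomposition
    intro g hg
    obtain ⟨⟨⟨n, hn⟩, ⟨h, hh⟩⟩, hnh, -⟩ := hH.existsUnique (⟨g, hg⟩ : GP)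
    simp only at hnh
    refine ⟨(n : X), ?_, (h : X), Subgroup.mem_map.mpr ⟨h, hh, rfl⟩, ?_⟩
    · exact Subgroup.mem_subgroupOf.mp hn
    · have := congrArg (Subtype.val) hnh
      simpa using this.symm
  · -- elements of 2-power order
    rintro g hg ⟨k, hk⟩
    refine Subgroup.mem_map.mpr ⟨⟨g, hg⟩, hchar _ ⟨k, ?_⟩, rfl⟩
    apply Subtype.ext
    simpa using hk

end GroupTheory


section TwoGroup

/-- In any ring, `1 + 2^(k+1) M` squares to `1 + 2^(k+2) M'`. -/
theorem sq_one_add_two_pow {S : Type*} [Ring S] (M : S) (k : ℕ) :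
    (1 + (2:S)^(k+1) * M) * (1 + (2:S)^(k+1) * M)
      = 1 + (2:S)^(k+2) * (M + (2:S)^k * (M * M)) := by
  have hc : ∀ (j : ℕ) (y : S), y * (2:S)^j = (2:S)^j * y := by
    intro j y
    have h2 : Commute y (2:S) := by
      have := Nat.cast_commute (2:ℕ) y
      simpa using this.symm
    exact h2.pow_right j
  calc (1 + (2:S)^(k+1) * M) * (1 + (2:S)^(k+1) * M)
      = 1 + 2 * ((2:S)^(k+1) * M) + (2:S)^(k+1) * (M * (2:S)^(k+1)) * M := by noncomm_ring
    _ = 1 + (2:S)^(k+2) * (M + (2:S)^k * (M * M)) := by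
        rw [hc]
        have e1 : (2:S)^(k+2) = 2 * (2:S)^(k+1) := by rw [pow_succ']
        have e2 : (2:S)^(k+1) * ((2:S)^(k+1) * M) * M
            = (2:S)^(k+2) * ((2:S)^k * (M * M)) := by
          have : (2:S)^(k+1) * (2:S)^(k+1) = (2:S)^(k+2) * (2:S)^k := by
            rw [← pow_add, ← pow_add]; congr 1; ring
          rw [← mul_assoc, this]; noncomm_ring
        rw [e2, e1]; noncomm_ring

/-- Iterated squaring. -/
theorem pow_two_pow_one_add_two {S : Type*} [Ring S] (M : S) (i : ℕ) :
    ∃ M' : S, (1 + 2 * M) ^ (2 ^ i) = 1 + (2:S)^(i+1) * M' := by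
  induction i with
  | zero => exact ⟨M, by simp⟩
  | succ i ih =>
    obtain ⟨M', hM'⟩ := ih
    refine ⟨M' + (2:S)^i * (M' * M'), ?_⟩
    rw [pow_succ, pow_mul, hM', pow_two, sq_one_add_two_pow]

theorem two_pow_matrix_eq_zero (e : ℕ) :
    ((2 : Matrix (Fin 2) (Fin 2) (ZMod (2^e)))) ^ e = 0 := by
  have h : ((2^e : ℕ) : Matrix (Fin 2) (Fin 2) (ZMod (2^e))) = 0 :=
    CharP.cast_eq_zero _ _
  rw [Nat.cast_pow, Nat.cast_ofNat] at h
  exact h

theorem exists_two_mul_of_castHom_eq_zero (e : ℕ) (he : 0 < e) (x : ZMod (2^e))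
    (hx : ZMod.castHom (dvd_pow_self 2 he.ne') (ZMod 2) x = 0) :
    ∃ m : ZMod (2^e), x = 2 * m := by
  have : NeZero (2^e) := ⟨by positivity⟩
  have h1 : ((x.val : ℕ) : ZMod (2^e)) = x := ZMod.natCast_zmod_val x
  rw [← h1, map_natCast] at hx
  obtain ⟨m, hm⟩ := (ZMod.natCast_eq_zero_iff _ _).mp hx
  refine ⟨(m : ZMod (2^e)), ?_⟩
  rw [← h1, hm]; push_cast; rfl

/-- The kernel of reduction mod `2` on `2 × 2` matrices over `ZMod (2^e)` has exponent
dividing `2^e`. -/
theorem pow_two_pow_eq_one_of_map_eq_one (e : ℕ) (he : 0 < e)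
    (A : Matrix (Fin 2) (Fin 2) (ZMod (2^e)))
    (hA : A.map (ZMod.castHom (dvd_pow_self 2 he.ne') (ZMod 2)) = 1) :
    A ^ (2 ^ e) = 1 := by
  classical
  set ρ := ZMod.castHom (dvd_pow_self 2 he.ne') (ZMod 2) with hρ
  have hent : ∀ i j, ∃ m : ZMod (2^e), A i j - (1 : Matrix (Fin 2) (Fin 2) (ZMod (2^e))) i j
      = 2 * m := by
    intro i j
    apply exists_two_mul_of_castHom_eq_zero e he
    have h1 := congrFun (congrFun hA i) j
    rw [Matrix.map_apply] at h1
    rw [map_sub, h1]
    by_cases hij : i = j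
    · subst hij; rw [Matrix.one_apply_eq, Matrix.one_apply_eq, map_one, sub_self]
    · rw [Matrix.one_apply_ne hij, Matrix.one_apply_ne hij, map_zero, sub_zero]
  choose m hm using hent
  have hAeq : A = 1 + 2 * Matrix.of m := by
    ext i j
    have := hm i j
    rw [Matrix.add_apply, two_mul, Matrix.add_apply, Matrix.of_apply]
    rw [sub_eq_iff_eq_add] at this
    rw [this, two_mul]; ring
  obtain ⟨M', hM'⟩ := pow_two_pow_one_add_two (Matrix.of m) (e - 1)
  have he1 : e - 1 + 1 = e := by omega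
  rw [he1, two_pow_matrix_eq_zero, zero_mul, add_zero] at hM'
  have hexp : (2:ℕ) ^ e = 2 ^ (e - 1) * 2 := by
    rw [← pow_succ, he1]
  have key : ∀ n : ℕ, n = 2 ^ (e - 1) * 2 → A ^ n = 1 := by
    intro n hn
    rw [hn, pow_mul, hAeq, hM', one_pow]
  exact key _ hexp

end TwoGroup

section Dihedral

/-- A group generated by two involutions `a`, `b` with `(a b)^3 = 1` has at most the six
elements `1, a, b, ab, ba, aba`. -/
theorem mem_six_of_generated {Z : Type*} [Group Z] (a b : Z) (ha : a * a = 1) (hb : b * b = 1)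
    (hab : (a * b) ^ 3 = 1) (hgen : Subgroup.closure ({a, b} : Set Z) = ⊤) (z : Z) :
    z = 1 ∨ z = a ∨ z = b ∨ z = a * b ∨ z = b * a ∨ z = a * b * a := by
  have hainv : a⁻¹ = a := inv_eq_of_mul_eq_one_right ha
  have hbinv : b⁻¹ = b := inv_eq_of_mul_eq_one_right hb
  -- braid relation `b a b = a b a`
  have ha' : ∀ x : Z, a * (a * x) = x := fun x => by rw [← mul_assoc, ha, one_mul]
  have hb' : ∀ x : Z, b * (b * x) = x := fun x => by rw [← mul_assoc, hb, one_mul]
  have hbraid : b * a * b = a * b * a := by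
    have h1 : a * (b * (a * (b * (a * b)))) = 1 := by
      have := hab; rw [pow_succ, pow_two] at this
      simpa only [mul_assoc] using this
    have h2 : b * (a * (b * (a * b))) = a := by
      have := congrArg (fun y => a * y) h1
      simpa only [ha', mul_one] using this
    have h3 : b * (a * (b * a)) = a * b := by
      have := congrArg (fun y => y * b) h2
      simpa only [mul_assoc, hb, mul_one] using this
    have h4 : b * (a * b) = a * (b * a) := by
      have := congrArg (fun y => y * a) h3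
      simpa only [mul_assoc, ha, mul_one] using this
    simpa only [mul_assoc] using h4
  have hz : z ∈ Subgroup.closure ({a, b} : Set Z) := by rw [hgen]; trivial
  -- the six-element set is stable under left multiplication by a and b
  have stepa : ∀ y : Z, (y = 1 ∨ y = a ∨ y = b ∨ y = a * b ∨ y = b * a ∨ y = a * b * a) →
      (a * y = 1 ∨ a * y = a ∨ a * y = b ∨ a * y = a * b ∨ a * y = b * a ∨
        a * y = a * b * a) := by
    rintro y (rfl | rfl | rfl | rfl | rfl | rfl)
    · right; left; rw [mul_one]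
    · left; exact ha
    · right; right; right; left; rfl
    · right; right; left; rw [← mul_assoc, ha, one_mul]
    · right; right; right; right; right; rw [← mul_assoc]
    · right; right; right; right; left
      rw [← mul_assoc, ← mul_assoc, ha, one_mul]
  have stepb : ∀ y : Z, (y = 1 ∨ y = a ∨ y = b ∨ y = a * b ∨ y = b * a ∨ y = a * b * a) →
      (b * y = 1 ∨ b * y = a ∨ b * y = b ∨ b * y = a * b ∨ b * y = b * a ∨
        b * y = a * b * a) := by
    rintro y (rfl | rfl | rfl | rfl | rfl | rfl)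
    · right; right; left; rw [mul_one]
    · right; right; right; right; left; rfl
    · left; exact hb
    · right; right; right; right; right; rw [← mul_assoc]; exact hbraid
    · right; left; rw [← mul_assoc, hb, one_mul]
    · right; right; right; left
      rw [← mul_assoc, ← mul_assoc, hbraid, mul_assoc, ha, mul_one]
  induction hz using Subgroup.closure_induction_left with
  | one => left; rfl
  | mul_left x hx y _ ih =>
    rcases hx with rfl | rfl
    · exact stepa y ih
    · exact stepb y ih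
  | inv_mul_cancel x hx y _ ih =>
    rcases hx with rfl | rfl
    · rw [hainv]; exact stepa y ih
    · rw [hbinv]; exact stepb y ih

end Dihedral


section Main

variable {X : Type*} [Group X]

/-- **The `l = 2` local case of file C.**  A central extension of (a subgroup of)
`SL(2, ZMod (2^e))` generated by lifts `uh`, `lh` of the elementary one-parameter subgroups,
with finite kernel of odd order, is trivial. -/
theorem injective_of_two_pow (e : ℕ) (he : 0 < e)
    (π : X →* SL(2, ZMod (2^e))) (uh lh : Multiplicative (ZMod (2^e)) →* X)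
    (hπu : ∀ t : ZMod (2^e),
      ((π (uh (Multiplicative.ofAdd t)) : SL(2, ZMod (2^e))) :
        Matrix (Fin 2) (Fin 2) (ZMod (2^e))) = !![1, t; 0, 1])
    (hπl : ∀ t : ZMod (2^e),
      ((π (lh (Multiplicative.ofAdd t)) : SL(2, ZMod (2^e))) :
        Matrix (Fin 2) (Fin 2) (ZMod (2^e))) = !![1, 0; t, 1])
    (hgen : Subgroup.closure (Set.range uh ∪ Set.range lh) = ⊤)
    (hcent : π.ker ≤ Subgroup.center X)
    (hfin : Finite π.ker) (hodd : Odd (Nat.card π.ker)) :
    Function.Injective π := by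
  classical
  have hNZ : NeZero (2^e) := ⟨by positivity⟩
  -- `X` is finite
  have hfinq : Finite (X ⧸ π.ker) :=
    Finite.of_injective _ (QuotientGroup.kerLift_injective π)
  have hfinX : Finite X :=
    Finite.of_equiv _ (Subgroup.groupEquivQuotientProdSubgroup (s := π.ker)).symm
  set ρ : ZMod (2^e) →+* ZMod 2 := ZMod.castHom (dvd_pow_self 2 he.ne') (ZMod 2) with hρ
  set red : SL(2, ZMod (2^e)) →* SL(2, ZMod 2) := Matrix.SpecialLinearGroup.map ρ with hred
  set ψ : X →* SL(2, ZMod 2) := red.comp π with hψ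
  have hψu : ∀ t : ZMod (2^e), ((ψ (uh (Multiplicative.ofAdd t)) : SL(2, ZMod 2)) :
      Matrix (Fin 2) (Fin 2) (ZMod 2)) = !![1, ρ t; 0, 1] := by
    intro t
    rw [hψ, MonoidHom.comp_apply, hred, Matrix.SpecialLinearGroup.map_apply_coe, hπu,
      RingHom.mapMatrix_apply]
    ext i j; fin_cases i <;> fin_cases j <;> simp
  have hψl : ∀ t : ZMod (2^e), ((ψ (lh (Multiplicative.ofAdd t)) : SL(2, ZMod 2)) :
      Matrix (Fin 2) (Fin 2) (ZMod 2)) = !![1, 0; ρ t, 1] := by
    intro t
    rw [hψ, MonoidHom.comp_apply, hred, Matrix.SpecialLinearGroup.map_apply_coe, hπl,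
      RingHom.mapMatrix_apply]
    ext i j; fin_cases i <;> fin_cases j <;> simp
  have hDle : π.ker ≤ ψ.ker := fun g hg => by
    rw [MonoidHom.mem_ker] at hg ⊢
    rw [hψ, MonoidHom.comp_apply, hg, map_one]
  have h2 : ∀ g ∈ ψ.ker, ∃ k : ℕ, g ^ (2 ^ k) ∈ π.ker := by
    intro g hg
    refine ⟨e, ?_⟩
    rw [MonoidHom.mem_ker, map_pow]
    apply Subtype.ext
    rw [Matrix.SpecialLinearGroup.coe_pow, Matrix.SpecialLinearGroup.coe_one]
    apply pow_two_pow_eq_one_of_map_eq_one e he
    have h1 : red (π g) = 1 := hg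
    have h3 := congrArg (fun z : SL(2, ZMod 2) => (z : Matrix (Fin 2) (Fin 2) (ZMod 2))) h1
    simp only [hred, Matrix.SpecialLinearGroup.map_apply_coe, RingHom.mapMatrix_apply,
      Matrix.SpecialLinearGroup.coe_one] at h3
    exact h3
  obtain ⟨Ph, hPhn, hPhle, hPhD, hdecomp, hPhchar⟩ :=
    exists_two_part ψ.ker π.ker hDle hcent hodd h2
  -- odd-order elements of the kernel killed by 2 are trivial
  have hDsq : ∀ n ∈ π.ker, n * n = 1 → n = 1 := by
    intro n hn hnn
    have h1 : (⟨n, hn⟩ : π.ker) ^ (Nat.card π.ker) = 1 := pow_card_eq_one'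
    have h1' : n ^ (Nat.card π.ker) = 1 := by
      have := congrArg (fun z : π.ker => (z : X)) h1
      simpa only [SubgroupClass.coe_pow, OneMemClass.coe_one] using this
    have hc : Nat.Coprime (Nat.card π.ker) 2 := Nat.coprime_two_right.mpr hodd
    have h2' : n ^ 2 = 1 := by rw [pow_two]; exact hnn
    have := (pow_gcd_eq_one (a := n) (m := Nat.card π.ker) (n := 2)).mpr ⟨h1', h2'⟩
    rwa [Nat.Coprime.gcd_eq_one hc, pow_one] at this
  set a : X := uh (Multiplicative.ofAdd 1) with ha
  set b : X := lh (Multiplicative.ofAdd 1) with hb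
  have hρ2 : ρ 2 = 0 := by
    rw [map_ofNat]; rfl
  -- `uh 2`, `lh 2` lie in `Ph`
  have hpow2 : ∀ (f : Multiplicative (ZMod (2^e)) →* X),
      (f (Multiplicative.ofAdd 1) * f (Multiplicative.ofAdd 1)) ^ (2 ^ e) = 1 := by
    intro f
    rw [← map_mul, ← map_pow, ← ofAdd_add, ← ofAdd_nsmul]
    have : (2 ^ e) • ((1 : ZMod (2^e)) + 1) = 0 := by
      rw [nsmul_eq_mul, ZMod.natCast_self, zero_mul]
    rw [this, ofAdd_zero, map_one]
  have haa : a * a ∈ Ph := by
    apply hPhchar
    · rw [MonoidHom.mem_ker]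
      apply Subtype.ext
      rw [ha, ← map_mul, ← ofAdd_add, hψu, Matrix.SpecialLinearGroup.coe_one, one_add_one_eq_two,
        hρ2]
      ext i j; fin_cases i <;> fin_cases j <;> simp
    · exact ⟨e, hpow2 uh⟩
  have hbb : b * b ∈ Ph := by
    apply hPhchar
    · rw [MonoidHom.mem_ker]
      apply Subtype.ext
      rw [hb, ← map_mul, ← ofAdd_add, hψl, Matrix.SpecialLinearGroup.coe_one, one_add_one_eq_two,
        hρ2]
      ext i j; fin_cases i <;> fin_cases j <;> simp
    · exact ⟨e, hpow2 lh⟩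
  -- the quotient
  let q : X →* X ⧸ Ph := QuotientGroup.mk' Ph
  have hq1 : ∀ x : X, q x = 1 ↔ x ∈ Ph := fun x => QuotientGroup.eq_one_iff x
  have hqa : q a * q a = 1 := by rw [← map_mul, hq1]; exact haa
  have hqb : q b * q b = 1 := by rw [← map_mul, hq1]; exact hbb
  -- images of `a`, `b` under `ψ`
  have hψa : ((ψ a : SL(2, ZMod 2)) : Matrix (Fin 2) (Fin 2) (ZMod 2)) = !![1, 1; 0, 1] := by
    rw [ha, hψu, map_one]
  have hψb : ((ψ b : SL(2, ZMod 2)) : Matrix (Fin 2) (Fin 2) (ZMod 2)) = !![1, 0; 1, 1] := by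
    rw [hb, hψl, map_one]
  have hψab3 : (a * b) ^ 3 ∈ ψ.ker := by
    rw [MonoidHom.mem_ker, map_pow, map_mul]
    apply Subtype.ext
    rw [Matrix.SpecialLinearGroup.coe_pow, Matrix.SpecialLinearGroup.coe_mul, hψa, hψb,
      Matrix.SpecialLinearGroup.coe_one]
    decide
  -- `(q a * q b)^3 = 1`
  have hqab : (q a * q b) ^ 3 = 1 := by
    obtain ⟨n, hn, h, hh, hnh⟩ := hdecomp _ hψab3
    have hqn : (q a * q b) ^ 3 = q n := by
      rw [← map_mul, ← map_pow, hnh, map_mul, (hq1 h).mpr hh, mul_one]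
    have hncomm : ∀ y : X, y * n = n * y := fun y =>
      (Subgroup.mem_center_iff.mp (hcent hn) y)
    -- conjugating by `q a` inverts `(q a * q b)^3`
    have hinv : q a * (q a * q b) ^ 3 * q a = ((q a * q b) ^ 3)⁻¹ := by
      have hba : (q a * q b)⁻¹ = q b * q a := by
        apply inv_eq_of_mul_eq_one_right
        rw [mul_assoc, ← mul_assoc (q b), hqb, one_mul, hqa]
      rw [← inv_pow, hba]
      have e1 : q a * (q a * q b) ^ 3 * q a
          = (q a * q a) * q b * q a * q b * q a * q b * q a := by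
        rw [pow_succ, pow_two]; simp only [mul_assoc]
      rw [e1, hqa, one_mul, pow_succ, pow_two]; simp only [mul_assoc]
    have hcentral : q a * (q a * q b) ^ 3 * q a = (q a * q b) ^ 3 := by
      rw [hqn, ← map_mul, hncomm a, map_mul, mul_assoc, hqa, mul_one]
    have hsq : q n * q n = 1 := by
      have : (q a * q b) ^ 3 = ((q a * q b) ^ 3)⁻¹ := hcentral.symm.trans hinv
      rw [← hqn]
      exact mul_eq_one_iff_eq_inv.mpr this
    have hn1 : n = 1 := by
      apply hDsq n hn
      apply hPhD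
      · rw [← hq1, map_mul]; exact hsq
      · exact Subgroup.mul_mem _ hn hn
    rw [hqn, hn1, map_one]
  -- `X ⧸ Ph` is generated by `q a`, `q b`
  have hqgen : Subgroup.closure ({q a, q b} : Set (X ⧸ Ph)) = ⊤ := by
    rw [eq_top_iff]
    rintro z -
    obtain ⟨x, rfl⟩ := QuotientGroup.mk'_surjective Ph z
    have hx : x ∈ Subgroup.closure (Set.range uh ∪ Set.range lh) := by rw [hgen]; trivial
    have hpowgen : ∀ (f : Multiplicative (ZMod (2^e)) →* X) (t : Multiplicative (ZMod (2^e))),
        f t = f (Multiplicative.ofAdd 1) ^ (ZMod.val (Multiplicative.toAdd t)) := by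
      intro f t
      rw [← map_pow, ← ofAdd_nsmul, nsmul_eq_mul, mul_one, ZMod.natCast_zmod_val]
      rfl
    induction hx using Subgroup.closure_induction with
    | mem y hy =>
      rcases hy with ⟨t, rfl⟩ | ⟨t, rfl⟩
      · rw [hpowgen uh t, map_pow]
        exact Subgroup.pow_mem _ (Subgroup.subset_closure (Set.mem_insert _ _)) _
      · rw [hpowgen lh t, map_pow]
        exact Subgroup.pow_mem _ (Subgroup.subset_closure
          (Set.mem_insert_of_mem _ (Set.mem_singleton _))) _
    | one => rw [map_one]; exact Subgroup.one_mem _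
    | mul y z _ _ hy hz => rw [map_mul]; exact Subgroup.mul_mem _ hy hz
    | inv y _ hy => rw [map_inv]; exact Subgroup.inv_mem _ hy
  -- conclusion
  have hqψ : ∀ x y : X, q x = q y → ψ x = ψ y := by
    intro x y hxy
    have : x⁻¹ * y ∈ Ph := QuotientGroup.eq.mp hxy
    have h1 := hPhle this
    rw [MonoidHom.mem_ker, map_mul, map_inv, inv_mul_eq_one] at h1
    exact h1
  rw [injective_iff_map_eq_one]
  intro d hd
  have hdD : d ∈ π.ker := hd
  have hψd : ψ d = 1 := hDle hdD
  have hne : ∀ x : X, ((ψ x : SL(2, ZMod 2)) : Matrix (Fin 2) (Fin 2) (ZMod 2)) ≠ 1 →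
      q d ≠ q x := by
    intro x hx hdx
    have := hqψ d x hdx
    rw [hψd] at this
    rw [← this, Matrix.SpecialLinearGroup.coe_one] at hx
    exact hx rfl
  rcases mem_six_of_generated (q a) (q b) hqa hqb hqab hqgen (q d) with h | h | h | h | h | h
  · exact hPhD d ((hq1 d).mp h) hdD
  · exact absurd h (hne a (by rw [hψa]; decide))
  · exact absurd h (hne b (by rw [hψb]; decide))
  · rw [← map_mul] at h
    exact absurd h (hne (a * b) (by
      rw [map_mul, Matrix.SpecialLinearGroup.coe_mul, hψa, hψb]; decide))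
  · rw [← map_mul] at h
    exact absurd h (hne (b * a) (by
      rw [map_mul, Matrix.SpecialLinearGroup.coe_mul, hψa, hψb]; decide))
  · rw [← map_mul, ← map_mul] at h
    exact absurd h (hne (a * b * a) (by
      rw [map_mul, map_mul, Matrix.SpecialLinearGroup.coe_mul, Matrix.SpecialLinearGroup.coe_mul,
        hψa, hψb]; decide))

end Main

end Fermat.Agent.ES.MEN.LocalTwo20
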