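import Fermat.Agent.ES.MEN.SL2Quot13
import Fermat.Agent.ES.MEN.RedMod2
import Fermat.Agent.ES.MEN.GoodLoc25
import Fermat.Agent.ES.MEN.AmalgamRange26

set_option autoImplicit false

/-!
# (MEN) for `Γ₀(N)(ℤ[1/q])` and for the ambient group of Ihara's amalgam (helper26, file D6)

Instantiation of `SL2Quot13.Setup` at `A = ZInvQ q` and transport along
`SL(2, ℤ[1/q]) ↪ SL(2, ℚ)` to the group `GamQ N ⊔ GamQ' q N` of `Amalgam11`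
(`AmalgamRange26.G0Q_eq`).  Everything is conditional on part C (`CExt9.Triv N`).
-/

namespace Fermat.Agent.ES.MEN.MenFinal26

open Matrix MatrixGroups
open Fermat.Agent.ES.MEN.SL2Calc13 Fermat.Agent.ES.MEN.ZInvQ26 Fermat.Agent.ES.MEN.SL2Quot13
open Fermat.Agent.ES.MEN.RedMod2 Fermat.Agent.ES.MEN.ElemGen2

variable {q N : ℕ} [hq : Fact q.Prime]

/-- the `Setup` of `SL2Quot13` for `A = ℤ[1/q]`. -/
noncomputable def setup (hN : 0 < N) (hNq : q.Coprime N) {C : Type*} [CommGroup C]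
    (P : ParHom ((N : ℕ) : ZInvQ q) C) (p : ℕ) (hp : Odd p) (hpow : ∀ c : C, c ^ p = 1) :
    Setup (ZInvQ q) ((N : ℕ) : ZInvQ q) C N where
  P := P
  good := GoodLoc25.good_away hq.out hN hNq.symm _
  gen := EE_ZInvQ
  red := red N hNq
  red_surj := red_surjective hNq
  red_ker := red_eq_zero_iff hNq
  p := p
  p_odd := hp
  pow_p := hpow

/-- **(MEN) for `Γ₀(N)(ℤ[1/q])`**, vanishing form. -/
theorem men_ZInvQ (hN : 0 < N) (hNq : q.Coprime N) (hT : CExt9.Triv.{0} N)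
    {C : Type*} [CommGroup C] (P : ParHom ((N : ℕ) : ZInvQ q) C) (p : ℕ) (hp : Odd p)
    (hpow : ∀ c : C, c ^ p = 1) {g : SL2 (ZInvQ q)} (hg : g ∈ GammaN ((N : ℕ) : ZInvQ q)) :
    P.φ g = 1 :=
  (setup hN hNq P p hp hpow).phi_eq_one_of_triv hT hg

/-- **(MEN) for `Γ₀(N)(ℤ[1/q])`**: `φ g` depends only on `g₀₀ mod N`. -/
theorem men_ZInvQ' (hN : 0 < N) (hNq : q.Coprime N) (hT : CExt9.Triv.{0} N)
    {C : Type*} [CommGroup C] (P : ParHom ((N : ℕ) : ZInvQ q) C) (p : ℕ) (hp : Odd p)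
    (hpow : ∀ c : C, c ^ p = 1) {g g' : SL2 (ZInvQ q)} (hg : g ∈ Gamma0 ((N : ℕ) : ZInvQ q))
    (hg' : g' ∈ Gamma0 ((N : ℕ) : ZInvQ q)) (h : red N hNq (g 0 0) = red N hNq (g' 0 0)) :
    P.φ g = P.φ g' :=
  (setup hN hNq P p hp hpow).phi_eq_of_triv hT hg hg' h

/-! ### transport to `SL(2, ℚ)` -/

open Fermat.Agent.ES.MEN.Amalgam11 Fermat.Agent.ES.MEN.AmalgamRange26

variable (q) in
/-- the inclusion `SL(2, ℤ[1/q]) → SL(2, ℚ)`. -/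
def toQ : SL2 (ZInvQ q) →* SL(2,ℚ) := Matrix.SpecialLinearGroup.map (ZInvQ q).subtype

theorem toQ_apply (g : SL2 (ZInvQ q)) (i j : Fin 2) :
    (toQ q g : Matrix (Fin 2) (Fin 2) ℚ) i j = ((g i j : ZInvQ q) : ℚ) := by
  simp [toQ, Matrix.SpecialLinearGroup.map_apply_coe]

theorem toQ_injective : Function.Injective (toQ q) := by
  intro g g' h
  apply ext2 <;> apply Subtype.ext
  · rw [← toQ_apply, ← toQ_apply, h]
  · rw [← toQ_apply, ← toQ_apply, h]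
  · rw [← toQ_apply, ← toQ_apply, h]
  · rw [← toQ_apply, ← toQ_apply, h]

theorem toQ_mem_G0Q_iff (g : SL2 (ZInvQ q)) :
    toQ q g ∈ G0Q q N ↔ g ∈ Gamma0 ((N : ℕ) : ZInvQ q) := by
  rw [mem_G0Q, mem_Gamma0]
  constructor
  · rintro ⟨-, y, hy, hxy⟩
    refine ⟨⟨y, hy⟩, Subtype.ext ?_⟩
    rw [toQ_apply] at hxy
    simp [hxy]
  · rintro ⟨y, hy⟩
    refine ⟨fun i j => ?_, (y : ℚ), y.2, ?_⟩
    · rw [toQ_apply]; exact (g i j).2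
    · rw [toQ_apply, hy]; simp

theorem exists_of_mem_G0Q {x : SL(2,ℚ)} (hx : x ∈ G0Q q N) :
    ∃ g ∈ Gamma0 ((N : ℕ) : ZInvQ q), toQ q g = x := by
  have hx' := hx
  obtain ⟨hent, -⟩ := hx'
  have hdet : (Matrix.of ![![(⟨_, hent 0 0⟩ : ZInvQ q), ⟨_, hent 0 1⟩],
      ![⟨_, hent 1 0⟩, ⟨_, hent 1 1⟩]]).det = 1 := by
    rw [Matrix.det_fin_two_of]
    apply Subtype.ext
    have := x.det_coe
    rw [Matrix.det_fin_two] at this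
    simpa using this
  obtain ⟨g, hg⟩ : ∃ g : SL2 (ZInvQ q), (g : Matrix (Fin 2) (Fin 2) (ZInvQ q)) =
      Matrix.of ![![(⟨_, hent 0 0⟩ : ZInvQ q), ⟨_, hent 0 1⟩],
      ![⟨_, hent 1 0⟩, ⟨_, hent 1 1⟩]] := ⟨⟨_, hdet⟩, rfl⟩
  have hgx : toQ q g = x := by
    ext i j
    rw [toQ_apply]
    have : g i j = (g : Matrix (Fin 2) (Fin 2) (ZInvQ q)) i j := rfl
    rw [this, hg]
    fin_cases i <;> fin_cases j <;> rfl
  refine ⟨g, ?_, hgx⟩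
  rw [← toQ_mem_G0Q_iff (N := N), hgx]
  exact hx

theorem toQ_mem_sup (hNq : ¬ q ∣ N) {g : SL2 (ZInvQ q)}
    (hg : g ∈ Gamma0 ((N : ℕ) : ZInvQ q)) : toQ q g ∈ GamQ N ⊔ GamQ' q N := by
  rw [← G0Q_eq hNq]
  exact (toQ_mem_G0Q_iff g).mpr hg

open Classical in
/-- a homomorphism on the ambient group of the amalgam, killing the elementary matrices of
`Γ₀(N)(ℤ[1/q])`, as a `ParHom`. -/
noncomputable def parHomOfHom (hNq : ¬ q ∣ N) {C : Type*} [CommGroup C]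
    (F : ↥(GamQ N ⊔ GamQ' q N) →* C)
    (hu : ∀ t : ZInvQ q, F ⟨toQ q (u t), toQ_mem_sup hNq (u_mem_Gamma0 _ t)⟩ = 1)
    (hl : ∀ s : ZInvQ q, F ⟨toQ q (l (((N : ℕ) : ZInvQ q) * s)),
      toQ_mem_sup hNq (l_mem_Gamma0 _ s)⟩ = 1) :
    ParHom ((N : ℕ) : ZInvQ q) C where
  φ g := if h : g ∈ Gamma0 ((N : ℕ) : ZInvQ q) then F ⟨toQ q g, toQ_mem_sup hNq h⟩ else 1
  map_mul x y hx hy := by
    rw [dif_pos hx, dif_pos hy, dif_pos (mul_mem hx hy), ← map_mul]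
    congr 1
  map_u t := by
    rw [dif_pos (u_mem_Gamma0 _ t)]
    exact hu t
  map_l s := by
    rw [dif_pos (l_mem_Gamma0 _ s)]
    exact hl s

theorem parHomOfHom_apply (hNq : ¬ q ∣ N) {C : Type*} [CommGroup C]
    (F : ↥(GamQ N ⊔ GamQ' q N) →* C) (hu) (hl) {g : SL2 (ZInvQ q)}
    (hg : g ∈ Gamma0 ((N : ℕ) : ZInvQ q)) :
    (parHomOfHom hNq F hu hl).φ g = F ⟨toQ q g, toQ_mem_sup hNq hg⟩ := by
  simp only [parHomOfHom]
  rw [dif_pos hg]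

/-- **(MEN) for the ambient group of Ihara's amalgam** (conditional on part C): a homomorphism
`F : ⟨Γ₀(N), diag(1,q) Γ₀(N) diag(1,q)⁻¹⟩ → C` (`C` commutative of odd exponent `p`) killing
the upper unipotents `u(t)` and the lower unipotents `l(N s)` (`t, s ∈ ℤ[1/q]`) takes the same
value on two elements whose upper left entries are congruent mod `N ℤ[1/q]`. -/
theorem men_amalgam (hN : 0 < N) (hNq : ¬ q ∣ N) (hT : CExt9.Triv.{0} N)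
    {C : Type*} [CommGroup C] (p : ℕ) (hp : Odd p) (hpow : ∀ c : C, c ^ p = 1)
    (F : ↥(GamQ N ⊔ GamQ' q N) →* C)
    (hu : ∀ t : ZInvQ q, F ⟨toQ q (u t), toQ_mem_sup hNq (u_mem_Gamma0 _ t)⟩ = 1)
    (hl : ∀ s : ZInvQ q, F ⟨toQ q (l (((N : ℕ) : ZInvQ q) * s)),
      toQ_mem_sup hNq (l_mem_Gamma0 _ s)⟩ = 1)
    (x y : ↥(GamQ N ⊔ GamQ' q N))
    (hxy : ∃ c ∈ ZInvQ q, ((x : SL(2,ℚ)) : Matrix (Fin 2) (Fin 2) ℚ) 0 0 -
      ((y : SL(2,ℚ)) : Matrix (Fin 2) (Fin 2) ℚ) 0 0 = N * c) :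
    F x = F y := by
  have hcop : q.Coprime N := (Nat.Prime.coprime_iff_not_dvd hq.out).mpr hNq
  obtain ⟨g, hg, hgx⟩ := exists_of_mem_G0Q (N := N) (by rw [G0Q_eq hNq]; exact x.2)
  obtain ⟨g', hg', hgy⟩ := exists_of_mem_G0Q (N := N) (by rw [G0Q_eq hNq]; exact y.2)
  have key := men_ZInvQ' hN hcop hT (parHomOfHom hNq F hu hl) p hp hpow hg hg' (by
    rw [red_eq_red_iff hcop]
    obtain ⟨c, hc, hxy⟩ := hxy
    refine ⟨⟨c, hc⟩, Subtype.ext ?_⟩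
    rw [← hgx, ← hgy, toQ_apply, toQ_apply] at hxy
    simpa using hxy)
  rw [parHomOfHom_apply hNq F hu hl hg, parHomOfHom_apply hNq F hu hl hg'] at key
  have ex : x = ⟨toQ q g, toQ_mem_sup hNq hg⟩ := Subtype.ext hgx.symm
  have ey : y = ⟨toQ q g', toQ_mem_sup hNq hg'⟩ := Subtype.ext hgy.symm
  rw [ex, ey]
  exact key

/-! ### the hypotheses in terms of `Γ₀(N) ≤ SL(2,ℤ)` only -/

theorem h_mul_u_mul_inv {R : Type*} [CommRing R] (v : Rˣ) (t : R) :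
    h v * u t * (h v)⁻¹ = u ((v : R) ^ 2 * t) := by
  have h1 : (v : R) * ((v⁻¹ : Rˣ) : R) = 1 := by simp
  rw [mul_inv_eq_iff_eq_mul]
  apply ext2 <;> simp only [mul_entry, u_00, u_01, u_10, u_11, h_00, h_01, h_10, h_11]
  · ring
  · linear_combination (-((v : R) * t)) * h1
  · ring
  · ring

/-- `F` as a homomorphism on `Γ₀(N)(ℤ[1/q])`. -/
noncomputable def homA (hNq : ¬ q ∣ N) {C : Type*} [CommGroup C]
    (F : ↥(GamQ N ⊔ GamQ' q N) →* C) : ↥(Gamma0 ((N : ℕ) : ZInvQ q)) →* C where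
  toFun g := F ⟨toQ q g, toQ_mem_sup hNq g.2⟩
  map_one' := by
    have : (⟨toQ q ((1 : ↥(Gamma0 ((N : ℕ) : ZInvQ q))) : SL2 (ZInvQ q)),
        toQ_mem_sup hNq (1 : ↥(Gamma0 ((N : ℕ) : ZInvQ q))).2⟩ : ↥(GamQ N ⊔ GamQ' q N)) = 1 :=
      Subtype.ext (map_one (toQ q))
    rw [this, map_one]
  map_mul' x y := by
    rw [← map_mul]
    congr 1

theorem homA_conj (hNq : ¬ q ∣ N) {C : Type*} [CommGroup C]
    (F : ↥(GamQ N ⊔ GamQ' q N) →* C) (a b : ↥(Gamma0 ((N : ℕ) : ZInvQ q))) :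
    homA hNq F (a * b * a⁻¹) = homA hNq F b := by
  rw [map_mul, map_mul, map_inv, mul_comm, inv_mul_cancel_left]

/-- every `t ∈ ℤ[1/q]` is `m / q ^ (2 j + 1)`. -/
theorem exists_odd_rep (t : ZInvQ q) : ∃ (m : ℤ) (j : ℕ),
    ((qPow q (2 * j + 1) : (ZInvQ q)ˣ) : ZInvQ q) * t = (m : ZInvQ q) := by
  obtain ⟨n, k, hk⟩ := exists_qPow_mul_eq_intCast q t
  rcases Nat.even_or_odd' k with ⟨j, rfl | rfl⟩
  · refine ⟨q * n, j, Subtype.ext ?_⟩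
    have := congrArg (fun z : ZInvQ q => (z : ℚ)) hk
    simp only [Subring.coe_mul, coe_qPow, coe_intCast] at this ⊢
    push_cast
    rw [pow_succ, ← this]; ring
  · exact ⟨n, j, hk⟩

/-- every `t ∈ ℤ[1/q]` is `m / q ^ (2 j)`. -/
theorem exists_even_rep (t : ZInvQ q) : ∃ (m : ℤ) (j : ℕ),
    ((qPow q (2 * j) : (ZInvQ q)ˣ) : ZInvQ q) * t = (m : ZInvQ q) := by
  obtain ⟨n, k, hk⟩ := exists_qPow_mul_eq_intCast q t
  rcases Nat.even_or_odd' k with ⟨j, rfl | rfl⟩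
  · exact ⟨n, j, hk⟩
  · refine ⟨q * n, j + 1, Subtype.ext ?_⟩
    have := congrArg (fun z : ZInvQ q => (z : ℚ)) hk
    simp only [Subring.coe_mul, coe_qPow, coe_intCast] at this ⊢
    push_cast
    rw [show 2 * (j + 1) = (2 * j + 1) + 1 by ring, pow_succ, ← this]; ring

theorem hu_of_int (hNq : ¬ q ∣ N) {C : Type*} [CommGroup C]
    (F : ↥(GamQ N ⊔ GamQ' q N) →* C)
    (hU' : ∀ γ : ↥(CongruenceSubgroup.Gamma0 N),
      ((γ : SL(2,ℤ)) : Matrix (Fin 2) (Fin 2) ℤ) 0 0 = 1 →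
      ((γ : SL(2,ℤ)) : Matrix (Fin 2) (Fin 2) ℤ) 1 0 = 0 →
      ((γ : SL(2,ℤ)) : Matrix (Fin 2) (Fin 2) ℤ) 1 1 = 1 →
      F ⟨twist q (castQ γ), twist_castQ_mem γ⟩ = 1) (t : ZInvQ q) :
    F ⟨toQ q (u t), toQ_mem_sup hNq (u_mem_Gamma0 _ t)⟩ = 1 := by
  obtain ⟨m, j, hm⟩ := exists_odd_rep t
  set v : (ZInvQ q)ˣ := qPow q j with hv
  have h1 := homA_conj hNq F ⟨h v, h_mem_Gamma0 _ v⟩ ⟨u t, u_mem_Gamma0 _ t⟩
  have h2 : homA hNq F ⟨u t, u_mem_Gamma0 _ t⟩ =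
      F ⟨toQ q (u t), toQ_mem_sup hNq (u_mem_Gamma0 _ t)⟩ := rfl
  rw [← h2, ← h1]
  have hγ := mkZ_mem N 1 m 0 1 (by ring) (dvd_zero _)
  have h3 := hU' ⟨mkZ 1 m 0 1 (by ring), hγ⟩ (by simp [coe_mkZ]) (by simp [coe_mkZ])
    (by simp [coe_mkZ])
  rw [← h3]
  show F _ = F _
  congr 1
  apply Subtype.ext
  show toQ q (h v * u t * (h v)⁻¹) = twist q (castQ (mkZ 1 m 0 1 (by ring)))
  rw [h_mul_u_mul_inv]
  have hq0 := q_ne_zero q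
  have hmq : ((q : ℚ) ^ j) ^ 2 * (t : ℚ) = m / q := by
    have := congrArg (fun z : ZInvQ q => (z : ℚ)) hm
    simp only [Subring.coe_mul, coe_qPow, coe_intCast] at this
    rw [eq_div_iff hq0, ← this]; ring
  ext a b
  rw [toQ_apply, twist_apply]
  fin_cases a <;> fin_cases b
  · simp [castQ_apply, coe_mkZ]
  · simp only [Fin.zero_eta, Fin.mk_one, u_01, Subring.coe_mul, Subring.coe_pow, hv, coe_qPow,
      castQ_apply, coe_mkZ, Matrix.of_apply, Matrix.cons_val', Matrix.cons_val_zero,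
      Matrix.cons_val_one, Matrix.cons_val_fin_one]
    exact hmq
  · simp [castQ_apply, coe_mkZ]
  · simp [castQ_apply, coe_mkZ]

theorem hl_of_int (hNq : ¬ q ∣ N) {C : Type*} [CommGroup C]
    (F : ↥(GamQ N ⊔ GamQ' q N) →* C)
    (hL : ∀ γ : ↥(CongruenceSubgroup.Gamma0 N),
      ((γ : SL(2,ℤ)) : Matrix (Fin 2) (Fin 2) ℤ) 0 0 = 1 →
      ((γ : SL(2,ℤ)) : Matrix (Fin 2) (Fin 2) ℤ) 0 1 = 0 →
      ((γ : SL(2,ℤ)) : Matrix (Fin 2) (Fin 2) ℤ) 1 1 = 1 →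
      F ⟨castQ γ, castQ_mem γ⟩ = 1) (s : ZInvQ q) :
    F ⟨toQ q (l (((N : ℕ) : ZInvQ q) * s)), toQ_mem_sup hNq (l_mem_Gamma0 _ s)⟩ = 1 := by
  obtain ⟨m, j, hm⟩ := exists_even_rep s
  set v : (ZInvQ q)ˣ := qPow q j with hv
  have hlm : l (((N : ℕ) : ZInvQ q) * (m : ZInvQ q)) ∈ Gamma0 ((N : ℕ) : ZInvQ q) :=
    l_mem_Gamma0 _ _
  have h1 := homA_conj hNq F ⟨h v, h_mem_Gamma0 _ v⟩ ⟨_, hlm⟩
  have hγ := mkZ_mem N 1 0 ((N : ℤ) * m) 1 (by ring) (Dvd.intro _ rfl)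
  have h3 := hL ⟨mkZ 1 0 ((N : ℤ) * m) 1 (by ring), hγ⟩ (by simp [coe_mkZ]) (by simp [coe_mkZ])
    (by simp [coe_mkZ])
  have h4 : homA hNq F ⟨_, hlm⟩ = 1 := by
    rw [← h3]
    show F _ = F _
    congr 1
    apply Subtype.ext
    show toQ q (l (((N : ℕ) : ZInvQ q) * (m : ZInvQ q))) =
      castQ (mkZ 1 0 ((N : ℤ) * m) 1 (by ring))
    ext a b
    rw [toQ_apply, castQ_apply, coe_mkZ]
    fin_cases a <;> fin_cases b <;> simp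
  rw [h4] at h1
  rw [← h1]
  show F _ = F _
  congr 1
  apply Subtype.ext
  show toQ q (l (((N : ℕ) : ZInvQ q) * s)) =
    toQ q (h v * l (((N : ℕ) : ZInvQ q) * (m : ZInvQ q)) * (h v)⁻¹)
  rw [h_mul_l_mul_inv]
  congr 2
  have e : (v : ZInvQ q) ^ 2 * s = (m : ZInvQ q) := by
    rw [← hm, hv]
    congr 1
    apply Subtype.ext
    simp only [Subring.coe_pow, coe_qPow]
    ring
  have e2 : (v : ZInvQ q) * ((v⁻¹ : (ZInvQ q)ˣ) : ZInvQ q) = 1 := by simp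
  rw [← e]
  linear_combination (-(((N : ℕ) : ZInvQ q) * s) * ((v : ZInvQ q) * ((v⁻¹ : (ZInvQ q)ˣ) : ZInvQ q) + 1)) * e2

/-- **(MEN) for the ambient group of Ihara's amalgam, hypotheses on `Γ₀(N) ≤ SL(2,ℤ)` only**
(conditional on part C): if `F` kills the lower unipotents of `Γ₀(N)` and the upper unipotents of
the twisted copy `diag(1,q) Γ₀(N) diag(1,q)⁻¹`, then `F x` depends only on the upper left
entry of `x` mod `N ℤ[1/q]`. -/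
theorem men_amalgam_int (hN : 0 < N) (hNq : ¬ q ∣ N) (hT : CExt9.Triv.{0} N)
    {C : Type*} [CommGroup C] (p : ℕ) (hp : Odd p) (hpow : ∀ c : C, c ^ p = 1)
    (F : ↥(GamQ N ⊔ GamQ' q N) →* C)
    (hU' : ∀ γ : ↥(CongruenceSubgroup.Gamma0 N),
      ((γ : SL(2,ℤ)) : Matrix (Fin 2) (Fin 2) ℤ) 0 0 = 1 →
      ((γ : SL(2,ℤ)) : Matrix (Fin 2) (Fin 2) ℤ) 1 0 = 0 →
      ((γ : SL(2,ℤ)) : Matrix (Fin 2) (Fin 2) ℤ) 1 1 = 1 →
      F ⟨twist q (castQ γ), twist_castQ_mem γ⟩ = 1)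
    (hL : ∀ γ : ↥(CongruenceSubgroup.Gamma0 N),
      ((γ : SL(2,ℤ)) : Matrix (Fin 2) (Fin 2) ℤ) 0 0 = 1 →
      ((γ : SL(2,ℤ)) : Matrix (Fin 2) (Fin 2) ℤ) 0 1 = 0 →
      ((γ : SL(2,ℤ)) : Matrix (Fin 2) (Fin 2) ℤ) 1 1 = 1 →
      F ⟨castQ γ, castQ_mem γ⟩ = 1)
    (x y : ↥(GamQ N ⊔ GamQ' q N))
    (hxy : ∃ c ∈ ZInvQ q, ((x : SL(2,ℚ)) : Matrix (Fin 2) (Fin 2) ℚ) 0 0 -
      ((y : SL(2,ℚ)) : Matrix (Fin 2) (Fin 2) ℚ) 0 0 = N * c) :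
    F x = F y :=
  men_amalgam hN hNq hT p hp hpow F (hu_of_int hNq F hU') (hl_of_int hNq F hL) x y hxy

end Fermat.Agent.ES.MEN.MenFinal26
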