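import Fermat.Agent.ES.MEN.CExt9

set_option autoImplicit false

/-!
# (MEN), part C2 — the Chinese remainder step

`triv_mul : Nat.Coprime m n → Triv m → Triv n → Triv (m * n)` for the abstract central-extension
theorem of `CExt9`.

Given `E : CExt (m * n) X`, let `Y₁` (resp. `Y₂`) be the subgroup of `X` generated by the
`uh t`, `lh t` with `t ≡ 0` modulo `n` (resp. modulo `m`).  The commutator of a generator of
`Y₁` with a generator of `Y₂` lies in the kernel of `π`, so it is central, hence biadditive in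
the two parameters, hence killed by `m` and by `n`, hence trivial: `Y₁` and `Y₂` commute
elementwise and `X = Y₁ * Y₂`.  The restriction of `E` to `Y₁` is a `CExt m`, and likewise for
`Y₂`, whence the claim.
-/

namespace Fermat.Agent.ES.MEN.TrivMul28

open Matrix Fermat.Agent.ES.MEN.CExt9

open scoped commutatorElement

universe u

/-! ## splittings of `ZMod N` -/

/-- a splitting of `ZMod N` as the product of `ZMod m` and `ZMod n` -/
structure Split (N m n : ℕ) where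
  /-- projection to the first factor -/
  f₁ : ZMod N →+* ZMod m
  /-- projection to the second factor -/
  f₂ : ZMod N →+* ZMod n
  /-- additive section of the first factor -/
  e₁ : ZMod m →+ ZMod N
  /-- additive section of the second factor -/
  e₂ : ZMod n →+ ZMod N
  f₁e₁ : ∀ t, f₁ (e₁ t) = t
  f₂e₁ : ∀ t, f₂ (e₁ t) = 0
  f₁e₂ : ∀ t, f₁ (e₂ t) = 0
  f₂e₂ : ∀ t, f₂ (e₂ t) = t
  inj : ∀ x, f₁ x = 0 → f₂ x = 0 → x = 0
  cop : Nat.Coprime m n

namespace Split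

variable {N m n : ℕ} (S : Split N m n)

/-- exchange the two factors -/
def swap : Split N n m where
  f₁ := S.f₂
  f₂ := S.f₁
  e₁ := S.e₂
  e₂ := S.e₁
  f₁e₁ := S.f₂e₂
  f₂e₁ := S.f₁e₂
  f₁e₂ := S.f₂e₁
  f₂e₂ := S.f₁e₁
  inj := fun x h1 h2 => S.inj x h2 h1
  cop := S.cop.symm

lemma ext {x y : ZMod N} (h1 : S.f₁ x = S.f₁ y) (h2 : S.f₂ x = S.f₂ y) : x = y := by
  have := S.inj (x - y) (by rw [map_sub, h1, sub_self]) (by rw [map_sub, h2, sub_self])
  exact sub_eq_zero.mp this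

lemma decomp (x : ZMod N) : x = S.e₁ (S.f₁ x) + S.e₂ (S.f₂ x) := by
  apply S.ext
  · rw [map_add, S.f₁e₁, S.f₁e₂, add_zero]
  · rw [map_add, S.f₂e₁, S.f₂e₂, zero_add]

lemma e₁_mul_e₂ (s : ZMod m) (t : ZMod n) : S.e₁ s * S.e₂ t = 0 := by
  apply S.ext
  · rw [map_mul, S.f₁e₂, mul_zero, map_zero]
  · rw [map_mul, S.f₂e₁, zero_mul, map_zero]

/-- the lift `(x, 1)` of a unit of the first factor -/
def liftUnit (x : (ZMod m)ˣ) : (ZMod N)ˣ where
  val := S.e₁ x + S.e₂ 1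
  inv := S.e₁ ((x⁻¹ : (ZMod m)ˣ) : ZMod m) + S.e₂ 1
  val_inv := by
    apply S.ext
    · simp only [map_mul, map_add, S.f₁e₁, S.f₁e₂, add_zero, map_one, Units.mul_inv]
    · simp only [map_mul, map_add, S.f₂e₁, S.f₂e₂, zero_add, map_one, mul_one]
  inv_val := by
    apply S.ext
    · simp only [map_mul, map_add, S.f₁e₁, S.f₁e₂, add_zero, map_one, Units.inv_mul]
    · simp only [map_mul, map_add, S.f₂e₁, S.f₂e₂, zero_add, map_one, mul_one]

lemma liftUnit_val (x : (ZMod m)ˣ) : ((S.liftUnit x : (ZMod N)ˣ) : ZMod N) = S.e₁ x + S.e₂ 1 := rfl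

lemma liftUnit_inv (x : (ZMod m)ˣ) :
    (((S.liftUnit x)⁻¹ : (ZMod N)ˣ) : ZMod N) = S.e₁ ((x⁻¹ : (ZMod m)ˣ) : ZMod m) + S.e₂ 1 := rfl

lemma liftUnit_sq_mul (x : (ZMod m)ˣ) (t : ZMod m) :
    ((S.liftUnit x : (ZMod N)ˣ) : ZMod N) ^ 2 * S.e₁ t = S.e₁ ((x : ZMod m) ^ 2 * t) := by
  rw [liftUnit_val]
  apply S.ext
  · simp only [map_mul, map_pow, map_add, S.f₁e₁, S.f₁e₂, add_zero]
  · simp only [map_mul, map_pow, map_add, S.f₂e₁, S.f₂e₂, mul_zero]

lemma liftUnit_inv_sq_mul (x : (ZMod m)ˣ) (t : ZMod m) :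
    (((S.liftUnit x)⁻¹ : (ZMod N)ˣ) : ZMod N) ^ 2 * S.e₁ t
      = S.e₁ (((x⁻¹ : (ZMod m)ˣ) : ZMod m) ^ 2 * t) := by
  rw [liftUnit_inv]
  apply S.ext
  · simp only [map_mul, map_pow, map_add, S.f₁e₁, S.f₁e₂, add_zero]
  · simp only [map_mul, map_pow, map_add, S.f₂e₁, S.f₂e₂, mul_zero]

end Split

/-! ### the splitting given by the Chinese remainder theorem -/

lemma crt_apply {m n : ℕ} (h : Nat.Coprime m n) (x : ZMod (m * n)) :
    ZMod.chineseRemainder h x =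
      (ZMod.castHom (Dvd.intro n rfl) (ZMod m) x,
        ZMod.castHom (Dvd.intro_left m rfl) (ZMod n) x) := by
  have h0 : ZMod.chineseRemainder h x = (ZMod.cast x : ZMod m × ZMod n) := rfl
  rw [h0]
  exact Prod.ext (Prod.fst_zmod_cast x) (Prod.snd_zmod_cast x)

lemma crt_fst {m n : ℕ} (h : Nat.Coprime m n) (y : ZMod m × ZMod n) :
    ZMod.castHom (Dvd.intro n rfl) (ZMod m) ((ZMod.chineseRemainder h).symm y) = y.1 := by
  have h1 := (ZMod.chineseRemainder h).apply_symm_apply y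
  rw [crt_apply] at h1
  exact congrArg Prod.fst h1

lemma crt_snd {m n : ℕ} (h : Nat.Coprime m n) (y : ZMod m × ZMod n) :
    ZMod.castHom (Dvd.intro_left m rfl) (ZMod n) ((ZMod.chineseRemainder h).symm y) = y.2 := by
  have h1 := (ZMod.chineseRemainder h).apply_symm_apply y
  rw [crt_apply] at h1
  exact congrArg Prod.snd h1

lemma crt_inj {m n : ℕ} (h : Nat.Coprime m n) (x : ZMod (m * n))
    (h1 : ZMod.castHom (Dvd.intro n rfl) (ZMod m) x = 0)
    (h2 : ZMod.castHom (Dvd.intro_left m rfl) (ZMod n) x = 0) : x = 0 := by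
  have h3 : ZMod.chineseRemainder h x = 0 := by
    rw [crt_apply, h1, h2]; rfl
  simpa using h3

/-- the splitting of `ZMod (m * n)` for coprime `m`, `n` -/
noncomputable def crtSplit {m n : ℕ} (h : Nat.Coprime m n) : Split (m * n) m n where
  f₁ := ZMod.castHom (Dvd.intro n rfl) (ZMod m)
  f₂ := ZMod.castHom (Dvd.intro_left m rfl) (ZMod n)
  e₁ := ((ZMod.chineseRemainder h).symm : ZMod m × ZMod n →+ ZMod (m * n)).comp
    (AddMonoidHom.inl (ZMod m) (ZMod n))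
  e₂ := ((ZMod.chineseRemainder h).symm : ZMod m × ZMod n →+ ZMod (m * n)).comp
    (AddMonoidHom.inr (ZMod m) (ZMod n))
  f₁e₁ := fun t => crt_fst h (t, 0)
  f₂e₁ := fun t => crt_snd h (t, 0)
  f₁e₂ := fun t => crt_fst h (0, t)
  f₂e₂ := fun t => crt_snd h (0, t)
  inj := crt_inj h
  cop := h

/-! ## commutator calculus -/

section comm

variable {G : Type*} [Group G]

lemma commutatorElement_mul_left_of_central (x y z : G) (hc : ∀ g : G, Commute ⁅y, z⁆ g) :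
    ⁅x * y, z⁆ = ⁅x, z⁆ * ⁅y, z⁆ := by
  have h1 : ⁅x * y, z⁆ = x * ⁅y, z⁆ * x⁻¹ * ⁅x, z⁆ := by
    simp only [commutatorElement_def]; group
  rw [h1, ← (hc x).eq, mul_inv_cancel_right, (hc _).eq]

lemma additive_zero {A : Type*} [AddGroup A] (u : A → G) (hu : ∀ a b, u (a + b) = u a * u b) :
    u 0 = 1 := by
  have h := hu 0 0
  rw [add_zero] at h
  exact (mul_eq_left.mp h.symm)

lemma commutator_pow_eq_one {k : ℕ} (u : ZMod k → G) (hu : ∀ a b, u (a + b) = u a * u b) (z : G)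
    (hc : ∀ a, ∀ g : G, Commute ⁅u a, z⁆ g) (a : ZMod k) : ⁅u a, z⁆ ^ k = 1 := by
  have hu0 : u 0 = 1 := additive_zero u hu
  have key : ∀ j : ℕ, ⁅u (j • a), z⁆ = ⁅u a, z⁆ ^ j := by
    intro j
    induction j with
    | zero => rw [zero_smul, hu0, commutatorElement_one_left, pow_zero]
    | succ j ih =>
      rw [succ_nsmul, hu, commutatorElement_mul_left_of_central _ _ _ (hc a), ih, pow_succ]
  rw [← key k]
  have h0 : (k • a : ZMod k) = 0 := by rw [nsmul_eq_mul, ZMod.natCast_self, zero_mul]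
  rw [h0, hu0, commutatorElement_one_left]

lemma commute_of_coprime {m n : ℕ} (hmn : Nat.Coprime m n) (u : ZMod m → G) (l : ZMod n → G)
    (hu : ∀ a b, u (a + b) = u a * u b) (hl : ∀ a b, l (a + b) = l a * l b)
    (hc : ∀ s t, ∀ g : G, Commute ⁅u s, l t⁆ g) (s : ZMod m) (t : ZMod n) :
    Commute (u s) (l t) := by
  have h1 : ⁅u s, l t⁆ ^ m = 1 := commutator_pow_eq_one u hu (l t) (fun a => hc a t) s
  have h2 : ⁅l t, u s⁆ ^ n = 1 :=
    commutator_pow_eq_one l hl (u s) (fun b g => by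
      rw [← commutatorElement_inv]; exact (hc s b g).inv_left) t
  have h2' : ⁅u s, l t⁆ ^ n = 1 := by rw [← commutatorElement_inv, inv_pow, h2, inv_one]
  have h3 : ⁅u s, l t⁆ ^ (Nat.gcd m n) = 1 := pow_gcd_eq_one.mpr ⟨h1, h2'⟩
  rw [Nat.Coprime.gcd_eq_one hmn, pow_one] at h3
  exact commutatorElement_eq_one_iff_commute.mp h3

end comm

/-! ## elementary matrices -/

section matrices

variable {R : Type*} [CommRing R]

lemma sl_commute_of_mul_eq_zero {g h : SpecialLinearGroup (Fin 2) R} {x y : R}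
    (hg : (g : Matrix (Fin 2) (Fin 2) R) = !![1, x; 0, 1])
    (hh : (h : Matrix (Fin 2) (Fin 2) R) = !![1, 0; y, 1]) (hxy : x * y = 0) : Commute g h := by
  have hyx : y * x = 0 := by rw [mul_comm]; exact hxy
  apply Subtype.ext
  show (g : Matrix (Fin 2) (Fin 2) R) * (h : Matrix (Fin 2) (Fin 2) R)
    = (h : Matrix (Fin 2) (Fin 2) R) * (g : Matrix (Fin 2) (Fin 2) R)
  rw [hg, hh]
  ext i j
  fin_cases i <;> fin_cases j <;> simp [Matrix.mul_apply, Fin.sum_univ_two, hxy, hyx]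

lemma sl_map_eq_one_of_upper {S : Type*} [CommRing S] (f : R →+* S)
    {g : SpecialLinearGroup (Fin 2) R} {x : R}
    (hg : (g : Matrix (Fin 2) (Fin 2) R) = !![1, x; 0, 1]) (hx : f x = 0) :
    SpecialLinearGroup.map f g = 1 := by
  apply Subtype.ext
  rw [SpecialLinearGroup.map_apply_coe, hg, RingHom.mapMatrix_apply]
  ext i j
  fin_cases i <;> fin_cases j <;> simp [hx]

lemma sl_map_eq_one_of_lower {S : Type*} [CommRing S] (f : R →+* S)
    {g : SpecialLinearGroup (Fin 2) R} {x : R}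
    (hg : (g : Matrix (Fin 2) (Fin 2) R) = !![1, 0; x, 1]) (hx : f x = 0) :
    SpecialLinearGroup.map f g = 1 := by
  apply Subtype.ext
  rw [SpecialLinearGroup.map_apply_coe, hg, RingHom.mapMatrix_apply]
  ext i j
  fin_cases i <;> fin_cases j <;> simp [hx]

lemma sl_map_apply {S : Type*} [CommRing S] (f : R →+* S) (g : SpecialLinearGroup (Fin 2) R)
    (i j : Fin 2) :
    (SpecialLinearGroup.map f g : Matrix (Fin 2) (Fin 2) S) i j
      = f ((g : Matrix (Fin 2) (Fin 2) R) i j) := rfl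

end matrices

/-! ## the two commuting subgroups -/

section main

variable {N m n : ℕ} (S : Split N m n) {X : Type u} [Group X] (E : CExt N X)

/-- `π` followed by the projection to the first factor -/
def ρ₁ : X →* SpecialLinearGroup (Fin 2) (ZMod m) := (SpecialLinearGroup.map S.f₁).comp E.π

/-- the subgroup generated by the lifts of the elementary matrices of the first factor -/
def Y₁ : Subgroup X :=
  Subgroup.closure (Set.range (fun t : ZMod m => E.uh (S.e₁ t)) ∪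
    Set.range (fun t : ZMod m => E.lh (S.e₁ t)))

lemma uh_mem_Y₁ (t : ZMod m) : E.uh (S.e₁ t) ∈ Y₁ S E :=
  Subgroup.subset_closure (Or.inl ⟨t, rfl⟩)

lemma lh_mem_Y₁ (t : ZMod m) : E.lh (S.e₁ t) ∈ Y₁ S E :=
  Subgroup.subset_closure (Or.inr ⟨t, rfl⟩)

lemma π_eq_one_iff (x : X) : E.π x = 1 ↔ ρ₁ S E x = 1 ∧ ρ₁ S.swap E x = 1 := by
  constructor
  · intro h
    simp only [ρ₁, MonoidHom.comp_apply, h, map_one, and_self]
  · rintro ⟨h1, h2⟩
    apply Subtype.ext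
    ext i j
    show (E.π x : Matrix (Fin 2) (Fin 2) (ZMod N)) i j = (1 : Matrix (Fin 2) (Fin 2) (ZMod N)) i j
    have h1' : S.f₁ ((E.π x : Matrix (Fin 2) (Fin 2) (ZMod N)) i j)
        = (1 : Matrix (Fin 2) (Fin 2) (ZMod m)) i j :=
      congrArg (fun g : SpecialLinearGroup (Fin 2) (ZMod m) =>
        (g : Matrix (Fin 2) (Fin 2) (ZMod m)) i j) h1
    have h2' : S.f₂ ((E.π x : Matrix (Fin 2) (Fin 2) (ZMod N)) i j)
        = (1 : Matrix (Fin 2) (Fin 2) (ZMod n)) i j :=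
      congrArg (fun g : SpecialLinearGroup (Fin 2) (ZMod n) =>
        (g : Matrix (Fin 2) (Fin 2) (ZMod n)) i j) h2
    apply S.ext
    · rw [h1']
      by_cases hij : i = j
      · subst hij; simp
      · simp [Matrix.one_apply_ne hij]
    · rw [h2']
      by_cases hij : i = j
      · subst hij; simp
      · simp [Matrix.one_apply_ne hij]

/-- elements of `Y₁` are trivial in the second factor -/
lemma Y₁_le_ker : Y₁ S E ≤ (ρ₁ S.swap E).ker := by
  rw [Y₁, Subgroup.closure_le]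
  rintro x (⟨t, rfl⟩ | ⟨t, rfl⟩)
  · exact sl_map_eq_one_of_upper _ (E.π_uh _) (S.f₂e₁ t)
  · exact sl_map_eq_one_of_lower _ (E.π_lh _) (S.f₂e₁ t)

lemma π_eq_one_of_mem {y : X} (hy : y ∈ Y₁ S E) (h : ρ₁ S E y = 1) : E.π y = 1 :=
  (π_eq_one_iff S E y).mpr ⟨h, Y₁_le_ker S E hy⟩

lemma commute_uh_lh (s : ZMod m) (t : ZMod n) : Commute (E.uh (S.e₁ s)) (E.lh (S.e₂ t)) := by
  refine commute_of_coprime S.cop (fun s => E.uh (S.e₁ s)) (fun t => E.lh (S.e₂ t))
    (fun a b => by rw [map_add, E.uh_add]) (fun a b => by rw [map_add, E.lh_add]) ?_ s t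
  intro s t g
  apply E.central
  rw [map_commutatorElement, commutatorElement_eq_one_iff_commute]
  exact sl_commute_of_mul_eq_zero (E.π_uh _) (E.π_lh _) (S.e₁_mul_e₂ s t)

lemma commute_uh_uh (a b : ZMod N) : Commute (E.uh a) (E.uh b) := by
  show E.uh a * E.uh b = E.uh b * E.uh a
  rw [← E.uh_add, ← E.uh_add, add_comm]

lemma commute_lh_lh (a b : ZMod N) : Commute (E.lh a) (E.lh b) := by
  show E.lh a * E.lh b = E.lh b * E.lh a
  rw [← E.lh_add, ← E.lh_add, add_comm]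

/-- the two subgroups commute elementwise -/
lemma commute_Y {y z : X} (hy : y ∈ Y₁ S E) (hz : z ∈ Y₁ S.swap E) : Commute y z := by
  have key : Y₁ S E ≤ Subgroup.centralizer (Y₁ S.swap E : Set X) := by
    rw [Y₁, Subgroup.closure_le]
    intro g hg
    rw [SetLike.mem_coe, Subgroup.mem_centralizer_iff]
    have h2 : Y₁ S.swap E ≤ Subgroup.centralizer {g} := by
      rw [Y₁, Subgroup.closure_le]
      intro k hk
      rw [SetLike.mem_coe, Subgroup.mem_centralizer_iff]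
      intro g' hg'
      rw [Set.mem_singleton_iff] at hg'
      subst hg'
      rcases hg with (⟨s, rfl⟩ | ⟨s, rfl⟩) <;> rcases hk with (⟨t, rfl⟩ | ⟨t, rfl⟩)
      · exact (commute_uh_uh E _ _).eq
      · exact (commute_uh_lh S E s t).eq
      · exact ((commute_uh_lh S.swap E t s).eq).symm
      · exact (commute_lh_lh E _ _).eq
    intro k hk
    have := h2 hk
    rw [Subgroup.mem_centralizer_iff] at this
    exact (this g rfl).symm
  have := key hy
  rw [Subgroup.mem_centralizer_iff] at this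
  exact (this z hz).symm

/-- every element of `X` is a product of an element of `Y₁` and an element of `Y₂` -/
lemma exists_mul (x : X) : ∃ y ∈ Y₁ S E, ∃ z ∈ Y₁ S.swap E, x = y * z := by
  have hx : x ∈ Subgroup.closure (Set.range E.uh ∪ Set.range E.lh) := by
    rw [E.gen]; exact Subgroup.mem_top x
  induction hx using Subgroup.closure_induction with
  | mem x hx =>
    rcases hx with (⟨t, rfl⟩ | ⟨t, rfl⟩)
    · refine ⟨_, uh_mem_Y₁ S E (S.f₁ t), _, uh_mem_Y₁ S.swap E (S.f₂ t), ?_⟩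
      rw [← E.uh_add]
      exact congrArg E.uh (S.decomp t)
    · refine ⟨_, lh_mem_Y₁ S E (S.f₁ t), _, lh_mem_Y₁ S.swap E (S.f₂ t), ?_⟩
      rw [← E.lh_add]
      exact congrArg E.lh (S.decomp t)
  | one => exact ⟨1, Subgroup.one_mem _, 1, Subgroup.one_mem _, (mul_one 1).symm⟩
  | mul x x' _ _ ih ih' =>
    obtain ⟨y, hy, z, hz, rfl⟩ := ih
    obtain ⟨y', hy', z', hz', rfl⟩ := ih'
    refine ⟨y * y', Subgroup.mul_mem _ hy hy', z * z', Subgroup.mul_mem _ hz hz', ?_⟩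
    exact ((commute_Y S E hy' hz).symm).mul_mul_mul_comm y z'
  | inv x _ ih =>
    obtain ⟨y, hy, z, hz, rfl⟩ := ih
    refine ⟨y⁻¹, Subgroup.inv_mem _ hy, z⁻¹, Subgroup.inv_mem _ hz, ?_⟩
    rw [_root_.mul_inv_rev]
    exact ((commute_Y S E hy hz).inv_inv).symm.eq

/-! ## the restricted extension -/

lemma conj_mul_of_commute {G : Type*} [Group G] (w₁ w₂ v : G) (h : Commute w₂ v) :
    (w₁ * w₂) * v * (w₁ * w₂)⁻¹ = w₁ * v * w₁⁻¹ := by
  rw [_root_.mul_inv_rev, mul_assoc w₁ w₂ v, h.eq]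
  group

lemma word_split (x : (ZMod m)ˣ) :
    E.lh (S.e₁ x + S.e₂ 1) * E.uh (-(S.e₁ ((x⁻¹ : (ZMod m)ˣ) : ZMod m) + S.e₂ 1)) *
        E.lh (S.e₁ x + S.e₂ 1)
      = (E.lh (S.e₁ x) * E.uh (S.e₁ (-((x⁻¹ : (ZMod m)ˣ) : ZMod m))) * E.lh (S.e₁ x)) *
        (E.lh (S.e₂ 1) * E.uh (S.e₂ (-1)) * E.lh (S.e₂ 1)) := by
  have h1 : -(S.e₁ ((x⁻¹ : (ZMod m)ˣ) : ZMod m) + S.e₂ 1)
      = S.e₁ (-((x⁻¹ : (ZMod m)ˣ) : ZMod m)) + S.e₂ (-1) := by
    rw [map_neg, map_neg, neg_add]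
  rw [h1, E.lh_add, E.uh_add]
  have c1 : Commute (E.lh (S.e₂ 1)) (E.uh (S.e₁ (-((x⁻¹ : (ZMod m)ˣ) : ZMod m)))) :=
    (commute_Y S E (uh_mem_Y₁ S E _) (lh_mem_Y₁ S.swap E 1)).symm
  have c2 : Commute (E.lh (S.e₂ 1) * E.uh (S.e₂ (-1))) (E.lh (S.e₁ x)) :=
    (commute_Y S E (lh_mem_Y₁ S E x)
      (Subgroup.mul_mem _ (lh_mem_Y₁ S.swap E 1) (uh_mem_Y₁ S.swap E (-1)))).symm
  rw [c1.mul_mul_mul_comm, c2.mul_mul_mul_comm]

lemma word₂_mem :
    E.lh (S.e₂ 1) * E.uh (S.e₂ (-1)) * E.lh (S.e₂ 1) ∈ Y₁ S.swap E :=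
  Subgroup.mul_mem _ (Subgroup.mul_mem _ (lh_mem_Y₁ S.swap E 1) (uh_mem_Y₁ S.swap E (-1)))
    (lh_mem_Y₁ S.swap E 1)

lemma restrict_R1 (x : (ZMod m)ˣ) (t : ZMod m) :
    (E.lh (S.e₁ x) * E.uh (S.e₁ (-((x⁻¹ : (ZMod m)ˣ) : ZMod m))) * E.lh (S.e₁ x)) *
        E.uh (S.e₁ t) *
      (E.lh (S.e₁ x) * E.uh (S.e₁ (-((x⁻¹ : (ZMod m)ˣ) : ZMod m))) * E.lh (S.e₁ x))⁻¹
      = E.lh (S.e₁ (-((x : ZMod m) ^ 2 * t))) := by
  have key := E.R1 (S.liftUnit x) (S.e₁ t)
  rw [S.liftUnit_sq_mul, S.liftUnit_inv, S.liftUnit_val, word_split S E x,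
    conj_mul_of_commute _ _ _ ((commute_Y S E (uh_mem_Y₁ S E t) (word₂_mem S E)).symm),
    ← map_neg] at key
  exact key

lemma restrict_R1' (x : (ZMod m)ˣ) (t : ZMod m) :
    (E.lh (S.e₁ x) * E.uh (S.e₁ (-((x⁻¹ : (ZMod m)ˣ) : ZMod m))) * E.lh (S.e₁ x)) *
        E.lh (S.e₁ t) *
      (E.lh (S.e₁ x) * E.uh (S.e₁ (-((x⁻¹ : (ZMod m)ˣ) : ZMod m))) * E.lh (S.e₁ x))⁻¹
      = E.uh (S.e₁ (-(((x⁻¹ : (ZMod m)ˣ) : ZMod m) ^ 2 * t))) := by
  have key := E.R1' (S.liftUnit x) (S.e₁ t)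
  rw [S.liftUnit_inv_sq_mul, S.liftUnit_inv, S.liftUnit_val, word_split S E x,
    conj_mul_of_commute _ _ _ ((commute_Y S E (lh_mem_Y₁ S E t) (word₂_mem S E)).symm),
    ← map_neg] at key
  exact key

lemma π_apply_eq_zero {y : X} (hy : y ∈ Y₁ S E) {i j : Fin 2} (hij : i ≠ j)
    (h : (ρ₁ S E y : Matrix (Fin 2) (Fin 2) (ZMod m)) i j = 0) :
    (E.π y : Matrix (Fin 2) (Fin 2) (ZMod N)) i j = 0 := by
  apply S.inj
  · exact h
  · have h2 : ρ₁ S.swap E y = 1 := MonoidHom.mem_ker.mp (Y₁_le_ker S E hy)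
    have h3 : S.f₂ ((E.π y : Matrix (Fin 2) (Fin 2) (ZMod N)) i j)
        = (1 : Matrix (Fin 2) (Fin 2) (ZMod n)) i j :=
      congrArg (fun g : SpecialLinearGroup (Fin 2) (ZMod n) =>
        (g : Matrix (Fin 2) (Fin 2) (ZMod n)) i j) h2
    exact h3.trans (Matrix.one_apply_ne hij)

lemma restrict_gen :
    Subgroup.closure
      (Set.range (fun t : ZMod m => (⟨E.uh (S.e₁ t), uh_mem_Y₁ S E t⟩ : ↥(Y₁ S E))) ∪
        Set.range (fun t : ZMod m => (⟨E.lh (S.e₁ t), lh_mem_Y₁ S E t⟩ : ↥(Y₁ S E)))) = ⊤ := by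
  rw [eq_top_iff]
  rintro ⟨y, hy⟩ -
  refine Subgroup.closure_induction
    (p := fun x hx => (⟨x, hx⟩ : ↥(Y₁ S E)) ∈ Subgroup.closure
      (Set.range (fun t : ZMod m => (⟨E.uh (S.e₁ t), uh_mem_Y₁ S E t⟩ : ↥(Y₁ S E))) ∪
        Set.range (fun t : ZMod m => (⟨E.lh (S.e₁ t), lh_mem_Y₁ S E t⟩ : ↥(Y₁ S E)))))
    ?_ ?_ ?_ ?_ hy
  · rintro x (⟨t, rfl⟩ | ⟨t, rfl⟩)
    · exact Subgroup.subset_closure (Or.inl ⟨t, rfl⟩)
    · exact Subgroup.subset_closure (Or.inr ⟨t, rfl⟩)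
  · exact Subgroup.one_mem _
  · intro x y hx hy h1 h2
    exact Subgroup.mul_mem _ h1 h2
  · intro x hx h1
    exact Subgroup.inv_mem _ h1

/-- the restriction of `E` to the subgroup `Y₁` is an extension over the first factor -/
noncomputable def restrict : CExt m ↥(Y₁ S E) where
  π := (ρ₁ S E).comp (Y₁ S E).subtype
  uh := fun t => ⟨E.uh (S.e₁ t), uh_mem_Y₁ S E t⟩
  lh := fun t => ⟨E.lh (S.e₁ t), lh_mem_Y₁ S E t⟩
  uh_add := fun s t => Subtype.ext (by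
    show E.uh (S.e₁ (s + t)) = E.uh (S.e₁ s) * E.uh (S.e₁ t)
    rw [map_add, E.uh_add])
  lh_add := fun s t => Subtype.ext (by
    show E.lh (S.e₁ (s + t)) = E.lh (S.e₁ s) * E.lh (S.e₁ t)
    rw [map_add, E.lh_add])
  π_uh := fun t => by
    show ((SpecialLinearGroup.map S.f₁ (E.π (E.uh (S.e₁ t))) :
      SpecialLinearGroup (Fin 2) (ZMod m)) : Matrix (Fin 2) (Fin 2) (ZMod m)) = !![1, t; 0, 1]
    rw [SpecialLinearGroup.map_apply_coe, E.π_uh, RingHom.mapMatrix_apply]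
    ext i j
    fin_cases i <;> fin_cases j <;> simp [S.f₁e₁]
  π_lh := fun t => by
    show ((SpecialLinearGroup.map S.f₁ (E.π (E.lh (S.e₁ t))) :
      SpecialLinearGroup (Fin 2) (ZMod m)) : Matrix (Fin 2) (Fin 2) (ZMod m)) = !![1, 0; t, 1]
    rw [SpecialLinearGroup.map_apply_coe, E.π_lh, RingHom.mapMatrix_apply]
    ext i j
    fin_cases i <;> fin_cases j <;> simp [S.f₁e₁]
  gen := restrict_gen S E
  central := fun d hd x => Subtype.ext (E.central d (π_eq_one_of_mem S E d.2 hd) x)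
  R1 := fun x t => Subtype.ext (restrict_R1 S E x t)
  R1' := fun x t => Subtype.ext (restrict_R1' S E x t)
  AB := fun a b ha1 ha2 hb1 hb2 => Subtype.ext (E.AB a b
    (π_apply_eq_zero S E a.2 (by decide) ha1) (π_apply_eq_zero S E a.2 (by decide) ha2)
    (π_apply_eq_zero S E b.2 (by decide) hb1) (π_apply_eq_zero S E b.2 (by decide) hb2))
  p := E.p
  p_odd := E.p_odd
  pow_p := fun d hd => Subtype.ext (by
    have := E.pow_p d (π_eq_one_of_mem S E d.2 hd)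
    simpa using this)

end main

/-! ## the theorem -/

theorem triv_split {N m n : ℕ} (S : Split N m n) (h1 : Triv.{u} m) (h2 : Triv.{u} n) :
    Triv.{u} N := by
  intro X _ E d hd
  obtain ⟨y, hy, z, hz, rfl⟩ := exists_mul S E d
  have hd' := (π_eq_one_iff S E (y * z)).mp hd
  have hy2 : ρ₁ S.swap E y = 1 := MonoidHom.mem_ker.mp (Y₁_le_ker S E hy)
  have hz1 : ρ₁ S E z = 1 := MonoidHom.mem_ker.mp (Y₁_le_ker S.swap E hz)
  have hy1 : ρ₁ S E y = 1 := by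
    have := hd'.1
    rwa [map_mul, hz1, mul_one] at this
  have hz2 : ρ₁ S.swap E z = 1 := by
    have := hd'.2
    rwa [map_mul, hy2, one_mul] at this
  have e1 : (⟨y, hy⟩ : ↥(Y₁ S E)) = 1 := h1 _ (restrict S E) ⟨y, hy⟩ hy1
  have e2 : (⟨z, hz⟩ : ↥(Y₁ S.swap E)) = 1 := h2 _ (restrict S.swap E) ⟨z, hz⟩ hz2
  have e1' : y = 1 := congrArg Subtype.val e1
  have e2' : z = 1 := congrArg Subtype.val e2
  rw [e1', e2', mul_one]

set_option linter.unusedVariables false in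
/-- **CRT step** of the abstract central-extension theorem. -/
theorem triv_mul {m n : ℕ} (hm : 0 < m) (hn : 0 < n) (h : Nat.Coprime m n) :
    Triv.{u} m → Triv.{u} n → Triv.{u} (m * n) :=
  fun h1 h2 => triv_split (crtSplit h) h1 h2

end Fermat.Agent.ES.MEN.TrivMul28
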