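/-
(MEN), file C, piece (C4): `Triv (2 ^ e)` against the interface `CExt9` (helper20).
-/
import Fermat.Agent.ES.MEN.CExt9
import Fermat.Agent.ES.MEN.LocalTwo20

namespace Fermat.Agent.ES.MEN.TrivTwoPow20

open Fermat.Agent.ES.MEN.CExt9 Fermat.Agent.ES.MEN.LocalTwo20 Matrix MatrixGroups

universe u

/-- In a central extension as in `CExt9`, the kernel of `π` is finite of odd order as soon as
`N ≠ 0`: it is a finite-index subgroup of a finitely generated group (Schreier), abelian and
of odd exponent. -/
theorem ker_finite_odd {N : ℕ} [NeZero N] {X : Type u} [Group X] (E : CExt N X) :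
    Finite E.π.ker ∧ Odd (Nat.card E.π.ker) := by
  classical
  have hfg : Group.FG X :=
    Group.fg_iff.mpr ⟨_, E.gen, (Set.finite_range _).union (Set.finite_range _)⟩
  have hfi : E.π.ker.FiniteIndex := Subgroup.finiteIndex_ker E.π
  have hfgk : Group.FG E.π.ker := Subgroup.fg_of_index_ne_zero E.π.ker
  let _ : CommGroup E.π.ker :=
    { (inferInstance : Group E.π.ker) with
      mul_comm := fun a b => Subtype.ext (E.central a.1 a.2 b.1) }
  have hppos : 0 < E.p := E.p_odd.pos
  have hpow : ∀ g : E.π.ker, g ^ E.p = 1 := fun g => Subtype.ext (by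
    simpa using E.pow_p g.1 g.2)
  have htors : IsMulTorsion E.π.ker := fun g =>
    isOfFinOrder_iff_pow_eq_one.mpr ⟨E.p, hppos, hpow g⟩
  have hfin : Finite E.π.ker := CommGroup.finite_of_fg_isMulTorsion (G := E.π.ker) htors
  refine ⟨hfin, ?_⟩
  by_contra hodd
  rw [Nat.not_odd_iff_even] at hodd
  have h2 : 2 ∣ Nat.card E.π.ker := hodd.two_dvd
  have : Fact (Nat.Prime 2) := ⟨Nat.prime_two⟩
  obtain ⟨x, hx⟩ := exists_prime_orderOf_dvd_card' (G := E.π.ker) 2 h2
  have : orderOf x ∣ E.p := orderOf_dvd_of_pow_eq_one (hpow x)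
  rw [hx] at this
  exact (Nat.not_even_iff_odd.mpr E.p_odd) (even_iff_two_dvd.mpr this)

/-- **(C4)** the case `N = 2 ^ e` of the abstract central-extension theorem. -/
theorem triv_two_pow (e : ℕ) : Triv.{u} (2 ^ e) := by
  intro X _ E d hd
  rcases Nat.eq_zero_or_pos e with rfl | he
  · -- `ZMod 1` is trivial, so `X` is trivial
    have hss : Subsingleton (ZMod (2 ^ 0)) := by
      change Subsingleton (ZMod 1); infer_instance
    have hu0 : E.uh 0 = 1 := by
      have := E.uh_add 0 0
      rw [add_zero] at this
      exact (mul_eq_left).mp this.symm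
    have hl0 : E.lh 0 = 1 := by
      have := E.lh_add 0 0
      rw [add_zero] at this
      exact (mul_eq_left).mp this.symm
    have hle : Subgroup.closure (Set.range E.uh ∪ Set.range E.lh) ≤ ⊥ := by
      rw [Subgroup.closure_le]
      rintro x (⟨t, rfl⟩ | ⟨t, rfl⟩)
      · rw [Subsingleton.elim t 0, hu0]; exact Subgroup.one_mem _
      · rw [Subsingleton.elim t 0, hl0]; exact Subgroup.one_mem _
    have hdmem : d ∈ Subgroup.closure (Set.range E.uh ∪ Set.range E.lh) := by
      rw [E.gen]; trivial
    exact Subgroup.mem_bot.mp (hle hdmem)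
  · have hNZ : NeZero (2 ^ e) := ⟨by positivity⟩
    obtain ⟨hfin, hodd⟩ := ker_finite_odd E
    let uh' : Multiplicative (ZMod (2 ^ e)) →* X :=
      { toFun := fun t => E.uh (Multiplicative.toAdd t)
        map_one' := by
          have := E.uh_add 0 0
          rw [add_zero] at this
          exact (mul_eq_left).mp this.symm
        map_mul' := fun s t => E.uh_add _ _ }
    let lh' : Multiplicative (ZMod (2 ^ e)) →* X :=
      { toFun := fun t => E.lh (Multiplicative.toAdd t)
        map_one' := by
          have := E.lh_add 0 0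
          rw [add_zero] at this
          exact (mul_eq_left).mp this.symm
        map_mul' := fun s t => E.lh_add _ _ }
    have hru : Set.range uh' = Set.range E.uh := by
      ext x; constructor
      · rintro ⟨t, rfl⟩; exact ⟨Multiplicative.toAdd t, rfl⟩
      · rintro ⟨t, rfl⟩; exact ⟨Multiplicative.ofAdd t, rfl⟩
    have hrl : Set.range lh' = Set.range E.lh := by
      ext x; constructor
      · rintro ⟨t, rfl⟩; exact ⟨Multiplicative.toAdd t, rfl⟩
      · rintro ⟨t, rfl⟩; exact ⟨Multiplicative.ofAdd t, rfl⟩
    have hinj := injective_of_two_pow e he E.π uh' lh'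
      (fun t => E.π_uh t) (fun t => E.π_lh t)
      (by rw [hru, hrl]; exact E.gen)
      (fun g hg => Subgroup.mem_center_iff.mpr fun x => (E.central g hg x).symm)
      hfin hodd
    exact hinj (hd.trans (map_one _).symm)

end Fermat.Agent.ES.MEN.TrivTwoPow20
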