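import Fermat.Agent.ES.MEN.OddPrimePow9
import Fermat.Agent.ES.MEN.TrivTwoPow20
import Fermat.Agent.ES.MEN.TrivMul28

set_option autoImplicit false

namespace Fermat.Agent.ES.MEN.CExt9

universe u

/-- `N = 1`: the group is generated by `uh 0 = lh 0 = 1`. -/
theorem triv_one : Triv.{u} 1 := by
  intro X _ E d _
  have hsub : Subsingleton (ZMod 1) := by
    change Subsingleton (Fin 1); infer_instance
  have hd : d ∈ Subgroup.closure (Set.range E.uh ∪ Set.range E.lh) := by
    rw [E.gen]; exact Subgroup.mem_top d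
  have hle : Subgroup.closure (Set.range E.uh ∪ Set.range E.lh) ≤ ⊥ := by
    rw [Subgroup.closure_le]
    rintro x (⟨t, rfl⟩ | ⟨t, rfl⟩)
    · rw [Subsingleton.elim t 0, E.uh_zero]; exact Subgroup.mem_bot.mpr rfl
    · rw [Subsingleton.elim t 0, E.lh_zero]; exact Subgroup.mem_bot.mpr rfl
  exact Subgroup.mem_bot.mp (hle hd)

/-- **part C of (MEN)**, modulo the CRT step. -/
theorem triv_of_mul
    (hmul : ∀ {m n : ℕ}, 0 < m → 0 < n → Nat.Coprime m n → Triv.{u} m → Triv.{u} n →
      Triv.{u} (m * n)) (N : ℕ) (hN : 0 < N) : Triv.{u} N := by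
  induction N using Nat.recOnPosPrimePosCoprime with
  | prime_pow p n hp hn =>
    by_cases h2 : p = 2
    · subst h2; exact TrivTwoPow20.triv_two_pow n
    · exact triv_odd_prime_pow p n hp h2 hn
  | zero => exact absurd hN (lt_irrefl 0)
  | one => exact triv_one
  | coprime a b ha hb hab iha ihb =>
    exact hmul (by omega) (by omega) hab (iha (by omega)) (ihb (by omega))

/-- **part C of (MEN)**: every central extension datum `CExt N X` (`N ≥ 1`) has trivial kernel. -/
theorem triv (N : ℕ) (hN : 0 < N) : Triv.{u} N :=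
  triv_of_mul (fun hm hn h => TrivMul28.triv_mul hm hn h) N hN

end Fermat.Agent.ES.MEN.CExt9
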