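import Fermat.Agent.ES.MEN.MenFinal26
import Fermat.Agent.ES.MEN.Triv9

set_option autoImplicit false

/-!
# (MEN), unconditional (helper26)

`Triv9.triv` (part C: helper9, helper20, helper28, helper25) plugged into `MenFinal26`.
-/

namespace Fermat.Agent.ES.MEN.MenMain26

open Matrix MatrixGroups
open Fermat.Agent.ES.MEN.SL2Calc13 Fermat.Agent.ES.MEN.ZInvQ26
open Fermat.Agent.ES.MEN.Amalgam11 Fermat.Agent.ES.MEN.MenFinal26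

variable {q N : ℕ} [hq : Fact q.Prime]

/-- **(MEN)** for `Γ₀(N)(ℤ[1/q])`: a map `φ`, multiplicative on `Γ₀(N)(ℤ[1/q])`, with values in a
commutative group of odd exponent `p`, killing `u(t)` and `l(N s)`, is trivial on `Γ(N)(ℤ[1/q])`. -/
theorem men (hN : 0 < N) (hNq : q.Coprime N) {C : Type*} [CommGroup C]
    (P : ParHom ((N : ℕ) : ZInvQ q) C) (p : ℕ) (hp : Odd p) (hpow : ∀ c : C, c ^ p = 1)
    {g : SL2 (ZInvQ q)} (hg : g ∈ GammaN ((N : ℕ) : ZInvQ q)) : P.φ g = 1 :=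
  men_ZInvQ hN hNq (CExt9.triv N hN) P p hp hpow hg

/-- **(MEN)**: on `Γ₀(N)(ℤ[1/q])` the value `φ g` depends only on `g₀₀ mod N`. -/
theorem men' (hN : 0 < N) (hNq : q.Coprime N) {C : Type*} [CommGroup C]
    (P : ParHom ((N : ℕ) : ZInvQ q) C) (p : ℕ) (hp : Odd p) (hpow : ∀ c : C, c ^ p = 1)
    {g g' : SL2 (ZInvQ q)} (hg : g ∈ Gamma0 ((N : ℕ) : ZInvQ q))
    (hg' : g' ∈ Gamma0 ((N : ℕ) : ZInvQ q)) (h : red N hNq (g 0 0) = red N hNq (g' 0 0)) :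
    P.φ g = P.φ g' :=
  men_ZInvQ' hN hNq (CExt9.triv N hN) P p hp hpow hg hg' h

/-- **(MEN) for the ambient group of Ihara's amalgam** `⟨Γ₀(N), diag(1,q) Γ₀(N) diag(1,q)⁻¹⟩`
(`q ∤ N`): a homomorphism to a commutative group of odd exponent which kills the lower unipotents
of `Γ₀(N)` and the upper unipotents of the twisted copy depends only on the upper left entry
mod `N ℤ[1/q]`. -/
theorem men_amalgam_main (hN : 0 < N) (hNq : ¬ q ∣ N)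
    {C : Type*} [CommGroup C] (p : ℕ) (hp : Odd p) (hpow : ∀ c : C, c ^ p = 1)
    (F : ↥(GamQ N ⊔ GamQ' q N) →* C)
    (hU' : ∀ γ : ↥(CongruenceSubgroup.Gamma0 N),
      ((γ : SL(2,ℤ)) : Matrix (Fin 2) (Fin 2) ℤ) 0 0 = 1 →
      ((γ : SL(2,ℤ)) : Matrix (Fin 2) (Fin 2) ℤ) 1 0 = 0 →
      ((γ : SL(2,ℤ)) : Matrix (Fin 2) (Fin 2) ℤ) 1 1 = 1 →
      F ⟨twist q (castQ γ), twist_castQ_mem γ⟩ = 1)
    (hL : ∀ γ : ↥(CongruenceSubgroup.Gamma0 N),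
      ((γ : SL(2,ℤ)) : Matrix (Fin 2) (Fin 2) ℤ) 0 0 = 1 →
      ((γ : SL(2,ℤ)) : Matrix (Fin 2) (Fin 2) ℤ) 0 1 = 0 →
      ((γ : SL(2,ℤ)) : Matrix (Fin 2) (Fin 2) ℤ) 1 1 = 1 →
      F ⟨castQ γ, castQ_mem γ⟩ = 1)
    (x y : ↥(GamQ N ⊔ GamQ' q N))
    (hxy : ∃ c ∈ ZInvQ q, ((x : SL(2,ℚ)) : Matrix (Fin 2) (Fin 2) ℚ) 0 0 -
      ((y : SL(2,ℚ)) : Matrix (Fin 2) (Fin 2) ℚ) 0 0 = N * c) :
    F x = F y :=
  men_amalgam_int hN hNq (CExt9.triv N hN) p hp hpow F hU' hL x y hxy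

end Fermat.Agent.ES.MEN.MenMain26
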