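import Fermat.Agent.ES.MEN.MenFinal26
import Fermat.Agent.ES.MEN.Triv9

set_option autoImplicit false

/-!
# (MEN): the congruence subgroup property with `𝔽_p`-coefficients for `Γ₀(N)(ℤ[1/q])`, unconditional

`MenFinal26` (helper26) proves all forms of (MEN) conditionally on part C, `CExt9.Triv N`;
`Triv9.triv` (helper9, helper20, helper28) proves part C.  This file only combines the two.
See `MEN_PROOF9.md` for the paper proof.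
-/

namespace Fermat.Agent.ES.MEN.MenMain9

open Matrix MatrixGroups
open Fermat.Agent.ES.MEN.SL2Calc13 Fermat.Agent.ES.MEN.ZInvQ26 Fermat.Agent.ES.MEN.SL2Quot13
open Fermat.Agent.ES.MEN.RedMod2 Fermat.Agent.ES.MEN.ElemGen2
open Fermat.Agent.ES.MEN.Amalgam11 Fermat.Agent.ES.MEN.AmalgamRange26
open Fermat.Agent.ES.MEN.MenFinal26

variable {q N : ℕ} [hq : Fact q.Prime]

/-- **(MEN) for `Γ₀(N)(ℤ[1/q])`**, vanishing form: a partial homomorphism on `Γ₀(N)(ℤ[1/q])` to a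
commutative group of odd exponent which kills `u(t)` and `l(N s)` is trivial on `Γ(N)(ℤ[1/q])`. -/
theorem men_ZInvQ (hN : 0 < N) (hNq : q.Coprime N)
    {C : Type*} [CommGroup C] (P : ParHom ((N : ℕ) : ZInvQ q) C) (p : ℕ) (hp : Odd p)
    (hpow : ∀ c : C, c ^ p = 1) {g : SL2 (ZInvQ q)} (hg : g ∈ GammaN ((N : ℕ) : ZInvQ q)) :
    P.φ g = 1 :=
  MenFinal26.men_ZInvQ hN hNq (CExt9.triv N hN) P p hp hpow hg

/-- **(MEN) for `Γ₀(N)(ℤ[1/q])`**: `φ g` depends only on `g₀₀ mod N`. -/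
theorem men_ZInvQ' (hN : 0 < N) (hNq : q.Coprime N)
    {C : Type*} [CommGroup C] (P : ParHom ((N : ℕ) : ZInvQ q) C) (p : ℕ) (hp : Odd p)
    (hpow : ∀ c : C, c ^ p = 1) {g g' : SL2 (ZInvQ q)} (hg : g ∈ Gamma0 ((N : ℕ) : ZInvQ q))
    (hg' : g' ∈ Gamma0 ((N : ℕ) : ZInvQ q)) (h : red N hNq (g 0 0) = red N hNq (g' 0 0)) :
    P.φ g = P.φ g' :=
  MenFinal26.men_ZInvQ' hN hNq (CExt9.triv N hN) P p hp hpow hg hg' h

/-- **(MEN) for the ambient group of Ihara's amalgam**. -/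
theorem men_amalgam (hN : 0 < N) (hNq : ¬ q ∣ N)
    {C : Type*} [CommGroup C] (p : ℕ) (hp : Odd p) (hpow : ∀ c : C, c ^ p = 1)
    (F : ↥(GamQ N ⊔ GamQ' q N) →* C)
    (hu : ∀ t : ZInvQ q, F ⟨toQ q (u t), toQ_mem_sup hNq (u_mem_Gamma0 _ t)⟩ = 1)
    (hl : ∀ s : ZInvQ q, F ⟨toQ q (l (((N : ℕ) : ZInvQ q) * s)),
      toQ_mem_sup hNq (l_mem_Gamma0 _ s)⟩ = 1)
    (x y : ↥(GamQ N ⊔ GamQ' q N))
    (hxy : ∃ c ∈ ZInvQ q, ((x : SL(2,ℚ)) : Matrix (Fin 2) (Fin 2) ℚ) 0 0 -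
      ((y : SL(2,ℚ)) : Matrix (Fin 2) (Fin 2) ℚ) 0 0 = N * c) :
    F x = F y :=
  MenFinal26.men_amalgam hN hNq (CExt9.triv N hN) p hp hpow F hu hl x y hxy

/-- **(MEN) for the ambient group of Ihara's amalgam, hypotheses on `Γ₀(N) ≤ SL(2,ℤ)` only**:
if `F : ⟨Γ₀(N), diag(1,q) Γ₀(N) diag(1,q)⁻¹⟩ → C` (`C` commutative of odd exponent) kills the
lower unipotents of `Γ₀(N)` and the upper unipotents of the twisted copy, then `F x` depends only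
on the upper left entry of `x` mod `N ℤ[1/q]`. -/
theorem men_amalgam_int (hN : 0 < N) (hNq : ¬ q ∣ N)
    {C : Type*} [CommGroup C] (p : ℕ) (hp : Odd p) (hpow : ∀ c : C, c ^ p = 1)
    (F : ↥(GamQ N ⊔ GamQ' q N) →* C)
    (hU' : ∀ γ : ↥(CongruenceSubgroup.Gamma0 N),
      ((γ : SL(2,ℤ)) : Matrix (Fin 2) (Fin 2) ℤ) 0 0 = 1 →
      ((γ : SL(2,ℤ)) : Matrix (Fin 2) (Fin 2) ℤ) 1 0 = 0 →
      ((γ : SL(2,ℤ)) : Matrix (Fin 2) (Fin 2) ℤ) 1 1 = 1 →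
      F ⟨twist q (castQ γ), twist_castQ_mem γ⟩ = 1)
    (hL : ∀ γ : ↥(CongruenceSubgroup.Gamma0 N),
      ((γ : SL(2,ℤ)) : Matrix (Fin 2) (Fin 2) ℤ) 0 0 = 1 →
      ((γ : SL(2,ℤ)) : Matrix (Fin 2) (Fin 2) ℤ) 0 1 = 0 →
      ((γ : SL(2,ℤ)) : Matrix (Fin 2) (Fin 2) ℤ) 1 1 = 1 →
      F ⟨castQ γ, castQ_mem γ⟩ = 1)
    (x y : ↥(GamQ N ⊔ GamQ' q N))
    (hxy : ∃ c ∈ ZInvQ q, ((x : SL(2,ℚ)) : Matrix (Fin 2) (Fin 2) ℚ) 0 0 -
      ((y : SL(2,ℚ)) : Matrix (Fin 2) (Fin 2) ℚ) 0 0 = N * c) :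
    F x = F y :=
  MenFinal26.men_amalgam_int hN hNq (CExt9.triv N hN) p hp hpow F hU' hL x y hxy

end Fermat.Agent.ES.MEN.MenMain9
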