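import Fermat.Agent.ES.MEN.Steinberg9

set_option autoImplicit false

/-!
# (MEN), part C1: the odd prime power case (Bruhat count)
-/

namespace Fermat.Agent.ES.MEN.CExt9

universe u

section LocalRing

variable {l e : ℕ}

theorem isUnit_or_dvd (hl : l.Prime) (t : ZMod (l ^ e)) :
    IsUnit t ∨ (l : ZMod (l ^ e)) ∣ t := by
  have : NeZero (l ^ e) := ⟨(pow_pos hl.pos e).ne'⟩
  rw [← ZMod.natCast_zmod_val t]
  by_cases h : l ∣ t.val
  · right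
    exact Nat.cast_dvd_cast h
  · left
    rw [ZMod.isUnit_iff_coprime]
    exact Nat.Coprime.pow_right e ((Nat.Prime.coprime_iff_not_dvd hl).mpr h).symm

theorem not_isUnit_l (hl : l.Prime) (he : 0 < e) : ¬ IsUnit (l : ZMod (l ^ e)) := by
  rw [ZMod.isUnit_iff_coprime]
  intro h
  have h1 : l ∣ Nat.gcd l (l ^ e) := Nat.dvd_gcd dvd_rfl (dvd_pow_self l he.ne')
  rw [h] at h1
  exact hl.one_lt.ne' (Nat.dvd_one.mp h1)

theorem isUnit_of_not_dvd (hl : l.Prime) {t : ZMod (l ^ e)} (h : ¬ (l : ZMod (l ^ e)) ∣ t) :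
    IsUnit t := (isUnit_or_dvd hl t).resolve_right h

theorem not_dvd_of_isUnit (hl : l.Prime) (he : 0 < e) {t : ZMod (l ^ e)} (h : IsUnit t) :
    ¬ (l : ZMod (l ^ e)) ∣ t := by
  intro hd
  exact not_isUnit_l hl he (isUnit_of_dvd_unit hd h)

theorem isUnit_one_add_mul (hl : l.Prime) (he : 0 < e) {s : ZMod (l ^ e)}
    (hs : (l : ZMod (l ^ e)) ∣ s) (t : ZMod (l ^ e)) : IsUnit (1 + s * t) := by
  apply isUnit_of_not_dvd hl
  intro hd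
  have h1 : (l : ZMod (l ^ e)) ∣ 1 + s * t - s * t := dvd_sub hd (Dvd.dvd.mul_right hs t)
  rw [add_sub_cancel_right] at h1
  exact not_isUnit_l hl he (isUnit_of_dvd_one h1)

/-- units `≡ 1 (l)` are squares (`l` odd). -/
theorem isSquare_of_dvd_sub_one (hl : l.Prime) (hl2 : l ≠ 2) (he : 0 < e) (x : (ZMod (l ^ e))ˣ)
    (hx : (l : ZMod (l ^ e)) ∣ (x : ZMod (l ^ e)) - 1) : IsSquare x := by
  obtain ⟨e', rfl⟩ : ∃ e', e = e' + 1 := ⟨e - 1, by omega⟩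
  have h1 := dvd_sub_pow_of_dvd_sub hx e'
  have h0 : ((l : ZMod (l ^ (e' + 1))) ^ (e' + 1)) = 0 := by
    have : ((l ^ (e' + 1) : ℕ) : ZMod (l ^ (e' + 1))) = 0 := ZMod.natCast_self _
    rw [← this]; push_cast; rfl
  rw [h0, zero_dvd_iff, one_pow, sub_eq_zero] at h1
  have h2 : x ^ l ^ e' = 1 := by
    apply Units.ext
    simpa using h1
  have hodd : Odd (l ^ e') := (hl.eq_two_or_odd'.resolve_left hl2).pow
  obtain ⟨k, hk⟩ := hodd
  refine ⟨x ^ (k + 1), ?_⟩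
  rw [← pow_add]
  have : k + 1 + (k + 1) = l ^ e' + 1 := by omega
  rw [this]
  have h3 : x ^ (l ^ e' + 1) = x ^ (l ^ e') * x := pow_succ x _
  rw [h3, h2, one_mul]

theorem isSquare_mul_of_not_isSquare {G : Type*} [CommGroup G] [IsCyclic G] {a b : G}
    (ha : ¬ IsSquare a) (hb : ¬ IsSquare b) : IsSquare (a * b) := by
  obtain ⟨g, hg⟩ := IsCyclic.exists_generator (α := G)
  obtain ⟨i, rfl⟩ := Subgroup.mem_zpowers_iff.mp (hg a)
  obtain ⟨j, rfl⟩ := Subgroup.mem_zpowers_iff.mp (hg b)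
  have hi : Odd i := by
    rw [← Int.not_even_iff_odd]
    rintro ⟨k, hk⟩
    exact ha ⟨g ^ k, by rw [hk, zpow_add]⟩
  have hj : Odd j := by
    rw [← Int.not_even_iff_odd]
    rintro ⟨k, hk⟩
    exact hb ⟨g ^ k, by rw [hk, zpow_add]⟩
  obtain ⟨k, hk⟩ := hi.add_odd hj
  exact ⟨g ^ k, by rw [← zpow_add, hk, zpow_add]⟩

/-- a non-square unit `x` with `x - 1` a square unit. -/
theorem exists_nonsq_sub_one_sq (hl : l.Prime) (hl2 : l ≠ 2) (he : 0 < e)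
    (hns : ∃ x : (ZMod (l ^ e))ˣ, ¬ IsSquare x) :
    ∃ x y : (ZMod (l ^ e))ˣ, ¬ IsSquare x ∧ IsSquare y ∧ (y : ZMod (l ^ e)) = x - 1 := by
  classical
  have : NeZero (l ^ e) := ⟨(pow_pos hl.pos e).ne'⟩
  let P : ℕ → Prop := fun n => ∃ x : (ZMod (l ^ e))ˣ, (x : ZMod (l ^ e)) = n ∧ ¬ IsSquare x
  have hP : ∃ n, P n := by
    obtain ⟨x, hx⟩ := hns
    exact ⟨(x : ZMod (l ^ e)).val, x, (ZMod.natCast_zmod_val _).symm, hx⟩
  obtain ⟨x, hxn, hxns⟩ := Nat.find_spec hP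
  set n₀ := Nat.find hP with hn₀
  have hn₀pos : 1 ≤ n₀ := by
    rcases Nat.eq_zero_or_pos n₀ with h | h
    · exfalso
      rw [h, Nat.cast_zero] at hxn
      have := x.isUnit
      rw [hxn] at this
      have h0 : IsUnit (0 : ZMod (l ^ e)) := this
      rw [isUnit_zero_iff] at h0
      have h1 : (1 : ZMod (l ^ e)) = 0 := h0.symm
      have : ((1 : ℕ) : ZMod (l ^ e)) = 0 := by simpa using h1
      rw [ZMod.natCast_eq_zero_iff] at this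
      have := Nat.le_of_dvd Nat.one_pos this
      have : 1 < l ^ e := Nat.one_lt_pow he.ne' hl.one_lt
      omega
    · exact h
  -- `n₀ - 1` is prime to `l`
  have hnd : ¬ (l : ZMod (l ^ e)) ∣ ((n₀ - 1 : ℕ) : ZMod (l ^ e)) := by
    intro hd
    apply hxns
    apply isSquare_of_dvd_sub_one hl hl2 he
    rw [hxn]
    have : ((n₀ - 1 : ℕ) : ZMod (l ^ e)) = (n₀ : ZMod (l ^ e)) - 1 := by
      rw [Nat.cast_sub hn₀pos]; simp
    rwa [this] at hd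
  have hu : IsUnit ((n₀ - 1 : ℕ) : ZMod (l ^ e)) := isUnit_of_not_dvd hl hnd
  obtain ⟨y, hy⟩ := hu
  refine ⟨x, y, hxns, ?_, ?_⟩
  · by_contra hys
    have : P (n₀ - 1) := ⟨y, hy, hys⟩
    have := Nat.find_min' hP this
    omega
  · rw [hy, hxn, Nat.cast_sub hn₀pos]; simp

end LocalRing


namespace CExt

variable {l e : ℕ} {X : Type u} [Group X] (E : CExt (l ^ e) X)

theorem hh_mul_of_isSquare (a : (ZMod (l ^ e))ˣ) {b : (ZMod (l ^ e))ˣ} (hb : IsSquare b) :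
    E.hh (a * b) = E.hh a * E.hh b := by
  obtain ⟨z, rfl⟩ := hb
  have := E.hh_mul_sq a z
  rwa [pow_two] at this

/-- for `l` odd, `hh` is a homomorphism. -/
theorem hh_mul (hl : l.Prime) (hl2 : l ≠ 2) (he : 0 < e) (a b : (ZMod (l ^ e))ˣ) :
    E.hh (a * b) = E.hh a * E.hh b := by
  by_cases hb : IsSquare b
  · exact E.hh_mul_of_isSquare a hb
  by_cases ha : IsSquare a
  · rw [mul_comm a b, E.hh_mul_of_isSquare b ha, E.hh_comm]
  have : IsCyclic (ZMod (l ^ e))ˣ := ZMod.isCyclic_units_of_prime_pow l hl hl2 e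
  obtain ⟨x, y, hx, hy, hyx⟩ := exists_nonsq_sub_one_sq hl hl2 he ⟨a, ha⟩
  have hst := E.hh_steinberg (-x) (-y) (by
    rw [Units.val_neg, Units.val_neg, hyx]; ring)
  rw [neg_neg, inv_neg, neg_neg, neg_mul_neg] at hst
  -- hst : hh y = hh x⁻¹ * hh (x * y)
  have hxi : ¬ IsSquare x⁻¹ := by
    rintro ⟨z, hz⟩
    exact hx ⟨z⁻¹, by rw [← mul_inv, ← hz, inv_inv]⟩
  have hxy : ¬ IsSquare (x * y) := by
    rintro ⟨z, hz⟩
    obtain ⟨s, hs⟩ := hy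
    exact hx ⟨z * s⁻¹, by
      have : x = x * y * y⁻¹ := by rw [mul_inv_cancel_right]
      rw [this, hz, hs, mul_inv]; exact mul_mul_mul_comm z z s⁻¹ s⁻¹⟩
  have hxyi : ¬ IsSquare (x * y)⁻¹ := by
    rintro ⟨z, hz⟩
    exact hxy ⟨z⁻¹, by rw [← mul_inv, ← hz, inv_inv]⟩
  obtain ⟨s₁, hs₁⟩ : ∃ s₁, a = x⁻¹ * s₁ ∧ IsSquare s₁ :=
    ⟨a * x, by rw [mul_comm a x, inv_mul_cancel_left], isSquare_mul_of_not_isSquare ha hx⟩
  obtain ⟨s₂, hs₂⟩ : ∃ s₂, b = (x * y) * s₂ ∧ IsSquare s₂ :=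
    ⟨b * (x * y)⁻¹, by rw [mul_comm b, mul_inv_cancel_left],
      isSquare_mul_of_not_isSquare hb hxyi⟩
  have e1 : a * b = y * (s₁ * s₂) := by
    rw [hs₁.1, hs₂.1]
    calc x⁻¹ * s₁ * (x * y * s₂) = (x⁻¹ * x) * y * (s₁ * s₂) := by
          simp only [mul_assoc, mul_left_comm, mul_comm]
      _ = y * (s₁ * s₂) := by rw [inv_mul_cancel, one_mul]
  rw [e1, E.hh_mul_of_isSquare y (hs₁.2.mul hs₂.2), E.hh_mul_of_isSquare s₁ hs₂.2, hst, hs₁.1,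
    hs₂.1, E.hh_mul_of_isSquare _ hs₁.2, E.hh_mul_of_isSquare _ hs₂.2]
  -- commute
  have c := E.hh_comm (x * y) s₁
  calc E.hh x⁻¹ * E.hh (x * y) * (E.hh s₁ * E.hh s₂)
      = E.hh x⁻¹ * (E.hh (x * y) * E.hh s₁) * E.hh s₂ := by group
    _ = E.hh x⁻¹ * (E.hh s₁ * E.hh (x * y)) * E.hh s₂ := by rw [c]
    _ = E.hh x⁻¹ * E.hh s₁ * (E.hh (x * y) * E.hh s₂) := by group


/-! ### the Bruhat count -/

/-- the lifted Borel subgroup, as a predicate. -/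
def InBh (x : X) : Prop := ∃ (b : ZMod (l ^ e)) (v : (ZMod (l ^ e))ˣ), x = E.uh b * E.hh v

theorem inBh_one : E.InBh 1 := ⟨0, 1, by rw [E.uh_zero, E.hh_one, one_mul]⟩

theorem inBh_uh (b : ZMod (l ^ e)) : E.InBh (E.uh b) := ⟨b, 1, by rw [E.hh_one, mul_one]⟩

theorem inBh_hh (v : (ZMod (l ^ e))ˣ) : E.InBh (E.hh v) := ⟨0, v, by rw [E.uh_zero, one_mul]⟩

theorem inBh_mul (hl : l.Prime) (hl2 : l ≠ 2) (he : 0 < e) {x y : X} (hx : E.InBh x)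
    (hy : E.InBh y) : E.InBh (x * y) := by
  obtain ⟨b, v, rfl⟩ := hx
  obtain ⟨b', v', rfl⟩ := hy
  refine ⟨b + ((v⁻¹ : (ZMod (l ^ e))ˣ) : ZMod (l ^ e)) ^ 2 * b', v * v', ?_⟩
  rw [E.hh_mul hl hl2 he, E.uh_add]
  calc E.uh b * E.hh v * (E.uh b' * E.hh v')
      = E.uh b * (E.hh v * E.uh b') * E.hh v' := by group
    _ = E.uh b * (E.uh (((v⁻¹ : (ZMod (l ^ e))ˣ) : ZMod (l ^ e)) ^ 2 * b') * E.hh v) * E.hh v' := by
        rw [E.hh_mul_uh]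
    _ = _ := by group

theorem hh_neg_one_sq (hl : l.Prime) (hl2 : l ≠ 2) (he : 0 < e) :
    E.hh (-1) * E.hh (-1) = 1 := by
  rw [← E.hh_mul hl hl2 he]; simp [E.hh_one]

theorem w_mul_w_eq (hl : l.Prime) (hl2 : l ≠ 2) (he : 0 < e) : E.w * E.w = E.hh (-1) := by
  rw [E.w_mul_w, inv_eq_iff_mul_eq_one, E.hh_neg_one_sq hl hl2 he]

/-- the union of the two Bruhat cells, as a predicate. -/
def InS (x : X) : Prop :=
  (∃ (β : X) (t : ZMod (l ^ e)), E.InBh β ∧ x = β * E.w * E.uh t) ∨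
  (∃ (β : X) (s : ZMod (l ^ e)), E.InBh β ∧ (l : ZMod (l ^ e)) ∣ s ∧ x = β * E.lh s)

theorem inS_one : E.InS 1 :=
  Or.inr ⟨1, 0, E.inBh_one, dvd_zero _, by rw [E.lh_zero, one_mul]⟩

/-- (Q): `lh s * uh t'` for `s` in the maximal ideal and `t'` a unit. -/
theorem lh_mul_uh_unit_mem (hl : l.Prime) (hl2 : l ≠ 2) (he : 0 < e) {s : ZMod (l ^ e)}
    (hs : (l : ZMod (l ^ e)) ∣ s) (t' : (ZMod (l ^ e))ˣ) :
    ∃ (β : X) (s' : ZMod (l ^ e)), E.InBh β ∧ (l : ZMod (l ^ e)) ∣ s' ∧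
      E.lh s * E.uh t' = β * E.lh s' := by
  obtain ⟨r, hr⟩ := isUnit_one_add_mul hl he hs (t' : ZMod (l ^ e))
  have h := E.lh_mul_uh_unit s t' r hr
  refine ⟨E.uh ((t' : ZMod (l ^ e)) * ((r⁻¹ : (ZMod (l ^ e))ˣ) : ZMod (l ^ e))) *
    (E.m (-t'⁻¹) * E.m (t'⁻¹ * r⁻¹)), s * ((r⁻¹ : (ZMod (l ^ e))ˣ) : ZMod (l ^ e)), ?_,
    Dvd.dvd.mul_right hs _, h⟩
  apply E.inBh_mul hl hl2 he (E.inBh_uh _)
  rw [E.m_mul_m, E.w_mul_w_eq hl hl2 he, ← E.hh_mul hl hl2 he, ← E.hh_mul hl hl2 he]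
  exact E.inBh_hh _

/-- (Q'): `lh s * uh t'` for `s` in the maximal ideal and arbitrary `t'`. -/
theorem lh_mul_uh_mem (hl : l.Prime) (hl2 : l ≠ 2) (he : 0 < e) {s : ZMod (l ^ e)}
    (hs : (l : ZMod (l ^ e)) ∣ s) (t' : ZMod (l ^ e)) :
    ∃ (β : X) (s' : ZMod (l ^ e)), E.InBh β ∧ (l : ZMod (l ^ e)) ∣ s' ∧
      E.lh s * E.uh t' = β * E.lh s' := by
  rcases isUnit_or_dvd hl t' with ⟨u, rfl⟩ | hd
  · exact E.lh_mul_uh_unit_mem hl hl2 he hs u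
  · -- split `t' = (t' - 1) + 1`
    have hu1 : IsUnit (t' - 1) := by
      have := isUnit_one_add_mul hl he (Dvd.dvd.neg_right hd) (1 : ZMod (l ^ e))
      have e1 : t' - 1 = -(1 + -t' * 1) := by ring
      rw [e1]; exact this.neg
    obtain ⟨u₁, hu₁⟩ := hu1
    obtain ⟨β₁, s₁, hβ₁, hs₁, h₁⟩ := E.lh_mul_uh_unit_mem hl hl2 he hs u₁
    obtain ⟨β₂, s₂, hβ₂, hs₂, h₂⟩ := E.lh_mul_uh_unit_mem hl hl2 he hs₁ (1 : (ZMod (l ^ e))ˣ)
    refine ⟨β₁ * β₂, s₂, E.inBh_mul hl hl2 he hβ₁ hβ₂, hs₂, ?_⟩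
    have e2 : E.uh t' = E.uh u₁ * E.uh ((1 : (ZMod (l ^ e))ˣ) : ZMod (l ^ e)) := by
      rw [← E.uh_add, hu₁]; congr 1; simp
    calc E.lh s * E.uh t' = (E.lh s * E.uh u₁) * E.uh ((1 : (ZMod (l ^ e))ˣ) : ZMod (l ^ e)) := by
          rw [e2]; group
      _ = β₁ * (E.lh s₁ * E.uh ((1 : (ZMod (l ^ e))ˣ) : ZMod (l ^ e))) := by rw [h₁]; group
      _ = β₁ * β₂ * E.lh s₂ := by rw [h₂]; group

/-- (K1). -/
theorem inS_mul_uh (hl : l.Prime) (hl2 : l ≠ 2) (he : 0 < e) {x : X} (hx : E.InS x)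
    (t' : ZMod (l ^ e)) : E.InS (x * E.uh t') := by
  rcases hx with ⟨β, t, hβ, rfl⟩ | ⟨β, s, hβ, hs, rfl⟩
  · exact Or.inl ⟨β, t + t', hβ, by rw [E.uh_add]; group⟩
  · obtain ⟨β', s', hβ', hs', h⟩ := E.lh_mul_uh_mem hl hl2 he hs t'
    exact Or.inr ⟨β * β', s', E.inBh_mul hl hl2 he hβ hβ', hs', by rw [mul_assoc, h]; group⟩

/-- (K2). -/
theorem inS_mul_w (hl : l.Prime) (hl2 : l ≠ 2) (he : 0 < e) {x : X} (hx : E.InS x) :
    E.InS (x * E.w) := by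
  rcases hx with ⟨β, t, hβ, rfl⟩ | ⟨β, s, hβ, hs, rfl⟩
  · -- β w uh t w = β lh(-t) (w w) = β lh(-t) hh(-1)
    have h1 : β * E.w * E.uh t * E.w = β * E.lh (-t) * E.hh (-1) := by
      rw [← E.w_mul_w_eq hl hl2 he]
      calc β * E.w * E.uh t * E.w = β * (E.w * E.uh t) * E.w := by group
        _ = β * (E.lh (-t) * E.w) * E.w := by rw [E.w_mul_uh]
        _ = _ := by group
    have hc : E.lh (-t) * E.hh (-1) = E.hh (-1) * E.lh (-t) := by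
      have := E.hh_mul_lh (-1) (-t)
      rw [this]; congr 2; simp
    rw [h1, mul_assoc, hc, ← mul_assoc]
    have hβ' : E.InBh (β * E.hh (-1)) := E.inBh_mul hl hl2 he hβ (E.inBh_hh _)
    rcases isUnit_or_dvd hl (-t) with ⟨τ, hτ⟩ | hd
    · left
      rw [← hτ, E.lh_unit τ, E.m_eq_hh_mul_w]
      refine ⟨β * E.hh (-1) * E.uh ((τ⁻¹ : (ZMod (l ^ e))ˣ) : ZMod (l ^ e)) * E.hh τ,
        ((τ⁻¹ : (ZMod (l ^ e))ˣ) : ZMod (l ^ e)),
        E.inBh_mul hl hl2 he (E.inBh_mul hl hl2 he hβ' (E.inBh_uh _)) (E.inBh_hh _), ?_⟩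
      group
    · right
      exact ⟨β * E.hh (-1), -t, hβ', hd, rfl⟩
  · left
    refine ⟨β, -s, hβ, ?_⟩
    have : E.lh s * E.w = E.w * E.uh (-s) := by
      have h := E.winv_mul_lh s
      calc E.lh s * E.w = E.w * (E.w⁻¹ * E.lh s) * E.w := by group
        _ = E.w * (E.uh (-s) * E.w⁻¹) * E.w := by rw [h]
        _ = _ := by group
    rw [mul_assoc, this]; group

/-- (K3). -/
theorem inS_mul_winv (hl : l.Prime) (hl2 : l ≠ 2) (he : 0 < e) {x : X} (hx : E.InS x) :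
    E.InS (x * E.w⁻¹) := by
  have h4 : E.w⁻¹ = E.w * E.w * E.w := by
    have h2 := E.w_mul_w_eq hl hl2 he
    have h3 := E.hh_neg_one_sq hl hl2 he
    rw [← h2] at h3
    -- (w w)(w w) = 1
    calc E.w⁻¹ = E.w⁻¹ * (E.w * E.w * (E.w * E.w)) := by rw [h3, mul_one]
      _ = _ := by group
  rw [h4, ← mul_assoc, ← mul_assoc]
  exact E.inS_mul_w hl hl2 he (E.inS_mul_w hl hl2 he (E.inS_mul_w hl hl2 he hx))

/-- (K4). -/
theorem inS_mul_lh (hl : l.Prime) (hl2 : l ≠ 2) (he : 0 < e) {x : X} (hx : E.InS x)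
    (t' : ZMod (l ^ e)) : E.InS (x * E.lh t') := by
  have h : E.lh t' = E.w * E.uh (-t') * E.w⁻¹ := by
    have := E.w_mul_uh (-t')
    rw [neg_neg] at this
    rw [this]; group
  rw [h, ← mul_assoc, ← mul_assoc]
  exact E.inS_mul_winv hl hl2 he (E.inS_mul_uh hl hl2 he (E.inS_mul_w hl hl2 he hx) _)

theorem inS_all (hl : l.Prime) (hl2 : l ≠ 2) (he : 0 < e) (x : X) : E.InS x := by
  have hx : x ∈ Subgroup.closure (Set.range E.uh ∪ Set.range E.lh) := by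
    rw [E.gen]; exact Subgroup.mem_top x
  induction hx using Subgroup.closure_induction_right with
  | one => exact E.inS_one
  | mul_right x _ y hy ih =>
    rcases hy with ⟨t, rfl⟩ | ⟨t, rfl⟩
    · exact E.inS_mul_uh hl hl2 he ih t
    · exact E.inS_mul_lh hl hl2 he ih t
  | mul_inv_cancel x _ y hy ih =>
    rcases hy with ⟨t, rfl⟩ | ⟨t, rfl⟩
    · rw [← E.uh_neg]; exact E.inS_mul_uh hl hl2 he ih _
    · rw [← E.lh_neg]; exact E.inS_mul_lh hl hl2 he ih _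

end CExt

/-- **(C1)** the odd prime power case. -/
theorem triv_odd_prime_pow (l e : ℕ) (hl : l.Prime) (hl2 : l ≠ 2) (he : 0 < e) :
    Triv.{u} (l ^ e) := by
  intro X _ E d hd
  have hnt : Nontrivial (ZMod (l ^ e)) :=
    ZMod.nontrivial_iff.mpr (Nat.one_lt_pow he.ne' hl.one_lt).ne'
  have hd' : (E.π d : Matrix (Fin 2) (Fin 2) (ZMod (l ^ e))) = 1 := by rw [hd]; rfl
  rcases E.inS_all hl hl2 he d with ⟨β, t, ⟨b, v, rfl⟩, rfl⟩ | ⟨β, s, ⟨b, v, rfl⟩, -, rfl⟩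
  · exfalso
    have h10 := congrFun (congrFun hd' 1) 0
    rw [E.π_mul_coe, E.π_mul_coe, E.π_mul_coe, E.π_uh, E.π_uh, E.π_hh, E.π_w] at h10
    simp [Matrix.mul_apply, Fin.sum_univ_two] at h10
  · have h11 := congrFun (congrFun hd' 1) 1
    have h01 := congrFun (congrFun hd' 0) 1
    have h10 := congrFun (congrFun hd' 1) 0
    rw [E.π_mul_coe, E.π_mul_coe, E.π_uh, E.π_lh, E.π_hh] at h11 h01 h10
    simp [Matrix.mul_apply, Fin.sum_univ_two] at h11 h01 h10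
    subst h11
    have hb : b = 0 := by simpa using h01
    have hs : s = 0 := by simpa using h10
    rw [hb, hs, E.uh_zero, E.lh_zero, E.hh_one]; simp

end Fermat.Agent.ES.MEN.CExt9
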