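/-
(MEN), generic-ring half of the final assembly (helper13), on top of file B (`SL2Calc13`) and the
interface of part C (`CExt9`).

Input (`structure Setup A N C n`): a commutative ring `A`, `N : A`, a partial homomorphism
`P : ParHom N C` (multiplicative on `Γ₀(N)(A)`, killing `u(A)` and `l(N A)`), the arithmetic contract
`Good N`, elementary generation `closure (range u ∪ range l) = ⊤` of `SL(2, A)`, a surjective ring
homomorphism `red : A →+* ZMod n` with kernel `N A`, and an odd `p` with `c ^ p = 1` on `C`.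

Output: `K = {g ∈ Γ(N)(A) | φ g = 1}` is normal in `SL(2, A)`; `X = SL(2, A) ⧸ K` with
`pi : X →* SL(2, ZMod n)`, `uh`, `lh` is a `CExt9.CExt n X` (`Setup.cext`: generation, centrality,
the Steinberg relations (R1), (R1') from Theorem R, (AB), exponent `p`); hence
`Setup.phi_eq_one_of_triv : Triv n → ∀ g ∈ Γ(N)(A), φ g = 1` and the (MEN) shape
`Setup.phi_eq_of_triv : Triv n → g, g' ∈ Γ₀(N)(A) → red (g 0 0) = red (g' 0 0) → φ g = φ g'`.
-/
import Mathlib
import Fermat.Agent.ES.MEN.SL2Calc13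
import Fermat.Agent.ES.MEN.CExt9

set_option autoImplicit false

namespace Fermat.Agent.ES.MEN.SL2Quot13

open Matrix Fermat.Agent.ES.MEN.SL2Calc13

universe u v

/-- an additive family in a group sends integer multiples to powers. -/
theorem map_intCast_mul_of_add {R G : Type*} [Ring R] [Group G] (f : R → G)
    (hf : ∀ s t, f (s + t) = f s * f t) (m : ℤ) (t : R) : f (m * t) = f t ^ m := by
  let F : R →+ Additive G :=
    AddMonoidHom.mk' (fun r => Additive.ofMul (f r)) (fun a b => congrArg Additive.ofMul (hf a b))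
  have h1 := map_zsmul F m t
  rw [zsmul_eq_mul] at h1
  have h2 : Additive.ofMul (f (m * t)) = m • Additive.ofMul (f t) := h1
  rw [← ofMul_zpow] at h2
  exact Additive.ofMul.injective h2

variable {A : Type u} [CommRing A] {N : A} {C : Type v} [CommGroup C]

theorem map_entry {B : Type*} [CommRing B] (f : A →+* B) (g : SL2 A) (i j : Fin 2) :
    (Matrix.SpecialLinearGroup.map f g : SL2 B) i j = f (g i j) := by
  simp [Matrix.SpecialLinearGroup.map_apply_coe]

theorem map_u {B : Type*} [CommRing B] (f : A →+* B) (t : A) :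
    Matrix.SpecialLinearGroup.map f (u t) = u (f t) := by
  apply ext2 <;> simp [map_entry]

theorem map_l {B : Type*} [CommRing B] (f : A →+* B) (t : A) :
    Matrix.SpecialLinearGroup.map f (l t) = l (f t) := by
  apply ext2 <;> simp [map_entry]

/-- `φ` is conjugation invariant on `Γ(N)` -/
def ConjInv (P : ParHom N C) : Prop :=
  ∀ (y g : SL2 A), g ∈ GammaN N → P.φ (y * g * y⁻¹) = P.φ g

theorem phi_pow (P : ParHom N C) {x : SL2 A} (hx : x ∈ Gamma0 N) (m : ℕ) :
    P.φ (x ^ m) = P.φ x ^ m := by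
  induction m with
  | zero => simp [P.map_one]
  | succ k ih =>
    rw [pow_succ, pow_succ, P.map_mul _ _ (pow_mem hx k) hx, ih]

/-- the kernel `K = {g ∈ Γ(N) | φ g = 1}` -/
def K (P : ParHom N C) : Subgroup (SL2 A) where
  carrier := {g | g ∈ GammaN N ∧ P.φ g = 1}
  one_mem' := ⟨one_mem _, P.map_one⟩
  mul_mem' := by
    rintro x y ⟨hx, hx1⟩ ⟨hy, hy1⟩
    refine ⟨mul_mem hx hy, ?_⟩
    rw [P.map_mul _ _ (GammaN_le_Gamma0 N hx) (GammaN_le_Gamma0 N hy), hx1, hy1, one_mul]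
  inv_mem' := by
    rintro x ⟨hx, hx1⟩
    refine ⟨inv_mem hx, ?_⟩
    rw [P.map_inv (GammaN_le_Gamma0 N hx), hx1, inv_one]

theorem mem_K {P : ParHom N C} {g : SL2 A} : g ∈ K P ↔ g ∈ GammaN N ∧ P.φ g = 1 := Iff.rfl

theorem K_normal (P : ParHom N C) (hinv : ConjInv P) : (K P).Normal := by
  constructor
  rintro g ⟨hg, hg1⟩ y
  have nm := (inferInstance : (GammaN N).Normal)
  exact ⟨nm.conj_mem _ hg y, by rw [hinv y g hg, hg1]⟩

/-- the data of the generic assembly. -/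
structure Setup (A : Type u) [CommRing A] (N : A) (C : Type v) [CommGroup C] (n : ℕ) where
  P : ParHom N C
  good : Good N
  gen : Subgroup.closure (Set.range (u : A → SL2 A) ∪ Set.range (l : A → SL2 A)) = ⊤
  red : A →+* ZMod n
  red_surj : Function.Surjective red
  red_ker : ∀ a, red a = 0 ↔ N ∣ a
  p : ℕ
  p_odd : Odd p
  pow_p : ∀ c : C, c ^ p = 1

namespace Setup

variable {n : ℕ} (S : Setup A N C n)

theorem dvd_sub_of_red_eq {a b : A} (h : S.red a = S.red b) : N ∣ a - b := by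
  rw [← S.red_ker, map_sub, h, sub_self]

theorem exists_int (S : Setup A N C n) (t : A) : ∃ (m : ℤ) (s : A), t = m + N * s := by
  have h : S.red t = S.red (((S.red t).cast : ℤ) : A) := by
    rw [map_intCast, ZMod.intCast_zmod_cast]
  obtain ⟨s, hs⟩ := S.dvd_sub_of_red_eq h
  exact ⟨(S.red t).cast, s, by linear_combination hs⟩

theorem gen' (S : Setup A N C n) : Subgroup.closure ((Gamma0 N : Set (SL2 A)) ∪ {l 1}) = ⊤ := by
  rw [eq_top_iff, ← S.gen, Subgroup.closure_le]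
  rintro g (⟨t, rfl⟩ | ⟨t, rfl⟩)
  · exact Subgroup.subset_closure (Or.inl (u_mem_Gamma0 N t))
  · obtain ⟨m, s, rfl⟩ := S.exists_int t
    rw [l_add]
    refine mul_mem ?_ (Subgroup.subset_closure (Or.inl (l_mem_Gamma0 N s)))
    have := map_intCast_mul_of_add (l : A → SL2 A) l_add m 1
    rw [mul_one] at this
    rw [this]
    have h1 : (l 1 : SL2 A) ∈ Subgroup.closure ((Gamma0 N : Set (SL2 A)) ∪ {l 1}) :=
      Subgroup.subset_closure (Or.inr rfl)
    exact Subgroup.zpow_mem _ h1 m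

theorem conjInv : ConjInv S.P := by
  intro y g hg
  exact S.P.phi_conj_of_mem_closure S.good (by rw [S.gen']; trivial) g hg

instance : (K S.P).Normal := K_normal S.P S.conjInv

theorem map_red_eq_one_iff (g : SL2 A) :
    Matrix.SpecialLinearGroup.map S.red g = 1 ↔ g ∈ GammaN N := by
  rw [mem_GammaN]
  constructor
  · intro hg
    have e : ∀ i j, S.red (g i j) = (1 : SL2 (ZMod n)) i j := by
      intro i j
      rw [← map_entry, hg]
    refine ⟨?_, ?_, ?_, ?_⟩
    · rw [← S.red_ker, map_sub, e 0 0]; simp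
    · rw [← S.red_ker, e 0 1]; simp
    · rw [← S.red_ker, e 1 0]; simp
    · rw [← S.red_ker, map_sub, e 1 1]; simp
  · rintro ⟨h00, h01, h10, h11⟩
    rw [← S.red_ker] at h00 h01 h10 h11
    rw [map_sub, sub_eq_zero] at h00 h11
    apply ext2 <;> simp [map_entry, h00, h01, h10, h11]

/-- the quotient group `SL(2, A) ⧸ K`. -/
abbrev X : Type u := SL2 A ⧸ K S.P

/-- the projection. -/
def pi : S.X →* SL2 (ZMod n) :=
  QuotientGroup.lift (K S.P) (Matrix.SpecialLinearGroup.map S.red)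
    (fun g hg => (S.map_red_eq_one_iff g).mpr hg.1)

theorem pi_mk (g : SL2 A) : S.pi (QuotientGroup.mk g) = Matrix.SpecialLinearGroup.map S.red g := rfl


theorem mk_eq_mk_iff {g g' : SL2 A} :
    (QuotientGroup.mk g : S.X) = QuotientGroup.mk g' ↔ g⁻¹ * g' ∈ K S.P := QuotientGroup.eq

/-- the lift of a residue. -/
noncomputable def lift (t : ZMod n) : A := Function.surjInv S.red_surj t

theorem red_lift (t : ZMod n) : S.red (S.lift t) = t := Function.surjInv_eq S.red_surj t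

/-- upper unipotents in the quotient. -/
noncomputable def uh (t : ZMod n) : S.X := QuotientGroup.mk (u (S.lift t))

/-- lower unipotents in the quotient. -/
noncomputable def lh (t : ZMod n) : S.X := QuotientGroup.mk (l (S.lift t))

theorem mk_u_eq_of_red_eq {a b : A} (h : S.red a = S.red b) :
    (QuotientGroup.mk (u a) : S.X) = QuotientGroup.mk (u b) := by
  rw [S.mk_eq_mk_iff, ← u_neg, ← u_add]
  obtain ⟨c, hc⟩ := S.dvd_sub_of_red_eq h.symm
  have : -a + b = N * c := by linear_combination hc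
  rw [this]
  exact ⟨u_mem_GammaN N c, S.P.map_u _⟩

theorem mk_l_eq_of_red_eq {a b : A} (h : S.red a = S.red b) :
    (QuotientGroup.mk (l a) : S.X) = QuotientGroup.mk (l b) := by
  rw [S.mk_eq_mk_iff, ← l_neg, ← l_add]
  obtain ⟨c, hc⟩ := S.dvd_sub_of_red_eq h.symm
  have : -a + b = N * c := by linear_combination hc
  rw [this]
  exact ⟨l_mem_GammaN N c, S.P.map_l _⟩

theorem mk_u (a : A) : (QuotientGroup.mk (u a) : S.X) = S.uh (S.red a) :=
  S.mk_u_eq_of_red_eq (S.red_lift _).symm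

theorem mk_l (a : A) : (QuotientGroup.mk (l a) : S.X) = S.lh (S.red a) :=
  S.mk_l_eq_of_red_eq (S.red_lift _).symm

theorem uh_add (s t : ZMod n) : S.uh (s + t) = S.uh s * S.uh t := by
  have h1 : S.uh s * S.uh t = QuotientGroup.mk (u (S.lift s + S.lift t)) := by
    rw [u_add]; rfl
  rw [h1, S.mk_u, map_add, S.red_lift, S.red_lift]

theorem lh_add (s t : ZMod n) : S.lh (s + t) = S.lh s * S.lh t := by
  have h1 : S.lh s * S.lh t = QuotientGroup.mk (l (S.lift s + S.lift t)) := by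
    rw [l_add]; rfl
  rw [h1, S.mk_l, map_add, S.red_lift, S.red_lift]

theorem pi_uh (t : ZMod n) : S.pi (S.uh t) = u t := by
  rw [uh, pi_mk, map_u, S.red_lift]

theorem pi_lh (t : ZMod n) : S.pi (S.lh t) = l t := by
  rw [lh, pi_mk, map_l, S.red_lift]

theorem gen_X : Subgroup.closure (Set.range S.uh ∪ Set.range S.lh) = ⊤ := by
  rw [eq_top_iff]
  rintro x -
  obtain ⟨g, rfl⟩ := QuotientGroup.mk_surjective x
  have hg : g ∈ Subgroup.closure (Set.range (u : A → SL2 A) ∪ Set.range (l : A → SL2 A)) := by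
    rw [S.gen]; trivial
  have := Subgroup.mem_map_of_mem (QuotientGroup.mk' (K S.P)) hg
  rw [MonoidHom.map_closure] at this
  refine Subgroup.closure_mono ?_ this
  rintro _ ⟨y, (⟨t, rfl⟩ | ⟨t, rfl⟩), rfl⟩
  · exact Or.inl ⟨S.red t, (S.mk_u t).symm⟩
  · exact Or.inr ⟨S.red t, (S.mk_l t).symm⟩

theorem pi_eq_one_iff (g : SL2 A) : S.pi (QuotientGroup.mk g) = 1 ↔ g ∈ GammaN N := by
  rw [pi_mk, S.map_red_eq_one_iff]

theorem central (d : S.X) (hd : S.pi d = 1) (x : S.X) : d * x = x * d := by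
  obtain ⟨g, rfl⟩ := QuotientGroup.mk_surjective d
  obtain ⟨y, rfl⟩ := QuotientGroup.mk_surjective x
  rw [S.pi_eq_one_iff] at hd
  have nm := (inferInstance : (GammaN N).Normal)
  show (QuotientGroup.mk (g * y) : S.X) = QuotientGroup.mk (y * g)
  rw [S.mk_eq_mk_iff]
  have e : (g * y)⁻¹ * (y * g) = (y⁻¹ * g⁻¹ * y⁻¹⁻¹) * g := by group
  have h1 : y⁻¹ * g⁻¹ * y⁻¹⁻¹ ∈ GammaN N := nm.conj_mem _ (inv_mem hd) _
  rw [e]
  refine ⟨mul_mem h1 hd, ?_⟩
  rw [S.P.map_mul _ _ (GammaN_le_Gamma0 N h1) (GammaN_le_Gamma0 N hd),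
    S.conjInv y⁻¹ g⁻¹ (inv_mem hd), S.P.map_inv (GammaN_le_Gamma0 N hd), inv_mul_cancel]

theorem pow_p_X (d : S.X) (hd : S.pi d = 1) : d ^ S.p = 1 := by
  obtain ⟨g, rfl⟩ := QuotientGroup.mk_surjective d
  rw [S.pi_eq_one_iff] at hd
  show (QuotientGroup.mk (g ^ S.p) : S.X) = QuotientGroup.mk 1
  rw [S.mk_eq_mk_iff, mul_one]
  exact inv_mem ⟨pow_mem hd _, by rw [phi_pow S.P (GammaN_le_Gamma0 N hd), S.pow_p]⟩


theorem mem_Gamma0_of_pi {g : SL2 A} (h : (S.pi (QuotientGroup.mk g) : SL2 (ZMod n)) 1 0 = 0) :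
    g ∈ Gamma0 N := by
  rw [pi_mk, map_entry, S.red_ker] at h
  exact h

theorem AB_X (a b : S.X)
    (ha1 : (S.pi a : Matrix (Fin 2) (Fin 2) (ZMod n)) 0 1 = 0)
    (ha2 : (S.pi a : Matrix (Fin 2) (Fin 2) (ZMod n)) 1 0 = 0)
    (hb1 : (S.pi b : Matrix (Fin 2) (Fin 2) (ZMod n)) 0 1 = 0)
    (hb2 : (S.pi b : Matrix (Fin 2) (Fin 2) (ZMod n)) 1 0 = 0) : a * b = b * a := by
  obtain ⟨g₁, rfl⟩ := QuotientGroup.mk_surjective a
  obtain ⟨g₂, rfl⟩ := QuotientGroup.mk_surjective b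
  have hg₁ : g₁ ∈ Gamma0 N := S.mem_Gamma0_of_pi ha2
  have hg₂ : g₂ ∈ Gamma0 N := S.mem_Gamma0_of_pi hb2
  show (QuotientGroup.mk (g₁ * g₂) : S.X) = QuotientGroup.mk (g₂ * g₁)
  rw [S.mk_eq_mk_iff]
  have hcomm : S.pi (QuotientGroup.mk g₁) * S.pi (QuotientGroup.mk g₂)
      = S.pi (QuotientGroup.mk g₂) * S.pi (QuotientGroup.mk g₁) := by
    have ha1' : (S.pi (QuotientGroup.mk g₁) : SL2 (ZMod n)) 0 1 = 0 := ha1
    have ha2' : (S.pi (QuotientGroup.mk g₁) : SL2 (ZMod n)) 1 0 = 0 := ha2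
    have hb1' : (S.pi (QuotientGroup.mk g₂) : SL2 (ZMod n)) 0 1 = 0 := hb1
    have hb2' : (S.pi (QuotientGroup.mk g₂) : SL2 (ZMod n)) 1 0 = 0 := hb2
    apply ext2 <;> (simp only [mul_entry, ha1', ha2', hb1', hb2']; ring)
  refine ⟨?_, ?_⟩
  · rw [← S.pi_eq_one_iff, QuotientGroup.mk_mul, QuotientGroup.mk_inv, QuotientGroup.mk_mul,
      QuotientGroup.mk_mul, map_mul, map_inv, map_mul, map_mul, hcomm, inv_mul_cancel]
  · rw [S.P.map_mul _ _ (inv_mem (mul_mem hg₁ hg₂)) (mul_mem hg₂ hg₁),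
      S.P.map_inv (mul_mem hg₁ hg₂), S.P.map_mul _ _ hg₁ hg₂, S.P.map_mul _ _ hg₂ hg₁,
      mul_comm (S.P.φ g₂), inv_mul_cancel]

/-- conjugating a whole additive family, given the conjugate of its value at `1`. -/
theorem conj_family {G : Type*} [Group G] (f g : ZMod n → G)
    (hf : ∀ s t, f (s + t) = f s * f t) (hg : ∀ s t, g (s + t) = g s * g t)
    (M : G) (c : ZMod n) (h1 : M * f 1 * M⁻¹ = g c) (t : ZMod n) :
    M * f t * M⁻¹ = g (c * t) := by
  have ht : ((t.cast : ℤ) : ZMod n) = t := ZMod.intCast_zmod_cast t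
  have e1 : f t = f 1 ^ (t.cast : ℤ) := by
    have := map_intCast_mul_of_add f hf (t.cast : ℤ) 1
    rwa [mul_one, ht] at this
  have e2 : g (c * t) = g c ^ (t.cast : ℤ) := by
    have := map_intCast_mul_of_add g hg (t.cast : ℤ) c
    rwa [ht, mul_comm] at this
  rw [e1, e2, ← h1, conj_zpow]

theorem isCoprime_lift (x : (ZMod n)ˣ) : IsCoprime (S.lift (x : ZMod n)) N := by
  have h : S.red (S.lift (x : ZMod n) * S.lift ((x⁻¹ : (ZMod n)ˣ) : ZMod n)) = S.red 1 := by
    rw [map_mul, S.red_lift, S.red_lift, map_one, Units.mul_inv]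
  obtain ⟨c, hc⟩ := S.dvd_sub_of_red_eq h
  exact ⟨S.lift ((x⁻¹ : (ZMod n)ˣ) : ZMod n), -c, by linear_combination hc⟩

/-- the Weyl-type element of `x` in the quotient, and the two Steinberg relations at `t = 1`. -/
theorem steinberg_one (x : (ZMod n)ˣ) :
    (S.lh x * S.uh (-((x⁻¹ : (ZMod n)ˣ) : ZMod n)) * S.lh x) * S.uh 1 *
        (S.lh x * S.uh (-((x⁻¹ : (ZMod n)ˣ) : ZMod n)) * S.lh x)⁻¹ = S.lh (-((x : ZMod n) ^ 2)) ∧
    (S.lh x * S.uh (-((x⁻¹ : (ZMod n)ˣ) : ZMod n)) * S.lh x) * S.lh 1 *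
        (S.lh x * S.uh (-((x⁻¹ : (ZMod n)ˣ) : ZMod n)) * S.lh x)⁻¹
      = S.uh (-(((x⁻¹ : (ZMod n)ˣ) : ZMod n) ^ 2)) := by
  obtain ⟨y, hy, hd1, hφ1, hd2, hφ2⟩ := S.P.thmR S.good (S.isCoprime_lift x)
  set x' : A := S.lift (x : ZMod n) with hx'
  have hredx : S.red x' = x := S.red_lift _
  have hredy : S.red y = ((x⁻¹ : (ZMod n)ˣ) : ZMod n) := by
    have h : S.red (1 - x' * y) = 0 := (S.red_ker _).mpr hy
    rw [map_sub, map_one, map_mul, hredx, sub_eq_zero] at h
    calc S.red y = ((x⁻¹ : (ZMod n)ˣ) : ZMod n) * ((x : ZMod n) * S.red y) := by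
          rw [← mul_assoc, Units.inv_mul, one_mul]
      _ = ((x⁻¹ : (ZMod n)ˣ) : ZMod n) := by rw [← h, mul_one]
  have hM : (QuotientGroup.mk (mW x' y) : S.X)
      = S.lh x * S.uh (-((x⁻¹ : (ZMod n)ˣ) : ZMod n)) * S.lh x := by
    rw [mW, QuotientGroup.mk_mul, QuotientGroup.mk_mul, S.mk_l, S.mk_u, map_neg, hredx, hredy]
  rw [← hM]
  constructor
  · have h1 : (QuotientGroup.mk (defect1 x' y) : S.X) = 1 :=
      (QuotientGroup.eq_one_iff _).mpr ⟨hd1, hφ1⟩
    rw [defect1, QuotientGroup.mk_mul, QuotientGroup.mk_mul, QuotientGroup.mk_mul,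
      QuotientGroup.mk_inv, S.mk_u, S.mk_l, map_one, map_pow, hredx, mul_eq_one_iff_eq_inv] at h1
    rw [h1, eq_comm, ← mul_eq_one_iff_eq_inv, ← S.lh_add, neg_add_cancel]
    show (QuotientGroup.mk (l (S.lift 0)) : S.X) = 1
    rw [S.mk_l, S.red_lift, ← map_zero S.red, ← S.mk_l, l_zero]; rfl
  · have h2 : (QuotientGroup.mk (defect2 x' y) : S.X) = 1 :=
      (QuotientGroup.eq_one_iff _).mpr ⟨hd2, hφ2⟩
    rw [defect2, QuotientGroup.mk_mul, QuotientGroup.mk_mul, QuotientGroup.mk_mul,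
      QuotientGroup.mk_inv, S.mk_u, S.mk_l, map_one, map_pow, hredy, mul_eq_one_iff_eq_inv] at h2
    rw [h2, eq_comm, ← mul_eq_one_iff_eq_inv, ← S.uh_add, neg_add_cancel]
    show (QuotientGroup.mk (u (S.lift 0)) : S.X) = 1
    rw [S.mk_u, S.red_lift, ← map_zero S.red, ← S.mk_u, u_zero]; rfl


/-- the central extension `SL(2, A) ⧸ K → SL(2, ZMod n)` satisfies the hypotheses of part C. -/
noncomputable def cext : CExt9.CExt n S.X where
  π := S.pi
  uh := S.uh
  lh := S.lh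
  uh_add := S.uh_add
  lh_add := S.lh_add
  π_uh := fun t => by rw [S.pi_uh]; rfl
  π_lh := fun t => by rw [S.pi_lh]; rfl
  gen := S.gen_X
  central := S.central
  R1 := fun x t => by
    have h := conj_family S.uh S.lh S.uh_add S.lh_add _ _ (S.steinberg_one x).1 t
    rw [h, neg_mul]
  R1' := fun x t => by
    have h := conj_family S.lh S.uh S.lh_add S.uh_add _ _ (S.steinberg_one x).2 t
    rw [h, neg_mul]
  AB := S.AB_X
  p := S.p
  p_odd := S.p_odd
  pow_p := S.pow_p_X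

/-- **generic assembly**: if part C holds for `n`, then `φ` is trivial on `Γ(N)(A)`. -/
theorem phi_eq_one_of_triv (hT : CExt9.Triv.{u} n) {g : SL2 A} (hg : g ∈ GammaN N) :
    S.P.φ g = 1 := by
  have h1 : (QuotientGroup.mk g : S.X) = 1 :=
    hT S.X S.cext (QuotientGroup.mk g) ((S.pi_eq_one_iff g).mpr hg)
  exact ((QuotientGroup.eq_one_iff g).mp h1).2


/-- **(MEN), generic form**: if part C holds for `n`, then on `Γ₀(N)(A)` the value `φ g` depends
only on `g₀₀ mod N`. -/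
theorem phi_eq_of_triv (hT : CExt9.Triv.{u} n) {g g' : SL2 A} (hg : g ∈ Gamma0 N)
    (hg' : g' ∈ Gamma0 N) (h : S.red (g 0 0) = S.red (g' 0 0)) : S.P.φ g = S.P.φ g' := by
  have r10 : S.red (g 1 0) = 0 := (S.red_ker _).mpr hg
  have r10' : S.red (g' 1 0) = 0 := (S.red_ker _).mpr hg'
  have hdet : S.red (g 0 0) * S.red (g 1 1) = 1 := by
    have := congrArg S.red (det_eq g)
    rw [map_sub, map_mul, map_mul, r10, mul_zero, sub_zero, map_one] at this
    exact this
  set k := g⁻¹ * g' with hk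
  have hkG : k ∈ Gamma0 N := mul_mem (inv_mem hg) hg'
  have k00 : S.red (k 0 0) = 1 := by
    rw [hk, mul_entry, inv_00, inv_01, map_add, map_mul, map_mul, r10', mul_zero, add_zero, ← h,
      mul_comm]
    exact hdet
  have k10 : S.red (k 1 0) = 0 := (S.red_ker _).mpr hkG
  have k11 : S.red (k 1 1) = 1 := by
    have := congrArg S.red (det_eq k)
    rw [map_sub, map_mul, map_mul, k00, k10, mul_zero, sub_zero, one_mul, map_one] at this
    exact this
  have hmem : k * u (-(k 0 1)) ∈ GammaN N := by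
    rw [← S.map_red_eq_one_iff]
    apply ext2 <;> simp [map_entry, mul_entry, k00, k10, k11]
  have h1 : S.P.φ k = 1 := by
    rw [← S.P.map_mul_u hkG (-(k 0 1))]
    exact S.phi_eq_one_of_triv hT hmem
  have h2 : g' = g * k := by rw [hk, mul_inv_cancel_left]
  rw [h2, S.P.map_mul _ _ hg hkG, h1, mul_one]

end Setup

end Fermat.Agent.ES.MEN.SL2Quot13
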