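import Mathlib
import Fermat.Agent.ES.MEN.GoodModulus25

/-!
# (MEN), part C, arithmetic of square classes in `(ℤ/l^e)ˣ`, `l` odd (helper25)

Input of the step "`c(ν,ν) = 0`" of `MEN_PROOF9.md` §4 (`l` odd):

* `isSquare_iff_unitsMap` : a unit of `ℤ/l^(m+1)` is a square iff its reduction mod `l` is;
* `isSquare_mul_of_not_isSquare` : the product of two non-squares of `(ℤ/l^e)ˣ` is a square;
* `exists_nonsquare_pred_square` : there is a unit `u`, not a square, such that `u - 1` is a unit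
  and a square (least non-residue trick).
-/

namespace Fermat.Agent.ES.MEN.SquareClass25

open Fermat.Agent.ES.MEN.GoodModulus25

/-- In a finite group of odd order every element is a square. -/
theorem isSquare_of_odd_card {G : Type*} [Group G] [Finite G] (hodd : Odd (Nat.card G)) (x : G) :
    IsSquare x := by
  obtain ⟨k, hk⟩ := hodd
  refine ⟨x ^ (k + 1), ?_⟩
  have h1 : x ^ (2 * k + 1) = 1 := by rw [← hk]; exact pow_card_eq_one'
  calc x = x ^ (2 * k + 1) * x := by rw [h1, one_mul]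
    _ = x ^ (k + 1) * x ^ (k + 1) := by rw [← pow_succ, ← pow_add]; congr 1; ring

variable {l : ℕ}

/-- A unit of `ℤ/l^(m+1)` (`l` odd prime) is a square iff its reduction mod `l` is a square. -/
theorem isSquare_iff_unitsMap (hl : l.Prime) (hl2 : l ≠ 2) (m : ℕ) (x : (ZMod (l ^ (m + 1)))ˣ) :
    IsSquare x ↔ IsSquare (ZMod.unitsMap (dvd_pow_self l (Nat.succ_ne_zero m)) x) := by
  have : NeZero l := ⟨hl.ne_zero⟩
  have : NeZero (l ^ (m + 1)) := ⟨pow_ne_zero _ hl.ne_zero⟩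
  set f := ZMod.unitsMap (dvd_pow_self l (Nat.succ_ne_zero m)) with hf
  constructor
  · rintro ⟨y, rfl⟩
    exact ⟨f y, by rw [map_mul]⟩
  · rintro ⟨y', hy'⟩
    obtain ⟨y, rfl⟩ := ZMod.unitsMap_surjective (dvd_pow_self l (Nat.succ_ne_zero m)) y'
    have hker : x * (y * y)⁻¹ ∈ f.ker := by
      rw [MonoidHom.mem_ker, map_mul, map_inv, map_mul, hy']
      exact mul_inv_cancel _
    have hodd : Odd (Nat.card f.ker) := by
      rw [hf, card_ker_unitsMap hl.pos m]
      exact (hl.odd_of_ne_two hl2).pow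
    obtain ⟨⟨z, hz⟩, hzz⟩ := isSquare_of_odd_card hodd ⟨x * (y * y)⁻¹, hker⟩
    have h1 : x * (y * y)⁻¹ = z * z := by
      have := congrArg Subtype.val hzz
      simpa using this
    refine ⟨z * y, ?_⟩
    have h2 : x = (z * z) * (y * y) := by rw [← h1]; group
    rw [h2]
    exact mul_mul_mul_comm z z y y

/-- The product of two non-squares of `(ℤ/l^e)ˣ` (`l` odd prime) is a square. -/
theorem isSquare_mul_of_not_isSquare (hl : l.Prime) (hl2 : l ≠ 2) (e : ℕ)
    {a b : (ZMod (l ^ e))ˣ} (ha : ¬ IsSquare a) (hb : ¬ IsSquare b) : IsSquare (a * b) := by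
  have hcyc : IsCyclic (ZMod (l ^ e))ˣ := ZMod.isCyclic_units_of_prime_pow l hl hl2 e
  obtain ⟨g, hg⟩ := hcyc.exists_generator
  obtain ⟨i, rfl⟩ := Subgroup.mem_zpowers_iff.1 (hg a)
  obtain ⟨j, rfl⟩ := Subgroup.mem_zpowers_iff.1 (hg b)
  have hi : Odd i := by
    rw [← Int.not_even_iff_odd]
    rintro ⟨k, rfl⟩
    exact ha ⟨g ^ k, by rw [← zpow_add]⟩
  have hj : Odd j := by
    rw [← Int.not_even_iff_odd]
    rintro ⟨k, rfl⟩
    exact hb ⟨g ^ k, by rw [← zpow_add]⟩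
  obtain ⟨k, hk⟩ := hi.add_odd hj
  exact ⟨g ^ k, by rw [← zpow_add, ← zpow_add, hk]⟩

/-- In `𝔽_l`, `l` odd: a non-square `u` with `u - 1` a nonzero square. -/
theorem exists_nonsquare_pred_square_field (hl : l.Prime) (hl2 : l ≠ 2) :
    ∃ u : ZMod l, ¬ IsSquare u ∧ u - 1 ≠ 0 ∧ IsSquare (u - 1) := by
  have : Fact l.Prime := ⟨hl⟩
  have hchar : ringChar (ZMod l) ≠ 2 := by rwa [ZMod.ringChar_zmod_n]
  obtain ⟨a, ha⟩ := FiniteField.exists_nonsquare hchar
  have hex : ∃ n : ℕ, ¬ IsSquare ((n : ℕ) : ZMod l) := ⟨a.val, by rwa [ZMod.natCast_zmod_val]⟩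
  classical
  set ν := Nat.find hex with hν
  have hνns : ¬ IsSquare ((ν : ℕ) : ZMod l) := Nat.find_spec hex
  have hνle : ν ≤ a.val := Nat.find_min' hex (by rwa [ZMod.natCast_zmod_val])
  have hνlt : ν < l := lt_of_le_of_lt hνle (ZMod.val_lt a)
  have hν0 : ν ≠ 0 := by
    intro h0
    rw [h0] at hνns
    exact hνns ⟨0, by simp⟩
  have hν1 : ν ≠ 1 := by
    intro h1
    rw [h1] at hνns
    exact hνns ⟨1, by simp⟩
  have hsq : IsSquare (((ν - 1 : ℕ) : ℕ) : ZMod l) := by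
    by_contra h
    have := Nat.find_min hex (m := ν - 1) (by omega)
    exact this h
  have hcast : (((ν - 1 : ℕ) : ℕ) : ZMod l) = (ν : ZMod l) - 1 := by
    rw [Nat.cast_sub (by omega)]; simp
  refine ⟨(ν : ZMod l), hνns, ?_, ?_⟩
  · rw [← hcast, Ne, ZMod.natCast_eq_zero_iff]
    intro hdvd
    have := Nat.le_of_dvd (by omega) hdvd
    omega
  · rwa [← hcast]

/-- **(RN)**: in `(ℤ/l^(m+1))ˣ`, `l` odd prime, there is a non-square `u` such that `u - 1` is
(the value of) a square unit. -/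
theorem exists_nonsquare_pred_square (hl : l.Prime) (hl2 : l ≠ 2) (m : ℕ) :
    ∃ u v : (ZMod (l ^ (m + 1)))ˣ, ¬ IsSquare u ∧ IsSquare v ∧
      (v : ZMod (l ^ (m + 1))) = (u : ZMod (l ^ (m + 1))) - 1 := by
  have : Fact l.Prime := ⟨hl⟩
  have : NeZero (l ^ (m + 1)) := ⟨pow_ne_zero _ hl.ne_zero⟩
  have hdvd : l ∣ l ^ (m + 1) := dvd_pow_self l (Nat.succ_ne_zero m)
  obtain ⟨u', hu'ns, hu'1, hu'sq⟩ := exists_nonsquare_pred_square_field hl hl2
  have hu'0 : u' ≠ 0 := by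
    rintro rfl
    exact hu'ns ⟨0, by simp⟩
  obtain ⟨u, hu⟩ := ZMod.unitsMap_surjective hdvd (Units.mk0 u' hu'0)
  -- `u - 1` is a unit
  have hred : ZMod.castHom hdvd (ZMod l) ((u : ZMod (l ^ (m + 1))) - 1) = u' - 1 := by
    have := congrArg Units.val hu
    rw [ZMod.unitsMap_def, Units.coe_map] at this
    simp only [MonoidHom.coe_coe, Units.val_mk0] at this
    rw [map_sub, map_one, this]
  have hunit : IsUnit ((u : ZMod (l ^ (m + 1))) - 1) := by
    have hx : ((((u : ZMod (l ^ (m + 1))) - 1).val : ℕ) : ZMod (l ^ (m + 1)))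
        = (u : ZMod (l ^ (m + 1))) - 1 := ZMod.natCast_zmod_val _
    rw [← hx, ZMod.isUnit_iff_coprime]
    apply Nat.Coprime.pow_right
    rw [Nat.coprime_comm, Nat.Prime.coprime_iff_not_dvd hl]
    intro hd
    apply hu'1
    rw [← hred, ← hx, map_natCast]
    exact (ZMod.natCast_eq_zero_iff _ _).2 hd
  obtain ⟨v, hv⟩ := hunit
  refine ⟨u, v, ?_, ?_, hv⟩
  · rw [isSquare_iff_unitsMap hl hl2 m, hu]
    rintro ⟨y, hy⟩
    exact hu'ns ⟨(y : ZMod l), by
      have := congrArg Units.val hy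
      simpa using this⟩
  · rw [isSquare_iff_unitsMap hl hl2 m]
    obtain ⟨s, hs⟩ := hu'sq
    have hs0 : s ≠ 0 := by
      rintro rfl
      apply hu'1
      rw [hs]; simp
    refine ⟨Units.mk0 s hs0, ?_⟩
    apply Units.ext
    rw [ZMod.unitsMap_def, Units.coe_map]
    simp only [MonoidHom.coe_coe, Units.val_mul, Units.val_mk0]
    rw [hv, hred, hs]

end Fermat.Agent.ES.MEN.SquareClass25
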