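import Fermat.Agent.ES.MEN.CExt9

set_option autoImplicit false

/-!
# (MEN), part C0: formal consequences of the Steinberg relations (R1), (R1')

Notation of MEN_PROOF9.md §4: `m x = lh x * uh (-1/x) * lh x`, `w = m 1`, `hh v = m v * w⁻¹`.
-/

namespace Fermat.Agent.ES.MEN.CExt9

universe u

namespace CExt

variable {N : ℕ} {X : Type u} [Group X] (E : CExt N X)

local notation "R" => ZMod N

/-! ### additivity -/

theorem uh_zero : E.uh 0 = 1 := by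
  have h := E.uh_add 0 0
  rw [add_zero] at h
  exact (mul_eq_left.mp h.symm)

theorem lh_zero : E.lh 0 = 1 := by
  have h := E.lh_add 0 0
  rw [add_zero] at h
  exact (mul_eq_left.mp h.symm)

theorem uh_neg (t : R) : E.uh (-t) = (E.uh t)⁻¹ := by
  rw [eq_inv_iff_mul_eq_one, ← E.uh_add, neg_add_cancel, E.uh_zero]

theorem lh_neg (t : R) : E.lh (-t) = (E.lh t)⁻¹ := by
  rw [eq_inv_iff_mul_eq_one, ← E.lh_add, neg_add_cancel, E.lh_zero]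

theorem uh_comm (s t : R) : E.uh s * E.uh t = E.uh t * E.uh s := by
  rw [← E.uh_add, ← E.uh_add, add_comm]

theorem lh_comm (s t : R) : E.lh s * E.lh t = E.lh t * E.lh s := by
  rw [← E.lh_add, ← E.lh_add, add_comm]

/-! ### the elements `m x`, `w`, `hh v` -/

/-- `m x = lh x * uh (-1/x) * lh x`, a lift of `[[0, -1/x], [x, 0]]`. -/
def m (x : Rˣ) : X := E.lh x * E.uh (-((x⁻¹ : Rˣ) : R)) * E.lh x

/-- `w = m 1`. -/
def w : X := E.m 1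

/-- `hh v = m v * w⁻¹`, a lift of `diag (1/v, v)`. -/
def hh (v : Rˣ) : X := E.m v * E.w⁻¹

theorem m_conj_uh (x : Rˣ) (t : R) :
    E.m x * E.uh t * (E.m x)⁻¹ = E.lh (-((x : R) ^ 2 * t)) := E.R1 x t

theorem m_conj_lh (x : Rˣ) (t : R) :
    E.m x * E.lh t * (E.m x)⁻¹ = E.uh (-(((x⁻¹ : Rˣ) : R) ^ 2 * t)) := E.R1' x t

/-- L1. -/
theorem m_inv (x : Rˣ) : (E.m x)⁻¹ = E.m (-x) := by
  unfold m
  have h1 : ((-x : Rˣ) : R) = -(x : R) := Units.val_neg x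
  have h2 : (((-x)⁻¹ : Rˣ) : R) = -((x⁻¹ : Rˣ) : R) := by
    rw [inv_neg]; exact Units.val_neg _
  rw [h1, h2, neg_neg, E.lh_neg, E.uh_neg]
  group

theorem hh_one : E.hh 1 = 1 := by
  unfold hh w; exact mul_inv_cancel _

/-- L2: `uh a * lh (-1/a) * uh a = m (-1/a)`. -/
theorem mplus_eq (a : Rˣ) :
    E.uh a * E.lh (-((a⁻¹ : Rˣ) : R)) * E.uh a = E.m (-a⁻¹) := by
  set y : Rˣ := -a⁻¹ with hy
  have hyv : (y : R) = -((a⁻¹ : Rˣ) : R) := by rw [hy]; exact Units.val_neg _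
  have hyi : ((y⁻¹ : Rˣ) : R) = -(a : R) := by
    rw [hy, inv_neg, inv_inv]; exact Units.val_neg _
  -- conjugate `m y` by itself
  have key : E.m y = (E.m y * E.lh y * (E.m y)⁻¹) * (E.m y * E.uh (-((y⁻¹ : Rˣ) : R)) * (E.m y)⁻¹)
      * (E.m y * E.lh y * (E.m y)⁻¹) := by
    conv_lhs => rw [show E.m y = E.m y * E.m y * (E.m y)⁻¹ by group]
    conv_lhs => enter [1, 2]; unfold m
    group
  rw [E.m_conj_lh, E.m_conj_uh] at key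
  rw [key]
  have e1 : -(((y⁻¹ : Rˣ) : R) ^ 2 * (y : R)) = (a : R) := by
    have : ((y⁻¹ : Rˣ) : R) * (y : R) = 1 := by rw [← Units.val_mul]; simp
    rw [pow_two, mul_assoc, this, mul_one, hyi, neg_neg]
  have e2 : -((y : R) ^ 2 * -((y⁻¹ : Rˣ) : R)) = -((a⁻¹ : Rˣ) : R) := by
    have : (y : R) * ((y⁻¹ : Rˣ) : R) = 1 := by rw [← Units.val_mul]; simp
    rw [pow_two, mul_neg, neg_neg, mul_assoc, this, mul_one, hyv]
  rw [e1, e2]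


/-! ### commutation forms of (R1), (R1') -/

theorem m_mul_uh (x : Rˣ) (t : R) : E.m x * E.uh t = E.lh (-((x : R) ^ 2 * t)) * E.m x := by
  rw [← E.m_conj_uh]; group

theorem m_mul_lh (x : Rˣ) (t : R) :
    E.m x * E.lh t = E.uh (-(((x⁻¹ : Rˣ) : R) ^ 2 * t)) * E.m x := by
  rw [← E.m_conj_lh]; group

theorem w_inv : E.w⁻¹ = E.m (-1) := E.m_inv 1

theorem w_mul_uh (t : R) : E.w * E.uh t = E.lh (-t) * E.w := by
  have := E.m_mul_uh 1 t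
  simpa [w] using this

theorem w_mul_lh (t : R) : E.w * E.lh t = E.uh (-t) * E.w := by
  have := E.m_mul_lh 1 t
  simpa [w] using this

theorem winv_mul_uh (t : R) : E.w⁻¹ * E.uh t = E.lh (-t) * E.w⁻¹ := by
  rw [E.w_inv]
  have := E.m_mul_uh (-1) t
  simpa using this

theorem winv_mul_lh (t : R) : E.w⁻¹ * E.lh t = E.uh (-t) * E.w⁻¹ := by
  rw [E.w_inv]
  have := E.m_mul_lh (-1) t
  simpa using this

/-- L3 for `uh`. -/
theorem hh_mul_uh (v : Rˣ) (t : R) :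
    E.hh v * E.uh t = E.uh (((v⁻¹ : Rˣ) : R) ^ 2 * t) * E.hh v := by
  unfold hh
  rw [mul_assoc, E.winv_mul_uh, ← mul_assoc, E.m_mul_lh, mul_assoc]
  congr 2
  ring

/-- L3 for `lh`. -/
theorem hh_mul_lh (v : Rˣ) (t : R) :
    E.hh v * E.lh t = E.lh ((v : R) ^ 2 * t) * E.hh v := by
  unfold hh
  rw [mul_assoc, E.winv_mul_lh, ← mul_assoc, E.m_mul_uh, mul_assoc]
  congr 2
  ring

theorem m_eq_hh_mul_w (v : Rˣ) : E.m v = E.hh v * E.w := by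
  unfold hh; group

/-- L4 for `hh`. -/
theorem hh_mul_m (z v : Rˣ) : E.hh z * E.m v = E.m (z ^ 2 * v) * E.hh z := by
  have hz : (z : R) * ((z⁻¹ : Rˣ) : R) = 1 := by rw [← Units.val_mul]; simp
  have hv : (v : R) * ((v⁻¹ : Rˣ) : R) = 1 := by rw [← Units.val_mul]; simp
  conv_lhs => unfold m
  rw [← mul_assoc, ← mul_assoc, E.hh_mul_lh, mul_assoc (E.lh _), E.hh_mul_uh,
    ← mul_assoc, mul_assoc (E.lh _ * E.uh _), E.hh_mul_lh, ← mul_assoc]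
  congr 1
  unfold m
  have e1 : ((z ^ 2 * v : Rˣ) : R) = (z : R) ^ 2 * v := by push_cast; ring
  have e2 : (((z ^ 2 * v)⁻¹ : Rˣ) : R) = ((z⁻¹ : Rˣ) : R) ^ 2 * ((v⁻¹ : Rˣ) : R) := by
    rw [mul_inv, ← inv_pow]; push_cast; ring
  rw [e1, e2]
  congr 3
  ring

/-- L5. -/
theorem m_mul_m_mul_inv (v v' : Rˣ) : E.m v * E.m v' * (E.m v)⁻¹ = E.m (v ^ 2 * v'⁻¹) := by
  have key : E.m v * E.m v' * (E.m v)⁻¹ =
      (E.m v * E.lh v' * (E.m v)⁻¹) * (E.m v * E.uh (-((v'⁻¹ : Rˣ) : R)) * (E.m v)⁻¹)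
        * (E.m v * E.lh v' * (E.m v)⁻¹) := by
    conv_lhs => enter [1, 2]; unfold m
    group
  rw [key, E.m_conj_lh, E.m_conj_uh]
  set a : Rˣ := -(v⁻¹ ^ 2 * v') with ha
  have hav : (a : R) = -(((v⁻¹ : Rˣ) : R) ^ 2 * (v' : R)) := by
    rw [ha]; push_cast; ring
  have hai : ((a⁻¹ : Rˣ) : R) = -((v : R) ^ 2 * ((v'⁻¹ : Rˣ) : R)) := by
    rw [ha, inv_neg, mul_inv, ← inv_pow, inv_inv]; push_cast; ring
  have := E.mplus_eq a
  rw [hav, hai] at this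
  have e : -a⁻¹ = v ^ 2 * v'⁻¹ := by
    rw [ha, inv_neg, neg_neg, mul_inv, ← inv_pow, inv_inv]
  rw [e] at this
  rw [← this]
  congr 3
  ring

/-- L6a. -/
theorem w_mul_hh (v : Rˣ) : E.w * E.hh v = E.hh v⁻¹ * E.w := by
  have h := E.m_mul_m_mul_inv 1 v
  simp only [one_pow, one_mul] at h
  have hw : E.m 1 = E.w := rfl
  rw [hw] at h
  unfold hh
  rw [← h]; group

/-- L6b: `w² = hh(-1)⁻¹`. -/
theorem w_mul_w : E.w * E.w = (E.hh (-1))⁻¹ := by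
  unfold hh
  rw [← E.w_inv, _root_.mul_inv_rev, inv_inv]

/-- L6c. -/
theorem m_mul_m (a b : Rˣ) : E.m a * E.m b = E.hh a * E.hh b⁻¹ * (E.w * E.w) := by
  rw [E.m_eq_hh_mul_w a, E.m_eq_hh_mul_w b, mul_assoc, ← mul_assoc E.w, E.w_mul_hh]
  group

/-- L7 (without commutativity): `hh (z² v) = hh z * hh v * (hh z⁻¹)⁻¹`. -/
theorem hh_sq_mul (z v : Rˣ) : E.hh (z ^ 2 * v) = E.hh z * E.hh v * (E.hh z⁻¹)⁻¹ := by
  have h := E.hh_mul_m z v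
  rw [E.m_eq_hh_mul_w v, E.m_eq_hh_mul_w (z ^ 2 * v)] at h
  -- hh z * (hh v * w) = hh (z² v) * w * hh z
  have h2 : E.w * E.hh z = E.hh z⁻¹ * E.w := E.w_mul_hh z
  have h3 : E.hh (z ^ 2 * v) = E.hh z * E.hh v * (E.w * (E.hh z)⁻¹ * E.w⁻¹) := by
    have : E.hh (z ^ 2 * v) = E.hh z * (E.hh v * E.w) * (E.hh z)⁻¹ * E.w⁻¹ := by
      rw [h]; group
    rw [this]; group
  rw [h3]
  congr 1
  have : E.w * (E.hh z)⁻¹ * E.w⁻¹ = (E.w * E.hh z * E.w⁻¹)⁻¹ := by group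
  rw [this, h2]; group


/-! ### images in `SL(2, ZMod N)` -/

theorem π_mul_coe (g h : X) :
    (E.π (g * h) : Matrix (Fin 2) (Fin 2) R) =
      (E.π g : Matrix (Fin 2) (Fin 2) R) * (E.π h : Matrix (Fin 2) (Fin 2) R) := by
  rw [map_mul]; exact Matrix.SpecialLinearGroup.coe_mul _ _

theorem π_inv_coe (g : X) :
    (E.π g⁻¹ : Matrix (Fin 2) (Fin 2) R) = Matrix.adjugate (E.π g : Matrix (Fin 2) (Fin 2) R) := by
  rw [map_inv]; exact Matrix.SpecialLinearGroup.coe_inv _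

theorem π_m (x : Rˣ) :
    (E.π (E.m x) : Matrix (Fin 2) (Fin 2) R) = !![0, -((x⁻¹ : Rˣ) : R); (x : R), 0] := by
  have hx : (x : R) * ((x⁻¹ : Rˣ) : R) = 1 := by rw [← Units.val_mul]; simp
  unfold m
  rw [π_mul_coe, π_mul_coe, E.π_lh, E.π_uh]
  ext i j
  fin_cases i <;> fin_cases j <;> simp [Matrix.mul_apply, Fin.sum_univ_two]

theorem π_w : (E.π E.w : Matrix (Fin 2) (Fin 2) R) = !![0, -1; 1, 0] := by
  have := E.π_m 1
  simpa [w] using this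

theorem π_hh (v : Rˣ) :
    (E.π (E.hh v) : Matrix (Fin 2) (Fin 2) R) = !![((v⁻¹ : Rˣ) : R), 0; 0, (v : R)] := by
  unfold hh
  rw [π_mul_coe, π_inv_coe, E.π_m, E.π_w, Matrix.adjugate_fin_two_of]
  ext i j
  fin_cases i <;> fin_cases j <;> simp [Matrix.mul_apply, Fin.sum_univ_two]

theorem hh_comm (a b : Rˣ) : E.hh a * E.hh b = E.hh b * E.hh a := by
  apply E.AB <;> rw [E.π_hh] <;> simp

/-- L7: `hh (v * z²) = hh v * hh (z²)`. -/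
theorem hh_mul_sq (v z : Rˣ) : E.hh (v * z ^ 2) = E.hh v * E.hh (z ^ 2) := by
  have h1 := E.hh_sq_mul z v
  have h2 := E.hh_sq_mul z 1
  rw [mul_one, E.hh_one, mul_one] at h2
  rw [mul_comm v, h1, h2, E.hh_comm z v, mul_assoc]


/-! ### L8 and the Steinberg identity -/

/-- for a unit `a`: `uh a = lh (1/a) * m (-1/a) * lh (1/a)`. -/
theorem uh_unit (a : Rˣ) :
    E.uh a = E.lh ((a⁻¹ : Rˣ) : R) * E.m (-a⁻¹) * E.lh ((a⁻¹ : Rˣ) : R) := by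
  have h1 : ((-a⁻¹ : Rˣ) : R) = -((a⁻¹ : Rˣ) : R) := Units.val_neg _
  have h2 : (((-a⁻¹)⁻¹ : Rˣ) : R) = -(a : R) := by
    rw [inv_neg, inv_inv]; exact Units.val_neg _
  conv_rhs => enter [1, 2]; unfold m
  rw [h1, h2, neg_neg, E.lh_neg]
  group

/-- for a unit `τ`: `lh τ = uh (1/τ) * m τ * uh (1/τ)`. -/
theorem lh_unit (τ : Rˣ) :
    E.lh τ = E.uh ((τ⁻¹ : Rˣ) : R) * E.m τ * E.uh ((τ⁻¹ : Rˣ) : R) := by
  have h := E.mplus_eq (-τ⁻¹)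
  have h1 : ((-τ⁻¹ : Rˣ) : R) = -((τ⁻¹ : Rˣ) : R) := Units.val_neg _
  have h2 : (((-τ⁻¹)⁻¹ : Rˣ) : R) = -(τ : R) := by
    rw [inv_neg, inv_inv]; exact Units.val_neg _
  have h3 : -(-τ⁻¹)⁻¹ = τ := by rw [inv_neg, inv_inv, neg_neg]
  rw [h1, h2, h3, neg_neg, E.uh_neg] at h
  rw [← h]
  group

/-- L8, first form. -/
theorem lh_mul_uh_unit (t : R) (t' r : Rˣ) (hr : (r : R) = 1 + t * t') :
    E.lh t * E.uh t' =
      E.uh ((t' : R) * ((r⁻¹ : Rˣ) : R)) * (E.m (-t'⁻¹) * E.m (t'⁻¹ * r⁻¹)) *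
        E.lh (t * ((r⁻¹ : Rˣ) : R)) := by
  have ht' : (t' : R) * ((t'⁻¹ : Rˣ) : R) = 1 := by rw [← Units.val_mul]; simp
  have hrr : (r : R) * ((r⁻¹ : Rˣ) : R) = 1 := by rw [← Units.val_mul]; simp
  set M := E.m (-t'⁻¹) with hM
  -- step 1
  have s1 : E.uh t' = M * E.uh (-(t' : R)) * E.lh ((t'⁻¹ : Rˣ) : R) := by
    have := E.mplus_eq t'
    rw [hM, ← this, E.uh_neg, E.lh_neg]; group
  -- step 2
  have s2 : E.lh t * M = M * E.uh (-((t' : R) ^ 2 * t)) := by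
    have h := E.m_mul_lh (t'⁻¹) t
    rw [inv_inv] at h
    have hMi : M⁻¹ = E.m (t'⁻¹) := by rw [hM, E.m_inv, neg_neg]
    rw [← hMi] at h
    calc E.lh t * M = M * (M⁻¹ * E.lh t) * M := by group
      _ = M * (E.uh (-((t' : R) ^ 2 * t)) * M⁻¹) * M := by rw [h]
      _ = M * E.uh (-((t' : R) ^ 2 * t)) := by group
  -- the unit `a = -(t' r)`
  set a : Rˣ := -(t' * r) with ha
  have hav : (a : R) = -((t' : R) * r) := by rw [ha]; push_cast; ring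
  have hai : ((a⁻¹ : Rˣ) : R) = -(((t'⁻¹ : Rˣ) : R) * ((r⁻¹ : Rˣ) : R)) := by
    rw [ha, inv_neg, mul_inv]; push_cast; ring
  have hna : -a⁻¹ = t'⁻¹ * r⁻¹ := by rw [ha, inv_neg, neg_neg, mul_inv]
  have s3 : E.uh (-((t' : R) ^ 2 * t)) * E.uh (-(t' : R)) = E.uh a := by
    rw [← E.uh_add, hav]; congr 1; rw [hr]; ring
  have s4 := E.uh_unit a
  rw [hna, hai] at s4
  -- step 5
  have s5 : M * E.lh (-(((t'⁻¹ : Rˣ) : R) * ((r⁻¹ : Rˣ) : R))) =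
      E.uh ((t' : R) * ((r⁻¹ : Rˣ) : R)) * M := by
    have h := E.m_mul_lh (-t'⁻¹) (-(((t'⁻¹ : Rˣ) : R) * ((r⁻¹ : Rˣ) : R)))
    rw [← hM] at h
    rw [h]
    congr 2
    have : (((-t'⁻¹)⁻¹ : Rˣ) : R) = -(t' : R) := by
      rw [inv_neg, inv_inv]; exact Units.val_neg _
    rw [this]
    linear_combination ((t' : R) * ((r⁻¹ : Rˣ) : R)) * ht'
  have s6 : E.lh (-(((t'⁻¹ : Rˣ) : R) * ((r⁻¹ : Rˣ) : R))) * E.lh ((t'⁻¹ : Rˣ) : R) =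
      E.lh (t * ((r⁻¹ : Rˣ) : R)) := by
    rw [← E.lh_add]; congr 1
    have h1 : (r : R) - 1 = t * t' := by rw [hr]; ring
    linear_combination (-((t'⁻¹ : Rˣ) : R)) * hrr + (((t'⁻¹ : Rˣ) : R) * ((r⁻¹ : Rˣ) : R)) * h1
      + (t * ((r⁻¹ : Rˣ) : R)) * ht'
  calc E.lh t * E.uh t'
      = E.lh t * M * E.uh (-(t' : R)) * E.lh ((t'⁻¹ : Rˣ) : R) := by rw [s1]; group
    _ = M * (E.uh (-((t' : R) ^ 2 * t)) * E.uh (-(t' : R))) * E.lh ((t'⁻¹ : Rˣ) : R) := by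
        rw [s2]; group
    _ = M * E.uh a * E.lh ((t'⁻¹ : Rˣ) : R) := by rw [s3]
    _ = (M * E.lh (-(((t'⁻¹ : Rˣ) : R) * ((r⁻¹ : Rˣ) : R)))) * E.m (t'⁻¹ * r⁻¹) *
          (E.lh (-(((t'⁻¹ : Rˣ) : R) * ((r⁻¹ : Rˣ) : R))) * E.lh ((t'⁻¹ : Rˣ) : R)) := by
        rw [s4]; group
    _ = E.uh ((t' : R) * ((r⁻¹ : Rˣ) : R)) * (M * E.m (t'⁻¹ * r⁻¹)) *
          E.lh (t * ((r⁻¹ : Rˣ) : R)) := by rw [s5, s6]; group


/-- L8, second form at `t = 1`. -/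
theorem lh_one_mul_uh (t' r : Rˣ) (hr : (r : R) = 1 + t') :
    E.lh 1 * E.uh t' =
      E.uh ((t' : R) * ((r⁻¹ : Rˣ) : R)) * (E.w * E.m (-r⁻¹)) * E.lh ((r⁻¹ : Rˣ) : R) := by
  have hrr : (r : R) * ((r⁻¹ : Rˣ) : R) = 1 := by rw [← Units.val_mul]; simp
  have s1 : E.lh 1 = E.w * E.lh (-1) * E.uh 1 := by
    have : E.w = E.lh 1 * E.uh (-1) * E.lh 1 := by
      unfold w m; simp
    rw [this, E.lh_neg, E.uh_neg]; group
  have s2 : E.uh 1 * E.uh t' = E.uh r := by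
    rw [← E.uh_add, hr]
  have s3 := E.uh_unit r
  have s4 : E.lh (-1) * E.lh ((r⁻¹ : Rˣ) : R) = E.lh (-((t' : R) * ((r⁻¹ : Rˣ) : R))) := by
    rw [← E.lh_add]; congr 1
    have h1 : (r : R) - 1 = t' := by rw [hr]; ring
    linear_combination hrr - (((r⁻¹ : Rˣ) : R)) * h1
  have s5 := E.w_mul_lh (-((t' : R) * ((r⁻¹ : Rˣ) : R)))
  rw [neg_neg] at s5
  calc E.lh 1 * E.uh t' = E.w * E.lh (-1) * (E.uh 1 * E.uh t') := by rw [s1]; group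
    _ = E.w * E.lh (-1) * E.uh r := by rw [s2]
    _ = E.w * (E.lh (-1) * E.lh ((r⁻¹ : Rˣ) : R)) * E.m (-r⁻¹) * E.lh ((r⁻¹ : Rˣ) : R) := by
        rw [s3]; group
    _ = (E.w * E.lh (-((t' : R) * ((r⁻¹ : Rˣ) : R)))) * E.m (-r⁻¹) * E.lh ((r⁻¹ : Rˣ) : R) := by
        rw [s4]
    _ = E.uh ((t' : R) * ((r⁻¹ : Rˣ) : R)) * (E.w * E.m (-r⁻¹)) * E.lh ((r⁻¹ : Rˣ) : R) := by
        rw [s5]; group

/-- **Steinberg identity** (`{u, 1-u} = 1` in disguise). -/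
theorem hh_steinberg (t' r : Rˣ) (hr : (r : R) = 1 + t') :
    E.hh (-r) = E.hh (-t'⁻¹) * E.hh (t' * r) := by
  have h1 := E.lh_mul_uh_unit 1 t' r (by rw [hr]; ring)
  have h2 := E.lh_one_mul_uh t' r hr
  rw [one_mul] at h1
  rw [h1] at h2
  have h3 : E.m (-t'⁻¹) * E.m (t'⁻¹ * r⁻¹) = E.w * E.m (-r⁻¹) := by
    have := mul_left_cancel (mul_right_cancel h2)
    exact this
  have hw : E.w = E.m 1 := rfl
  rw [hw, E.m_mul_m, E.m_mul_m, E.hh_one, one_mul] at h3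
  have h4 := mul_right_cancel h3
  have e1 : (t'⁻¹ * r⁻¹)⁻¹ = t' * r := by rw [mul_inv, inv_inv, inv_inv]
  have e2 : (-r⁻¹)⁻¹ = -r := by rw [inv_neg, inv_inv]
  rw [e1, e2] at h4
  exact h4.symm

end CExt

end Fermat.Agent.ES.MEN.CExt9
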